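import Fermat.Agent.AbVar.Cube.CurveBaseChange
import Fermat.Agent.MCurve.RiemannRoch.Spaces

/-!
# Sections on a curve over a larger field of constants

For a function field `F = k(C)` and `x : F`, the sections with poles bounded by `N` times the
poles of `x`, over `k`, over an algebraically closed extension, and twisted by a divisor.
-/

set_option autoImplicit false
set_option linter.style.haveILetI false

noncomputable section

open scoped Classical TensorProduct

namespace Fermat.Agent.AbVar

universe u

open Fermat.Agent.MCurve (IsFinOver)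
open Fermat.Agent.MCurve.RR AlgebraicCurve

variable {k : Type u} [Field k] [IsAlgClosed k] {F : Type u} [Field F] [Algebra k F]

theorem isFinOver_inv {x : F} (hx : IsFinOver k x) : IsFinOver k x⁻¹ :=
  hx.of_transcendental fun h => hx.transcendental (by simpa using h.inv)

/-- The sections over `k` with poles bounded by `N` times those of `x`. -/
theorem finite_poleSections {x : F} (hx : IsFinOver k x) (N : ℕ) :
    FiniteDimensional k (sections (poleDivN k x N)) :=
  finiteDimensional_poleSections hx N

/-- The twist by a divisor of finite support or by its negative has at least as many sections. -/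
theorem exists_independent_sections {x : F} (hx : IsFinOver k x) {Ω : Type u} [Field Ω]
    [Algebra k Ω] [IsAlgClosed Ω] (D : CDiv Ω (Big k Ω F)) (G : Finset (Big k Ω F))
    (hD : ∀ V : Val Ω (Big k Ω F), (∀ y ∈ G, y ∈ V.1) → D V = 0) :
    ∃ N : ℕ, 0 < N ∧ ∃ ε : ℤ, (ε = 1 ∨ ε = -1) ∧
      ∃ f : Fin (Module.finrank k (sections (poleDivN k x N))) → Big k Ω F,
        LinearIndependent Ω f ∧
          ∀ j, f j ∈ sections (ε • D + poleDivN Ω (incF k Ω F x) N) := by
  set y := incF k Ω F x
  have hy : IsFinOver Ω y := isFinOver_incF hx Ω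
  obtain ⟨hP, hR, hne⟩ := curve_props hy
  haveI := hP
  haveI := hR
  haveI := hne
  obtain ⟨g, c, hg⟩ := exists_isRiemann (K := Ω) (F := (Big k Ω F)) hy
  choose rD hrD hrD' using exists_vcls_eq D
  -- the twist as a divisor
  have hfin : {v : Place Ω (Big k Ω F) | v.ord (rD (placeVal v)) ≠ 0}.Finite := by
    refine (Set.Finite.biUnion ((G.finite_toSet).inter_of_left {z | z ≠ 0})
      fun z hz => finite_ord_ne_zero hy (f := z) hz.2).subset fun v hv => ?_
    simp only [Set.mem_iUnion, exists_prop]
    by_contra hcon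
    push Not at hcon
    have h0 : D (placeVal v) = 0 := hD _ fun z hz => by
      rcases eq_or_ne z 0 with rfl | hz0
      · exact zero_mem _
      · have := hcon z ⟨Finset.mem_coe.mpr hz, hz0⟩
        exact (MCurve.mem_iff_ord_nonneg v hz0).mpr (by simpa using (not_not.mp this).ge)
    rw [hrD' (placeVal v), vcls_eq_zero_iff (hrD _)] at h0
    refine hv (le_antisymm ?_ (MCurve.ord_nonneg_of_mem' v h0.1))
    have := MCurve.ord_nonneg_of_mem' v h0.2
    rw [v.ord_inv] at this
    omega
  let DD : Divisor Ω (Big k Ω F) := Finsupp.onFinset hfin.toFinset (fun v => v.ord (rD (placeVal v)))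
    fun v hv => hfin.mem_toFinset.mpr hv
  set P := poleDiv Ω y
  have hdP : 1 ≤ Divisor.degree P := by
    obtain ⟨v, hv⟩ := exists_pole (K := Ω) hy.transcendental
    refine le_trans (by rw [degree_single_one]) (degree_le_of_le (D := Finsupp.single v 1)
      (Finsupp.le_def.mpr fun w => ?_))
    rw [Finsupp.single_apply, poleDiv_apply]
    split_ifs with h
    · subst h; omega
    · omega
  refine ⟨c + 1, Nat.succ_pos _, ?_⟩
  set N := c + 1 with hN
  haveI := finiteDimensional_poleSections hx N
  haveI := finiteDimensional_space hy (smul_poleDiv_nonneg (k := Ω) y N)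
  let b := Module.finBasis k (sections (poleDivN k x N))
  have hmem : ∀ i, incF k Ω F (b i : F) ∈ riemannRochSpace ((N : ℤ) • P) := fun i => by
    rw [← poleSections_eq_space hy N]
    exact incF_mem_poleSections Ω (b i).2
  have hle : Module.finrank k (sections (poleDivN k x N)) ≤ ell ((N : ℤ) • P) := by
    have hli : LinearIndependent Ω fun i => (⟨_, hmem i⟩ : riemannRochSpace ((N : ℤ) • P)) :=
      LinearIndependent.of_comp (riemannRochSpace ((N : ℤ) • P)).subtype
        (linearIndependent_incF Ω b)
    exact (Fintype.card_fin _).symm.le.trans hli.fintype_card_le_finrank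
  have hNP : (c : ℤ) ≤ Divisor.degree ((N : ℤ) • P) := by
    rw [map_zsmul, smul_eq_mul, hN]
    push_cast
    nlinarith
  obtain ⟨ε, hε, hεD⟩ : ∃ ε : ℤ, (ε = 1 ∨ ε = -1) ∧ 0 ≤ ε * Divisor.degree DD := by
    rcases le_total 0 (Divisor.degree DD) with h | h
    · exact ⟨1, Or.inl rfl, by omega⟩
    · exact ⟨-1, Or.inr rfl, by omega⟩
  refine ⟨ε, hε, ?_⟩
  have hle' : Module.finrank k (sections (poleDivN k x N)) ≤ ell (ε • DD + (N : ℤ) • P) := by
    have h1 := hg.le (ε • DD + (N : ℤ) • P)
    have h2 := hg.eq _ hNP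
    have h3 : (Module.finrank k (sections (poleDivN k x N)) : ℤ) ≤ ell ((N : ℤ) • P) := by
      exact_mod_cast hle
    rw [map_add, map_zsmul _ ε DD] at h1
    simp only [smul_eq_mul] at h1
    omega
  have heq : sections (ε • D + poleDivN Ω y N) = riemannRochSpace (ε • DD + (N : ℤ) • P) := by
    refine sections_eq_space hy (fun V => rD V ^ ε * poleElt V.1 y N) (fun V => ?_) _ fun v => ?_
    · refine ⟨mul_ne_zero (zpow_ne_zero _ (hrD V)) (poleElt_ne_zero _ _ _), ?_⟩
      rw [vcls_mul V.1 (zpow_ne_zero _ (hrD V)) (poleElt_ne_zero _ _ _), Pi.add_apply,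
        Pi.smul_apply, hrD' V]
      rcases hε with rfl | rfl
      · rw [one_zsmul, zpow_one]; rfl
      · rw [neg_one_zsmul, zpow_neg_one, vcls_inv]; rfl
    · rw [Finsupp.add_apply, Finsupp.smul_apply, Finsupp.smul_apply, Finsupp.onFinset_apply,
        poleDiv_apply, v.ord_mul (zpow_ne_zero _ (hrD _)) (poleElt_ne_zero _ _ _), v.ord_zpow,
        smul_eq_mul, smul_eq_mul]
      exact congrArg _ (ord_poleElt v (fun h => hy.transcendental (by rw [h]; exact isAlgebraic_zero))
        N).symm
  obtain ⟨f, hf⟩ := exists_linearIndependent_of_le_finrank hle'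
  exact ⟨fun j => (f j : (Big k Ω F)), hf.map' (Submodule.subtype _) (Submodule.ker_subtype _),
    fun j => heq.symm.le (f j).2⟩

/-- Base change of the sections with poles bounded by `N` times those of `x`. -/
theorem mem_span_of_mem_poleSections {x : F} (hx : IsFinOver k x) {κ : Type u} [Field κ]
    [Algebra k κ] {N : ℕ} {r : Big k κ F}
    (hr : r ∈ sections (poleDivN κ (incF k κ F x) N)) :
    r ∈ Submodule.span κ (incF k κ F '' (sections (poleDivN k x N) : Set F)) :=
  mem_span_poleSections hx (isFinOver_inv hx) hr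

/-- A rational point of the curve at which `x` is regular. -/
structure RatPoint (k F : Type u) [Field k] [Field F] [Algebra k F] (x : F) where
  /-- The valuation ring. -/
  ring : Subalgebra k F
  mem_or_inv : ∀ y : F, y ∈ ring ∨ y⁻¹ ∈ ring
  /-- The value. -/
  val : ring →ₐ[k] k
  x_mem : x ∈ ring

/-- The value at a rational point, zero at a pole. -/
def RatPoint.eval {x : F} (v : RatPoint k F x) (u : F) : k :=
  if h : u ∈ v.ring then v.val ⟨u, h⟩ else 0

/-- Sections are regular where `x` is. -/
theorem RatPoint.mem_ring_of_section {x : F} (v : RatPoint k F x) {N : ℕ} {u : F}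
    (hu : u ∈ sections (poleDivN k x N)) : u ∈ v.ring := by
  let V : Val k F := ⟨⟨v.ring.toSubring, v.mem_or_inv⟩, v.ring.algebraMap_mem⟩
  have h := mem_poleSections_iff.mp hu V
  rw [poleElt, if_pos (show x ∈ V.1 from v.x_mem), mul_one] at h
  exact h

/-- The sections vanishing at a point. -/
def RatPoint.kerSec {x : F} (v : RatPoint k F x) (N : ℕ) : Submodule k F where
  carrier := {u | u ∈ sections (poleDivN k x N) ∧ v.eval u = 0}
  add_mem' := fun {a b} ha hb => ⟨add_mem ha.1 hb.1, by
    have h1 := v.mem_ring_of_section ha.1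
    have h2 := v.mem_ring_of_section hb.1
    have e1 := ha.2
    have e2 := hb.2
    rw [RatPoint.eval, dif_pos h1] at e1
    rw [RatPoint.eval, dif_pos h2] at e2
    rw [RatPoint.eval, dif_pos (add_mem h1 h2),
      show (⟨a + b, add_mem h1 h2⟩ : v.ring) = ⟨a, h1⟩ + ⟨b, h2⟩ from rfl, map_add, e1, e2,
      add_zero]⟩
  zero_mem' := ⟨zero_mem _, by
    rw [RatPoint.eval, dif_pos (zero_mem _)]
    exact map_zero v.val⟩
  smul_mem' := fun c a ha => ⟨Submodule.smul_mem _ c ha.1, by
    have h1 := v.mem_ring_of_section ha.1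
    have e1 := ha.2
    rw [RatPoint.eval, dif_pos h1] at e1
    rw [RatPoint.eval, dif_pos (v.ring.smul_mem h1 c),
      show (⟨c • a, v.ring.smul_mem h1 c⟩ : v.ring) = c • ⟨a, h1⟩ from rfl, map_smul, e1,
      smul_zero]⟩

theorem isUnit_of_ord_eq_zero (v : Place k F) {a : F} (ha : a ≠ 0)
    (hmem : a ∈ v.toValuationSubring) (h : v.ord a = 0) :
    IsUnit (⟨a, hmem⟩ : v.toValuationSubring) := by
  have hi : a⁻¹ ∈ v.toValuationSubring :=
    (MCurve.mem_iff_ord_nonneg v (inv_ne_zero ha)).mpr (by rw [v.ord_inv, h, neg_zero])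
  exact IsUnit.of_mul_eq_one ⟨a⁻¹, hi⟩ (Subtype.ext (mul_inv_cancel₀ ha))

/-- A point where two functions do not vanish. -/
theorem exists_ratPoint {x : F} (hx : IsFinOver k x) {a b : F} (ha : a ≠ 0) (hb : b ≠ 0) :
    ∃ w : RatPoint k F x, w.eval a ≠ 0 ∧ w.eval b ≠ 0 := by
  obtain ⟨hP, hR, hne⟩ := curve_props hx
  haveI := hP
  haveI := hR
  haveI := hne
  haveI := infinite_places (K := k) hx.transcendental
  have hx0 : x ≠ 0 := fun h => hx.transcendental (by rw [h]; exact isAlgebraic_zero)
  obtain ⟨v, hv⟩ := (((finite_ord_ne_zero hx ha).union (finite_ord_ne_zero hx hb)).union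
    (finite_ord_ne_zero hx hx0)).exists_notMem
  simp only [Set.mem_union, Set.mem_setOf_eq, not_or, not_not] at hv
  haveI : Module.Finite k v.ResidueField := (hR v).finite
  let e := AlgEquiv.ofBijective (Algebra.ofId k v.ResidueField)
    IsAlgClosed.algebraMap_bijective_of_isIntegral
  let R : Subalgebra k F :=
    { v.toValuationSubring.toSubring with algebraMap_mem' := v.algebraMap_mem' }
  let q : R →ₐ[k] v.ResidueField :=
    { toFun := fun z => IsLocalRing.residue v.toValuationSubring ⟨z.1, z.2⟩
      map_one' := map_one (IsLocalRing.residue v.toValuationSubring)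
      map_mul' := fun _ _ => map_mul (IsLocalRing.residue v.toValuationSubring) _ _
      map_zero' := map_zero (IsLocalRing.residue v.toValuationSubring)
      map_add' := fun _ _ => map_add (IsLocalRing.residue v.toValuationSubring) _ _
      commutes' := fun _ => rfl }
  refine ⟨⟨R, v.toValuationSubring.mem_or_inv_mem, e.symm.toAlgHom.comp q,
    (MCurve.mem_iff_ord_nonneg v hx0).mpr hv.2.ge⟩, ?_, ?_⟩
  · have hmem : a ∈ R := (MCurve.mem_iff_ord_nonneg v ha).mpr hv.1.1.ge
    rw [RatPoint.eval, dif_pos hmem]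
    refine fun h => ?_
    have h1 : q ⟨a, hmem⟩ = 0 := e.symm.injective (h.trans (map_zero e.symm).symm)
    refine (IsLocalRing.residue_ne_zero_iff_isUnit (R := v.toValuationSubring) _).mpr ?_ h1
    exact isUnit_of_ord_eq_zero v ha hmem hv.1.1
  · have hmem : b ∈ R := (MCurve.mem_iff_ord_nonneg v hb).mpr hv.1.2.ge
    rw [RatPoint.eval, dif_pos hmem]
    refine fun h => ?_
    have h1 : q ⟨b, hmem⟩ = 0 := e.symm.injective (h.trans (map_zero e.symm).symm)
    refine (IsLocalRing.residue_ne_zero_iff_isUnit (R := v.toValuationSubring) _).mpr ?_ h1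
    exact isUnit_of_ord_eq_zero v hb hmem hv.1.2

/-- Two subspaces of sections are separated by as many points as their dimension. -/
theorem exists_points {x : F} (hx : IsFinOver k x) (N m : ℕ) :
    ∀ A B : Submodule k F, A ≤ sections (poleDivN k x N) → B ≤ sections (poleDivN k x N) →
      Module.finrank k A ≤ m → Module.finrank k B ≤ m →
      ∃ w : Fin m → RatPoint k F x, ∀ u, (u ∈ A ∨ u ∈ B) → (∀ l, (w l).eval u = 0) → u = 0 := by
  haveI := finiteDimensional_poleSections hx N
  induction m with
  | zero =>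
    intro A B hA hB hA0 hB0
    haveI := Submodule.finiteDimensional_of_le hA
    haveI := Submodule.finiteDimensional_of_le hB
    rw [Submodule.finrank_eq_zero.mp (Nat.le_zero.mp hA0),
      Submodule.finrank_eq_zero.mp (Nat.le_zero.mp hB0)]
    exact ⟨Fin.elim0, fun u hu _ => by simpa using hu⟩
  | succ m ih =>
    intro A B hA hB hAm hBm
    haveI := Submodule.finiteDimensional_of_le hA
    haveI := Submodule.finiteDimensional_of_le hB
    have pick : ∀ A : Submodule k F, ∃ a : F, a ≠ 0 ∧ (A ≠ ⊥ → a ∈ A) := fun A => by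
      by_cases h : A = ⊥
      · exact ⟨1, one_ne_zero, fun h' => absurd h h'⟩
      · obtain ⟨a, ha, ha0⟩ := Submodule.exists_mem_ne_zero_of_ne_bot h
        exact ⟨a, ha0, fun _ => ha⟩
    obtain ⟨a, ha0, ha⟩ := pick A
    obtain ⟨b, hb0, hb⟩ := pick B
    obtain ⟨w₀, hwa, hwb⟩ := exists_ratPoint hx ha0 hb0
    have drop : ∀ (A : Submodule k F) (a : F), FiniteDimensional k A → Module.finrank k A ≤ m + 1 →
        (A ≠ ⊥ → a ∈ A) → w₀.eval a ≠ 0 →
        Module.finrank k ↥(A ⊓ w₀.kerSec N) ≤ m := fun A a _ hm ha hwa => by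
      by_cases h : A = ⊥
      · rw [h, bot_inf_eq, finrank_bot]
        exact Nat.zero_le m
      · have hlt : A ⊓ w₀.kerSec N < A :=
          lt_of_le_of_ne inf_le_left fun heq => hwa ((heq.ge (ha h)).2).2
        have := Submodule.finrank_lt_finrank_of_lt hlt
        omega
    obtain ⟨w, hw⟩ := ih (A ⊓ w₀.kerSec N) (B ⊓ w₀.kerSec N) (inf_le_left.trans hA)
      (inf_le_left.trans hB) (drop A a inferInstance hAm ha hwa) (drop B b inferInstance hBm hb hwb)
    refine ⟨Fin.cons w₀ w, fun u hu h => hw u ?_ fun l => by simpa using h l.succ⟩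
    have h0 : w₀.eval u = 0 := by simpa using h 0
    exact hu.imp (fun h' => ⟨h', hA h', h0⟩) fun h' => ⟨h', hB h', h0⟩

/-- Points completing each of two points to a set with injective evaluation. -/
theorem exists_evaluation {x : F} (hx : IsFinOver k x) (N : ℕ) (v₀ v₁ : RatPoint k F x) :
    ∃ w : Fin (Module.finrank k (sections (poleDivN k x N)) - 1) → RatPoint k F x,
      ∀ v : RatPoint k F x, v = v₀ ∨ v = v₁ →
        ∀ u ∈ sections (poleDivN k x N), v.eval u = 0 → (∀ l, (w l).eval u = 0) → u = 0 := by
  haveI := finiteDimensional_poleSections hx N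
  have hker : ∀ v : RatPoint k F x,
      Module.finrank k (v.kerSec N) ≤ Module.finrank k (sections (poleDivN k x N)) - 1 := fun v => by
    have h1 : (1 : F) ∈ sections (poleDivN k x N) := mem_poleSections_iff.mpr fun V => by
      rw [one_mul, poleElt]
      split_ifs with h
      · exact one_mem _
      · exact pow_mem ((V.1.mem_or_inv_mem x).resolve_left h) N
    have hlt : v.kerSec N < sections (poleDivN k x N) := by
      refine lt_of_le_of_ne (fun u hu => hu.1) fun heq => ?_
      have h2 := (heq.ge h1).2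
      rw [RatPoint.eval, dif_pos (one_mem _)] at h2
      exact one_ne_zero ((map_one v.val).symm.trans h2)
    have := Submodule.finrank_lt_finrank_of_lt hlt
    omega
  obtain ⟨w, hw⟩ := exists_points hx N _ (v₀.kerSec N) (v₁.kerSec N) (fun u hu => hu.1)
    (fun u hu => hu.1) (hker v₀) (hker v₁)
  exact ⟨w, fun v hv u hu h0 h => hw u (hv.imp (by rintro rfl; exact ⟨hu, h0⟩) (by rintro rfl; exact ⟨hu, h0⟩)) h⟩

end Fermat.Agent.AbVar
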