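import Fermat.Agent.AbVar.Cube.CurvePlaces
import Fermat.Agent.AbVar.GrowthBound

/-!
# Sections with bounded poles over a larger field of constants come from the small one
-/

set_option autoImplicit false
set_option linter.style.haveILetI false

noncomputable section

open scoped Classical TensorProduct IntermediateField.algebraAdjoinAdjoin

namespace Fermat.Agent.AbVar

universe u

open Fermat.Agent.MCurve (IsFinOver)

variable {k : Type u} [Field k] [IsAlgClosed k] {F : Type u} [Field F] [Algebra k F]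

variable (k) in
/-- The integral closure of `k[y]` in `F`. -/
def intClo (y : F) : Subalgebra k F :=
  (integralClosure (Algebra.adjoin k ({y} : Set F)) F).restrictScalars k

theorem self_mem_intClo (y : F) : y ∈ intClo k y :=
  (isIntegral_algebraMap (R := Algebra.adjoin k ({y} : Set F)) (A := F)
    (x := ⟨y, Algebra.self_mem_adjoin_singleton k y⟩))

theorem intClo_le {y : F} {V : Val k F} (hy : y ∈ V.1) : intClo k y ≤ V.alg := by
  intro z hz
  have hle : Algebra.adjoin k ({y} : Set F) ≤ V.alg :=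
    Algebra.adjoin_le (Set.singleton_subset_iff.mpr hy)
  obtain ⟨p, hp, hpz⟩ := hz
  let φ : Algebra.adjoin k ({y} : Set F) →+* V.1 :=
    (Subalgebra.val (Algebra.adjoin k ({y} : Set F))).toRingHom.codRestrict V.1.toSubring
      fun a => hle a.2
  have hint : IsIntegral V.1 z := ⟨p.map φ, hp.map φ, by rw [Polynomial.eval₂_map]; exact hpz⟩
  obtain ⟨w, hw⟩ := IsIntegrallyClosed.isIntegral_iff.mp hint
  exact hw ▸ w.2

theorem exists_mul_mem_intClo {y : F} (hy : IsFinOver k y) (z : F) :
    ∃ d ∈ intClo k y, d ≠ 0 ∧ d * z ∈ intClo k y := by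
  haveI := hy.finite
  haveI : IsScalarTower (Algebra.adjoin k ({y} : Set F)) (IntermediateField.adjoin k {y}) F :=
    IsScalarTower.of_algebraMap_eq fun _ => rfl
  have halg : IsAlgebraic (Algebra.adjoin k ({y} : Set F)) z :=
    (IsFractionRing.isAlgebraic_iff (Algebra.adjoin k ({y} : Set F))
      (IntermediateField.adjoin k ({y} : Set F)) F).mpr (Algebra.IsAlgebraic.isAlgebraic z)
  obtain ⟨a, ha, hint⟩ := halg.exists_integral_multiple
  refine ⟨(a : F), (isIntegral_algebraMap (R := Algebra.adjoin k ({y} : Set F)) (A := F) (x := a)),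
    fun h => ha (Subtype.ext h), ?_⟩
  rw [Algebra.smul_def] at hint
  exact hint

theorem isFractionRing_intClo {y : F} (hy : IsFinOver k y) : IsFractionRing (intClo k y) F := by
  refine IsFractionRing.of_field _ _ fun z => ?_
  obtain ⟨d, hd, hd0, hdz⟩ := exists_mul_mem_intClo hy z
  exact ⟨⟨_, hdz⟩, ⟨d, hd⟩, by
    show z = d * z / d
    rw [mul_div_cancel_left₀ _ hd0]⟩

theorem isIntegrallyClosed_intClo {y : F} (hy : IsFinOver k y) :
    IsIntegrallyClosed (intClo k y) := by
  haveI := isFractionRing_intClo hy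
  refine (isIntegrallyClosed_iff F).mpr fun {z} hz => ?_
  letI : Algebra (Algebra.adjoin k ({y} : Set F)) (intClo k y) :=
    ((algebraMap (Algebra.adjoin k ({y} : Set F)) F).codRestrict (intClo k y).toSubring
      fun a => isIntegral_algebraMap).toAlgebra
  haveI : IsScalarTower (Algebra.adjoin k ({y} : Set F)) (intClo k y) F :=
    IsScalarTower.of_algebraMap_eq fun _ => rfl
  haveI : Algebra.IsIntegral (Algebra.adjoin k ({y} : Set F)) (intClo k y) :=
    ⟨fun a => (isIntegral_algebraMap_iff (B := F) Subtype.val_injective).mp a.2⟩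
  exact ⟨⟨z, isIntegral_trans (R := Algebra.adjoin k ({y} : Set F)) z hz⟩, rfl⟩

/-- An element of the big field in all valuation rings over `κ` containing `y` is integral. -/
theorem mem_range_of_forall_mem {κ : Type u} [Field κ] [Algebra k κ] {y : F} (hy : IsFinOver k y)
    {r : Big k κ F} (h : ∀ V : Val κ (Big k κ F), incF k κ F y ∈ V.1 → r ∈ V.1) :
    ∃ t : κ ⊗[k] (intClo k y),
      bigMap k κ F (Algebra.TensorProduct.map (AlgHom.id k κ) (intClo k y).val t) = r := by
  set B := intClo k y
  let ι : κ ⊗[k] B →ₐ[k] Big k κ F :=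
    (bigMap k κ F).comp (Algebra.TensorProduct.map (AlgHom.id k κ) B.val)
  letI : Algebra (κ ⊗[k] B) (Big k κ F) := ι.toRingHom.toAlgebra
  haveI : IsDomain (κ ⊗[k] B) := isDomain_tensor k B κ
  haveI : IsIntegrallyClosed B := isIntegrallyClosed_intClo hy
  haveI : IsIntegrallyClosed (κ ⊗[k] B) := isIntegrallyClosed_tensor k B κ
  have hinj : Function.Injective ι := (bigMap_injective k κ F).comp
    (Module.Flat.lTensor_preserves_injective_linearMap (M := κ) B.val.toLinearMap
      Subtype.val_injective)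
  haveI : FaithfulSMul (κ ⊗[k] B) (Big k κ F) :=
    (faithfulSMul_iff_algebraMap_injective _ _).mpr hinj
  have hden : ∀ s : κ ⊗[k] F, ∃ d : B, d ≠ 0 ∧
      ∃ t, Algebra.TensorProduct.map (AlgHom.id k κ) B.val t = (1 ⊗ₜ[k] (d : F)) * s := by
    intro s
    induction s using TensorProduct.induction_on with
    | zero => exact ⟨1, one_ne_zero, 0, by rw [map_zero, mul_zero]⟩
    | tmul c z =>
      obtain ⟨d, hd, hd0, hdz⟩ := exists_mul_mem_intClo hy z
      exact ⟨⟨d, hd⟩, fun h0 => hd0 (congrArg Subtype.val h0), c ⊗ₜ[k] ⟨_, hdz⟩,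
        by simp [Algebra.TensorProduct.tmul_mul_tmul]⟩
    | add a b ha hb =>
      obtain ⟨d, hd, t, ht⟩ := ha
      obtain ⟨e, he, t', ht'⟩ := hb
      refine ⟨d * e, mul_ne_zero hd he, (1 ⊗ₜ[k] e) * t + (1 ⊗ₜ[k] d) * t', ?_⟩
      rw [map_add, map_mul, map_mul, ht, ht', Algebra.TensorProduct.map_tmul,
        Algebra.TensorProduct.map_tmul, map_one, Subalgebra.coe_val, mul_add, MulMemClass.coe_mul,
        show (1 : κ) ⊗ₜ[k] ((d : F) * e) = (1 ⊗ₜ (d : F)) * (1 ⊗ₜ (e : F)) by
          rw [Algebra.TensorProduct.tmul_mul_tmul, one_mul]]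
      ring
  haveI : IsFractionRing (κ ⊗[k] B) (Big k κ F) := by
    refine IsFractionRing.of_field _ _ fun z => ?_
    obtain ⟨a, b, hb, rfl⟩ := exists_big_div k κ F z
    obtain ⟨d, hd, ta, hta⟩ := hden a
    obtain ⟨e, he, tb, htb⟩ := hden b
    refine ⟨(1 ⊗ₜ[k] e) * ta, (1 ⊗ₜ[k] d) * tb, ?_⟩
    show _ = ι _ / ι _
    rw [map_mul, map_mul]
    simp only [ι, AlgHom.comp_apply]
    rw [hta, htb, Algebra.TensorProduct.map_tmul, Algebra.TensorProduct.map_tmul, map_one,
      Subalgebra.coe_val, map_mul, map_mul, ← mul_assoc, ← mul_assoc,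
      mul_comm (bigMap k κ F (1 ⊗ₜ[k] (d : F))), mul_div_mul_left]
    refine mul_ne_zero ?_ ?_ <;>
      · rw [bigMap_tmul, map_one, one_mul]
        exact (map_ne_zero _).mpr (by exact_mod_cast ‹_ ≠ (0 : B)›)
  have hint : IsIntegral (κ ⊗[k] B) r := isIntegral_of_forall_mem fun V hV => by
    refine h ⟨V, fun c => ?_⟩ ?_
    · have := hV (c ⊗ₜ[k] 1)
      rw [show algebraMap (κ ⊗[k] B) (Big k κ F) (c ⊗ₜ[k] 1) =
        bigMap k κ F (c ⊗ₜ[k] ((1 : B) : F)) from rfl, OneMemClass.coe_one, bigMap_tmul, map_one,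
        mul_one] at this
      rwa [algebraMap_big]
    · have := hV (1 ⊗ₜ[k] ⟨y, self_mem_intClo y⟩)
      rwa [show algebraMap (κ ⊗[k] B) (Big k κ F) (1 ⊗ₜ[k] ⟨y, self_mem_intClo y⟩) =
        bigMap k κ F (1 ⊗ₜ[k] y) from rfl, bigMap_tmul, map_one, one_mul] at this
  exact IsIntegrallyClosed.isIntegral_iff.mp hint

theorem equivFinsupp_map_mem {κ : Type u} [Field κ] [Algebra k κ] {ι : Type*}
    (b : Module.Basis ι k κ) (B : Subalgebra k F) (t : κ ⊗[k] B) (i : ι) :
    TensorProduct.equivFinsuppOfBasisLeft b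
      (Algebra.TensorProduct.map (AlgHom.id k κ) B.val t) i ∈ B := by
  induction t using TensorProduct.induction_on with
  | zero => simp
  | tmul c z =>
    rw [Algebra.TensorProduct.map_tmul, TensorProduct.equivFinsuppOfBasisLeft_apply_tmul_apply]
    exact B.smul_mem z.2 _
  | add a a' ha ha' =>
    rw [map_add, map_add, Finsupp.add_apply]
    exact add_mem ha ha'

theorem equivFinsupp_mul {κ : Type u} [Field κ] [Algebra k κ] {ι : Type*}
    (b : Module.Basis ι k κ) (z : F) (s : κ ⊗[k] F) (i : ι) :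
    TensorProduct.equivFinsuppOfBasisLeft b ((1 ⊗ₜ[k] z) * s) i =
      z * TensorProduct.equivFinsuppOfBasisLeft b s i := by
  induction s using TensorProduct.induction_on with
  | zero => simp
  | tmul c w =>
    rw [Algebra.TensorProduct.tmul_mul_tmul, one_mul,
      TensorProduct.equivFinsuppOfBasisLeft_apply_tmul_apply,
      TensorProduct.equivFinsuppOfBasisLeft_apply_tmul_apply, mul_smul_comm]
  | add a a' ha ha' =>
    rw [mul_add, map_add, map_add, Finsupp.add_apply, Finsupp.add_apply, ha, ha', mul_add]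

/-- Base change of the sections with bounded poles. -/
theorem mem_span_poleSections {x : F} (hx : IsFinOver k x) (hx' : IsFinOver k x⁻¹) {κ : Type u}
    [Field κ] [Algebra k κ] {N : ℕ} {r : Big k κ F}
    (hr : r ∈ sections (poleDivN κ (incF k κ F x) N)) :
    r ∈ Submodule.span κ (incF k κ F '' (sections (poleDivN k x N) : Set F)) := by
  have hr' := mem_poleSections_iff.mp hr
  obtain ⟨t₀, ht₀⟩ := mem_range_of_forall_mem hx (r := r) fun V hV => by
    have := hr' V
    rwa [poleElt, if_pos hV, mul_one] at this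
  obtain ⟨t₁, ht₁⟩ := mem_range_of_forall_mem hx' (r := r * incF k κ F x⁻¹ ^ N) fun V hV => by
    have := hr' V
    rw [map_inv₀] at hV ⊢
    rw [poleElt] at this
    split_ifs at this with h
    · rw [mul_one] at this
      exact mul_mem this (pow_mem hV N)
    · exact this
  set s := Algebra.TensorProduct.map (AlgHom.id k κ) (intClo k x).val t₀
  have hs : (1 ⊗ₜ[k] (x⁻¹ ^ N)) * s =
      Algebra.TensorProduct.map (AlgHom.id k κ) (intClo k x⁻¹).val t₁ := by
    refine bigMap_injective k κ F ?_
    rw [map_mul, ht₀, ht₁, bigMap_tmul, map_one, one_mul, map_pow, mul_comm]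
  let b := Module.Free.chooseBasis k κ
  let c := TensorProduct.equivFinsuppOfBasisLeft b s
  have hc : ∀ i, c i ∈ sections (poleDivN k x N) := fun i => by
    refine mem_poleSections_iff.mpr fun V => ?_
    rw [poleElt]
    split_ifs with hV
    · rw [mul_one]
      exact intClo_le hV (equivFinsupp_map_mem b _ t₀ i)
    · have h1 := equivFinsupp_map_mem b (intClo k x⁻¹) t₁ i
      rw [← hs, equivFinsupp_mul, mul_comm] at h1
      exact intClo_le ((V.1.mem_or_inv_mem x).resolve_left hV) h1
  have hsum : s = (TensorProduct.equivFinsuppOfBasisLeft b).symm.toLinearMap c :=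
    ((TensorProduct.equivFinsuppOfBasisLeft b).symm_apply_apply s).symm
  rw [TensorProduct.equivFinsuppOfBasisLeft_symm] at hsum
  rw [← ht₀, show bigMap k κ F (Algebra.TensorProduct.map (AlgHom.id k κ) (intClo k x).val t₀) =
    bigMap k κ F s from rfl, hsum, Finsupp.lsum_apply, Finsupp.sum, map_sum]
  refine Submodule.sum_mem _ fun i _ => ?_
  rw [TensorProduct.mk_apply, bigMap_tmul, ← algebraMap_big, ← Algebra.smul_def]
  exact Submodule.smul_mem _ _ (Submodule.subset_span ⟨_, hc i, rfl⟩)

end Fermat.Agent.AbVar
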