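import Fermat.Agent.AbVar.Cube.Gauss
import Fermat.Agent.MCurve.RiemannRoch.Riemann

/-!
# Sections of a divisor on a curve, as a Riemann–Roch space
-/

set_option autoImplicit false
set_option linter.style.haveILetI false

noncomputable section

open scoped Classical TensorProduct

namespace Fermat.Agent.AbVar

universe u

open Fermat.Agent.MCurve (IsFinOver)
open Fermat.Agent.MCurve.RR AlgebraicCurve

/-- An element with the pole part of `x ^ N` inverted. -/
def poleElt {E : Type u} [Field E] (V : ValuationSubring E) (x : E) (N : ℕ) : E :=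
  if x ∈ V then 1 else (x⁻¹) ^ N

/-- `N` times the polar divisor of `x`. -/
def poleDivN (k : Type u) {E : Type u} [Field k] [Field E] [Algebra k E] (x : E) (N : ℕ) :
    CDiv k E := fun V => vcls V.1 (poleElt V.1 x N)

section Sections

variable {k E : Type u} [Field k] [Field E] [Algebra k E]

theorem poleElt_ne_zero (V : ValuationSubring E) (x : E) (N : ℕ) : poleElt V x N ≠ 0 := by
  rw [poleElt]
  split_ifs with h
  · exact one_ne_zero
  · exact pow_ne_zero _ (inv_ne_zero fun h0 => h (h0 ▸ zero_mem V))

theorem exists_vcls_eq (D : CDiv k E) (V : Val k E) : ∃ r : E, r ≠ 0 ∧ D V = vcls V.1 r := by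
  obtain ⟨y, hy⟩ := QuotientGroup.mk'_surjective V.1.unitGroup (Additive.toMul (D V))
  exact ⟨(y : E), y.ne_zero, by rw [vcls_units]; exact (congrArg Additive.ofMul hy).symm⟩

theorem mem_sections_iff {D : CDiv k E} (r : Val k E → E)
    (hr : ∀ V, r V ≠ 0 ∧ D V = vcls V.1 (r V)) {f : E} :
    f ∈ sections D ↔ ∀ V : Val k E, f * r V ∈ V.1 :=
  ⟨fun h V => h V (r V) (hr V).1 (hr V).2,
    fun h V _x hx hD => mem_mul_of_vcls_eq (hr V).1 hx ((hr V).2.symm.trans hD) (h V)⟩

theorem mem_poleSections_iff {x : E} {N : ℕ} {f : E} :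
    f ∈ sections (poleDivN k x N) ↔ ∀ V : Val k E, f * poleElt V.1 x N ∈ V.1 :=
  mem_sections_iff _ fun _ => ⟨poleElt_ne_zero _ _ _, rfl⟩

/-- A place as a valuation ring over the constants. -/
def placeVal (v : Place k E) : Val k E := ⟨v.toValuationSubring, v.algebraMap_mem'⟩

theorem ord_poleElt (v : Place k E) {x : E} (hx : x ≠ 0) (N : ℕ) :
    v.ord (poleElt v.toValuationSubring x N) = N * max (-v.ord x) 0 := by
  rw [poleElt]
  split_ifs with h
  · have := (MCurve.mem_iff_ord_nonneg v hx).mp h
    rw [v.ord_one, max_eq_right (by omega), mul_zero]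
  · rw [MCurve.mem_iff_ord_nonneg v hx] at h
    rw [MCurve.ord_pow, v.ord_inv, max_eq_left (by omega)]

variable [IsAlgClosed k]

/-- Sections are a Riemann–Roch space. -/
theorem sections_eq_space {x : E} (hx : IsFinOver k x) {D : CDiv k E} (r : Val k E → E)
    (hr : ∀ V, r V ≠ 0 ∧ D V = vcls V.1 (r V)) (DD : Divisor k E)
    (hDD : ∀ v : Place k E, DD v = v.ord (r (placeVal v))) :
    sections D = riemannRochSpace DD := by
  ext f
  rw [mem_sections_iff r hr, mem_space_iff]
  rcases eq_or_ne f 0 with rfl | hf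
  · simp
  simp only [hf, false_or]
  refine ⟨fun h v => ?_, fun h V => ?_⟩
  · have h1 := MCurve.ord_nonneg_of_mem' v (h (placeVal v))
    rw [v.ord_mul hf (hr _).1, ← hDD] at h1
    omega
  · by_cases htop : V.1 = ⊤
    · rw [htop]; exact ValuationSubring.mem_top _
    · obtain ⟨v, hv⟩ := MCurve.exists_place_valuationSubring hx V.2 htop
      have hV : placeVal v = V := Subtype.ext hv
      have h2 := h v
      rw [hDD, hV] at h2
      rw [← hv, MCurve.mem_iff_ord_nonneg v (mul_ne_zero hf (hr _).1), v.ord_mul hf (hr _).1]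
      omega

theorem poleSections_eq_space [HasPrincipalDivisors k E] {x : E} (hx : IsFinOver k x) (N : ℕ) :
    sections (poleDivN k x N) = riemannRochSpace ((N : ℤ) • poleDiv k x) :=
  sections_eq_space hx _ (fun V => ⟨poleElt_ne_zero V.1 x N, rfl⟩) _ fun v => by
    rw [Finsupp.smul_apply, poleDiv_apply, smul_eq_mul]
    exact (ord_poleElt v (x := x) (fun h => hx.transcendental (by rw [h]; exact isAlgebraic_zero)) N).symm

theorem finiteDimensional_space {x : E} (hx : IsFinOver k x) {D : Divisor k E} (hD : 0 ≤ D) :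
    FiniteDimensional k (riemannRochSpace D) := by
  obtain ⟨V, hV, hle, -⟩ := space_effective hx hD
  exact Submodule.finiteDimensional_of_le hle

theorem smul_poleDiv_nonneg [HasPrincipalDivisors k E] (x : E) (N : ℕ) :
    0 ≤ (N : ℤ) • poleDiv k x :=
  Finsupp.le_def.mpr fun v => by
    rw [Finsupp.smul_apply, poleDiv_apply, smul_eq_mul, Finsupp.zero_apply]
    positivity

theorem finiteDimensional_poleSections {x : E} (hx : IsFinOver k x) (N : ℕ) :
    FiniteDimensional k (sections (poleDivN k x N)) := by
  obtain ⟨hP, -, -⟩ := curve_props hx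
  haveI := hP
  rw [poleSections_eq_space hx N]
  exact finiteDimensional_space hx (smul_poleDiv_nonneg x N)

end Sections

section BaseChange

variable {k : Type u} [Field k] [IsAlgClosed k] {F : Type u} [Field F] [Algebra k F]

theorem algebraMap_big (Ω : Type u) [Field Ω] [Algebra k Ω] (c : Ω) :
    algebraMap Ω (Big k Ω F) c = incΩ k Ω F c := by
  rw [IsScalarTower.algebraMap_apply Ω (Ω ⊗[k] F) (Big k Ω F)]
  rfl

theorem transcendental_incF {x : F} (hx : Transcendental k x) (Ω : Type u) [Field Ω]
    [Algebra k Ω] : Transcendental Ω (incF k Ω F x) := by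
  rw [transcendental_iff]
  intro p hp
  have h1 : bigMap k Ω F ((Algebra.TensorProduct.map (AlgHom.id Ω Ω) (Polynomial.aeval (R := k) x))
      ((polyEquivTensor k Ω) p)) = 0 := by
    rw [← hp]
    clear hp
    induction p using Polynomial.induction_on' with
    | add p q hp hq => simp only [map_add, hp, hq]
    | monomial n a =>
      rw [polyEquivTensor_apply, Polynomial.eval₂_monomial, Polynomial.aeval_monomial,
        algebraMap_big]
      simp [bigMap_tmul, Algebra.TensorProduct.algebraMap_apply]
  rw [map_eq_zero_iff _ (bigMap_injective k Ω F)] at h1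
  have hinj : Function.Injective (Algebra.TensorProduct.map (AlgHom.id Ω Ω)
      (Polynomial.aeval (R := k) x)) := by
    have h := Module.Flat.lTensor_preserves_injective_linearMap (M := Ω)
      (Polynomial.aeval (R := k) x).toLinearMap (transcendental_iff_injective.mp hx)
    exact h
  exact (polyEquivTensor k Ω).injective ((hinj (h1.trans (map_zero _).symm)).trans (map_zero _).symm)

open IntermediateField in
theorem isFinOver_incF {x : F} (hx : IsFinOver k x) (Ω : Type u) [Field Ω] [Algebra k Ω] :
    IsFinOver Ω (incF k Ω F x) := by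
  refine ⟨transcendental_incF hx.transcendental Ω, ?_⟩
  haveI := hx.finite
  set y := incF k Ω F x
  let b := Module.finBasis k⟮x⟯ F
  let L := Ω⟮y⟯
  have hsub : ∀ s : k⟮x⟯, incF k Ω F (s : F) ∈ L := fun s => by
    have hle : k⟮x⟯ ≤ (L.restrictScalars k).comap (incF k Ω F) :=
      adjoin_simple_le_iff.mpr (mem_adjoin_simple_self Ω y)
    exact hle s.2
  have hint : ∀ i, IsIntegral L (incF k Ω F (b i)) := fun i => by
    refine IsIntegral.map_of_comp_eq (φ := ((incF k Ω F).toRingHom.comp
      (algebraMap k⟮x⟯ F)).codRestrict L.toSubfield.toSubring hsub) (ψ := (incF k Ω F).toRingHom)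
      ?_ (Algebra.IsIntegral.isIntegral (b i))
    exact RingHom.ext fun _ => rfl
  haveI : FiniteDimensional L (adjoin L (Set.range fun i => incF k Ω F (b i))) :=
    finiteDimensional_adjoin fun z hz => by obtain ⟨i, rfl⟩ := hz; exact hint i
  set S := adjoin L (Set.range fun i => incF k Ω F (b i))
  have hF : ∀ z : F, incF k Ω F z ∈ S := fun z => by
    rw [← b.sum_repr z, map_sum]
    refine sum_mem fun i _ => ?_
    rw [Algebra.smul_def, map_mul]
    exact mul_mem (S.algebraMap_mem ⟨_, hsub (b.repr z i)⟩) (subset_adjoin L _ ⟨i, rfl⟩)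
  have hT : ∀ t : Ω ⊗[k] F, bigMap k Ω F t ∈ S := fun t => by
    induction t using TensorProduct.induction_on with
    | zero => rw [map_zero]; exact zero_mem _
    | add a b ha hb => rw [map_add]; exact add_mem ha hb
    | tmul c z =>
      rw [bigMap_tmul]
      refine mul_mem ?_ (hF z)
      rw [← algebraMap_big]
      exact S.algebraMap_mem ⟨_, L.algebraMap_mem c⟩
  have htop : S = ⊤ := eq_top_iff.mpr fun z _ => by
    obtain ⟨a, c, -, rfl⟩ := exists_big_div k Ω F z
    exact div_mem (hT a) (hT c)
  exact Module.Finite.equiv ((equivOfEq htop).trans topEquiv).toLinearEquiv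

theorem poleElt_comap (Ω : Type u) [Field Ω] [Algebra k Ω] (V : Val k (Big k Ω F)) (x : F)
    (N : ℕ) : incF k Ω F (poleElt (V.comap (incF k Ω F)).1 x N) =
      poleElt V.1 (incF k Ω F x) N := by
  rw [poleElt, poleElt]
  by_cases h : incF k Ω F x ∈ V.1
  · rw [if_pos h, if_pos (Val.mem_comap.mpr h), map_one]
  · rw [if_neg h, if_neg (mt Val.mem_comap.mp h), map_pow, map_inv₀]

theorem incF_mem_poleSections (Ω : Type u) [Field Ω] [Algebra k Ω] {x u : F} {N : ℕ}
    (hu : u ∈ sections (poleDivN k x N)) :
    incF k Ω F u ∈ sections (poleDivN Ω (incF k Ω F x) N) := by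
  refine mem_poleSections_iff.mpr fun V => ?_
  let W : Val k (Big k Ω F) := ⟨V.1, fun c => by
    rw [IsScalarTower.algebraMap_apply k Ω (Big k Ω F)]
    exact V.2 _⟩
  have h1 := Val.mem_comap.mp (mem_poleSections_iff.mp hu (W.comap (incF k Ω F)))
  rwa [map_mul, poleElt_comap] at h1

theorem linearIndependent_incF (Ω : Type u) [Field Ω] [Algebra k Ω] {W : Submodule k F}
    {ι : Type*} (b : Module.Basis ι k W) :
    LinearIndependent Ω fun i => incF k Ω F (b i : F) := by
  let f : Ω ⊗[k] W →ₗ[Ω] Ω ⊗[k] F := LinearMap.baseChange Ω W.subtype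
  have hf : Function.Injective f :=
    Module.Flat.lTensor_preserves_injective_linearMap (M := Ω) W.subtype Subtype.val_injective
  let g : Ω ⊗[k] F →ₗ[Ω] Big k Ω F :=
    (IsScalarTower.toAlgHom Ω (Ω ⊗[k] F) (Big k Ω F)).toLinearMap
  have hg : Function.Injective g := bigMap_injective k Ω F
  have h := ((b.baseChange Ω).linearIndependent.map' f (LinearMap.ker_eq_bot.mpr hf)).map' g
    (LinearMap.ker_eq_bot.mpr hg)
  have he : (fun i => incF k Ω F (b i : F)) = g ∘ f ∘ (b.baseChange Ω) := funext fun i => by
    simp only [Function.comp_apply, Module.Basis.baseChange_apply]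
    rfl
  rw [he]
  exact h

end BaseChange

end Fermat.Agent.AbVar
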