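import Fermat.Agent.AbVar.Cube.Values

/-!
# Elements with independent residues at the Gauss valuation
-/

set_option autoImplicit false
set_option linter.style.haveILetI false
set_option linter.unusedSectionVars false

noncomputable section

open scoped TensorProduct

namespace Fermat.Agent.AbVar

universe u

variable {k : Type u} [Field k] [IsAlgClosed k] {Ω F κ : Type u} [Field Ω] [Algebra k Ω] [Field F]
  [Algebra k F] [Field κ] [Algebra k κ] (R : Val k Ω) (π : R.alg →ₐ[k] κ)

/-- Row reduction over a valuation ring: integral vectors with independent residues. -/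
theorem exists_integral_rows {I : Type u} (n : ℕ) :
    ∀ c : Fin n → (I →₀ Ω), LinearIndependent Ω c →
      ∃ (v : Fin n → (I →₀ Ω)) (hv : ∀ j i, v j i ∈ R.1),
        (∀ j, v j ∈ Submodule.span Ω (Set.range c)) ∧ LinearIndependent Ω v ∧
          ∀ a : Fin n → κ, (∀ i, ∑ j, a j * π ⟨v j i, hv j i⟩ = 0) → a = 0 := by
  classical
  induction n with
  | zero =>
    exact fun c _ => ⟨c, fun j => j.elim0, fun j => j.elim0, linearIndependent_empty_type,
      fun a _ => funext fun j => j.elim0⟩
  | succ n ih =>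
    intro c hc
    let S := (Finset.univ : Finset (Fin (n + 1))).sigma fun l => (c l).support
    have hS : S.Nonempty := by
      obtain ⟨i, hi⟩ := Finsupp.support_nonempty_iff.mpr (hc.ne_zero 0)
      exact ⟨⟨0, i⟩, Finset.mem_sigma.mpr ⟨Finset.mem_univ _, hi⟩⟩
    obtain ⟨⟨l₀, i₀⟩, hmem, hmax⟩ := S.exists_max_image (fun p => R.1.valuation (c p.1 p.2)) hS
    set d := c l₀ i₀
    have hd : d ≠ 0 := Finsupp.mem_support_iff.mp (Finset.mem_sigma.mp hmem).2
    have hle : ∀ l i, R.1.valuation (c l i) ≤ R.1.valuation d := fun l i => by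
      by_cases h : c l i = 0
      · rw [h, map_zero]; exact zero_le
      · exact hmax ⟨l, i⟩ (Finset.mem_sigma.mpr ⟨Finset.mem_univ _, Finsupp.mem_support_iff.mpr h⟩)
    set v₀ := d⁻¹ • c l₀
    have hv₀i : v₀ i₀ = 1 := by
      rw [Finsupp.smul_apply, smul_eq_mul]; exact inv_mul_cancel₀ hd
    have hv₀R : ∀ i, v₀ i ∈ R.1 := fun i => by
      rw [Finsupp.smul_apply, smul_eq_mul, ← R.1.valuation_le_one_iff, map_mul, map_inv₀]
      exact inv_mul_le_one_of_le₀ (hle l₀ i) zero_le
    let c' : Fin n → (I →₀ Ω) := fun l => c (l₀.succAbove l) - c (l₀.succAbove l) i₀ • v₀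
    have hc' : LinearIndependent Ω c' := by
      refine Fintype.linearIndependent_iff.mpr fun g hg => ?_
      let t : Ω := -((∑ l, g l * c (l₀.succAbove l) i₀) * d⁻¹)
      let G : Fin (n + 1) → Ω := Fin.insertNth l₀ t g
      have hG : ∑ l, G l • c l = 0 := by
        rw [Fin.sum_univ_succAbove _ l₀]
        simp only [G, Fin.insertNth_apply_same, Fin.insertNth_apply_succAbove]
        rw [← hg]
        simp only [c', t, v₀, smul_sub, smul_smul, Finset.sum_sub_distrib, ← Finset.sum_smul,
          Finset.sum_mul, neg_smul]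
        simp only [mul_assoc]
        abel
      intro l
      have := Fintype.linearIndependent_iff.mp hc G hG (l₀.succAbove l)
      simpa [G] using this
    obtain ⟨w, hwR, hws, hwli, hwres⟩ := ih c' hc'
    have hv₀s : v₀ ∈ Submodule.span Ω (Set.range c) :=
      Submodule.smul_mem _ _ (Submodule.subset_span ⟨l₀, rfl⟩)
    have hc's : Submodule.span Ω (Set.range c') ≤ Submodule.span Ω (Set.range c) :=
      Submodule.span_le.mpr (by
        rintro _ ⟨l, rfl⟩
        exact Submodule.sub_mem _ (Submodule.subset_span ⟨_, rfl⟩) (Submodule.smul_mem _ _ hv₀s))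
    have hw0 : ∀ j, w j i₀ = 0 := by
      intro j
      have hker : Submodule.span Ω (Set.range c') ≤ LinearMap.ker (Finsupp.lapply i₀) :=
        Submodule.span_le.mpr (by
          rintro _ ⟨l, rfl⟩
          simp [c', hv₀i])
      exact hker (hws j)
    have hvR : ∀ (j : Fin (n + 1)) i, (Fin.cons v₀ w : Fin (n + 1) → (I →₀ Ω)) j i ∈ R.1 :=
      Fin.cases (by simpa using hv₀R) (fun j => by simpa using hwR j)
    refine ⟨Fin.cons v₀ w, hvR, Fin.cases (by simpa using hv₀s) (fun j => by
      simpa using hc's (hws j)), ?_, ?_⟩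
    · refine linearIndependent_finCons.mpr ⟨hwli, fun h => ?_⟩
      have hker : Submodule.span Ω (Set.range w) ≤ LinearMap.ker (Finsupp.lapply i₀) :=
        Submodule.span_le.mpr (by rintro _ ⟨j, rfl⟩; exact hw0 j)
      have := hker h
      rw [LinearMap.mem_ker, Finsupp.lapply_apply, hv₀i] at this
      exact one_ne_zero this
    · intro a ha
      have hπ1 : ∀ (x : Ω) (hx : x ∈ R.1), x = 1 → π ⟨x, hx⟩ = 1 := fun x hx h => by
        subst h; exact map_one π
      have hπ0 : ∀ (x : Ω) (hx : x ∈ R.1), x = 0 → π ⟨x, hx⟩ = 0 := fun x hx h => by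
        subst h; exact map_zero π
      have h0 : a 0 = 0 := by
        have := ha i₀
        rw [Fin.sum_univ_succ, hπ1 _ _ (by simpa using hv₀i), mul_one,
          Finset.sum_eq_zero (fun j _ => by rw [hπ0 _ _ (by simpa using hw0 j), mul_zero]),
          add_zero] at this
        exact this
      have ht : Fin.tail a = 0 := hwres _ fun i => by
        have := ha i
        rw [Fin.sum_univ_succ, h0, zero_mul, zero_add] at this
        refine Eq.trans (Finset.sum_congr rfl fun j _ => ?_) this
        exact congrArg (fun z => a j.succ * π z) (Subtype.ext (by simp))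
      exact funext (Fin.cases h0 fun j => congrFun ht j)

/-- A span over the constants has a basis with independent residues at the Gauss valuation. -/
theorem exists_gauss_independent (hloc : ∀ r : R.alg, (r : Ω)⁻¹ ∉ R.1 → π r = 0) {n : ℕ}
    (f : Fin n → Big k Ω F) (hf : LinearIndependent Ω f) :
    ∃ C : Matrix (Fin n) (Fin n) Ω, C.det ≠ 0 ∧
      ∃ h : ∀ j, ∑ l, incΩ k Ω F (C j l) * f l ∈ locRing R π ⊤ (gaussPt k κ F),
        LinearIndependent κ fun j =>
          evLoc R π (⊤ : Subalgebra k F) (gaussPt k κ F) ⟨_, h j⟩ := by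
  classical
  choose a b hb hab using fun l => exists_big_div k Ω F (f l)
  set β := ∏ l, b l
  have hβ : β ≠ 0 := Finset.prod_ne_zero_iff.mpr fun l _ => hb l
  let y : Fin n → Ω ⊗[k] F := fun l => a l * ∏ m ∈ Finset.univ.erase l, b m
  have hy : ∀ l, f l * bigMap k Ω F β = bigMap k Ω F (y l) := fun l => by
    have hbl : bigMap k Ω F (b l) ≠ 0 :=
      fun h => hb l ((map_eq_zero_iff _ (bigMap_injective k Ω F)).mp h)
    rw [hab l, show β = b l * ∏ m ∈ Finset.univ.erase l, b m from
      (Finset.mul_prod_erase _ _ (Finset.mem_univ l)).symm, map_mul, map_mul, div_mul_eq_mul_div,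
      mul_div_assoc, mul_div_cancel_left₀ _ hbl]
  obtain ⟨c₀, b', hc₀, hb', hβ'⟩ := exists_gauss_decomp R π hβ
  have hb0 := intBig_ne_zero R π ⊤ (gaussPt k κ F) hb'
  let e := Module.Free.chooseBasis k F
  let co := TensorProduct.equivFinsuppOfBasisRight (M := Ω) e
  have hβB : bigMap k Ω F β ≠ 0 :=
    fun h => hβ ((map_eq_zero_iff _ (bigMap_injective k Ω F)).mp h)
  -- the map back into the big field
  let Θ : (Module.Free.ChooseBasisIndex k F →₀ Ω) →ₗ[Ω] Big k Ω F :=
    Finsupp.linearCombination Ω fun i => incF k Ω F (e i)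
  have halg : ∀ x : Ω, algebraMap Ω (Big k Ω F) x = incΩ k Ω F x := fun x => by
    rw [IsScalarTower.algebraMap_apply Ω (Ω ⊗[k] F) (Big k Ω F)]
    rfl
  have hΘ : ∀ z, Θ (co z) = bigMap k Ω F z := by
    intro z
    induction z using TensorProduct.induction_on with
    | zero => simp
    | add z z' hz hz' => rw [map_add, map_add, map_add, hz, hz']
    | tmul x u =>
      rw [TensorProduct.equivFinsuppOfBasisRight_apply_tmul, bigMap_tmul]
      conv_rhs => rw [← e.linearCombination_repr u]
      simp only [Θ, Finsupp.linearCombination_apply]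
      rw [Finsupp.sum_mapRange_index (h := fun (i : _) (a : Ω) => a • incF k Ω F (e i))
        (fun i => zero_smul Ω _), map_finsuppSum, Finsupp.mul_sum]
      refine Finsupp.sum_congr fun i _ => ?_
      rw [Algebra.smul_def, halg, map_smul, Algebra.smul_def, Algebra.smul_def,
        map_mul, AlgHom.commutes]
      ring
  have hci : LinearIndependent Ω fun l => co (y l) := by
    refine LinearIndependent.of_comp Θ ?_
    have hY : Θ ∘ (fun l => co (y l)) = fun l => bigMap k Ω F β * f l :=
      funext fun l => (hΘ (y l)).trans ((hy l).symm.trans (mul_comm _ _))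
    rw [hY]
    exact hf.map' (LinearMap.mulLeft Ω (bigMap k Ω F β))
      (LinearMap.ker_eq_bot.mpr (mul_right_injective₀ hβB))
  obtain ⟨v, hvR, hvs, hvli, hvres⟩ := exists_integral_rows R π n _ hci
  choose C hC using fun j => (Submodule.mem_span_range_iff_exists_fun Ω).mp (hvs j)
  have hdet : (Matrix.of C).det ≠ 0 := fun h => by
    obtain ⟨g, hg, hgC⟩ := Matrix.exists_vecMul_eq_zero_iff.mpr h
    refine hg (funext (Fintype.linearIndependent_iff.mp hvli g ?_))
    calc ∑ j, g j • v j = ∑ l, (∑ j, g j * C j l) • co (y l) := by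
          simp only [← hC, Finset.smul_sum, Finset.sum_smul, mul_smul]
          exact Finset.sum_comm
      _ = 0 := Finset.sum_eq_zero fun l _ => by
          have := congrFun hgC l
          simp only [Matrix.vecMul, dotProduct, Matrix.of_apply, Pi.zero_apply] at this
          rw [this, zero_smul]
  let A : Fin n → R.alg ⊗[k] (⊤ : Subalgebra k F) := fun j =>
    ∑ i ∈ (v j).support, (⟨v j i, hvR j i⟩ : R.alg) ⊗ₜ[k] (⟨e i, trivial⟩ : (⊤ : Subalgebra k F))
  have hA : ∀ j, intBig R (⊤ : Subalgebra k F) (A j) = ∑ l, incΩ k Ω F (C j l) * bigMap k Ω F (y l) := fun j => by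
    have h1 : Θ (v j) = ∑ l, incΩ k Ω F (C j l) * bigMap k Ω F (y l) := by
      rw [← hC j, map_sum]
      exact Finset.sum_congr rfl fun l _ => by rw [map_smul, Algebra.smul_def, halg, hΘ]
    rw [← h1, map_sum]
    simp only [Θ, Finsupp.linearCombination_apply, Finsupp.sum]
    exact Finset.sum_congr rfl fun i _ => by rw [intBig_tmul, Algebra.smul_def, halg]
  have hx : ∀ j, (∑ l, incΩ k Ω F (c₀ * C j l) * f l) * intBig R (⊤ : Subalgebra k F) b' = intBig R (⊤ : Subalgebra k F) (A j) :=
    fun j => by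
      rw [hA, Finset.sum_mul]
      refine Finset.sum_congr rfl fun l _ => ?_
      rw [← hy, map_mul, hβ']
      ring
  refine ⟨c₀ • Matrix.of C, by
      rw [Matrix.det_smul]; exact mul_ne_zero (pow_ne_zero _ hc₀) hdet,
    fun j => ⟨A j, b', hb', hx j⟩, ?_⟩
  refine Fintype.linearIndependent_iff.mpr fun g hg => congrFun (hvres g fun i => ?_)
  have hev : ∀ j, evLoc R π (⊤ : Subalgebra k F) (gaussPt k κ F) ⟨_, A j, b', hb', hx j⟩ =
      redPt R π ⊤ (gaussPt k κ F) (A j) / redPt R π ⊤ (gaussPt k κ F) b' := fun j =>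
    evLoc_eq R π _ _ hb' (hx j)
  have h2 : ∑ j, g j • redPt R π ⊤ (gaussPt k κ F) (A j) = 0 := by
    have h3 : (∑ j, g j • redPt R π ⊤ (gaussPt k κ F) (A j)) /
        redPt R π ⊤ (gaussPt k κ F) b' = 0 := by
      rw [Finset.sum_div, ← hg]
      refine Finset.sum_congr rfl fun j _ => ?_
      rw [smul_div_assoc]
      exact congrArg (g j • ·) (hev j).symm
    exact (div_eq_zero_iff.mp h3).resolve_right hb'
  let coκ := TensorProduct.equivFinsuppOfBasisRight (M := κ) e
  let T : κ ⊗[k] F := ∑ j, ∑ i ∈ (v j).support, (g j * π ⟨v j i, hvR j i⟩) ⊗ₜ[k] e i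
  have hT : bigMap k κ F T = 0 := by
    rw [← h2, map_sum]
    refine Finset.sum_congr rfl fun j _ => ?_
    rw [map_sum, map_sum, Finset.smul_sum]
    refine Finset.sum_congr rfl fun i _ => ?_
    rw [redPt, Algebra.TensorProduct.lift_tmul, bigMap_tmul, map_mul, Algebra.smul_def,
      IsScalarTower.algebraMap_apply κ (κ ⊗[k] F) (Big k κ F)]
    exact mul_assoc _ _ _
  have h4 : coκ T i = 0 := by
    rw [(map_eq_zero_iff _ (bigMap_injective k κ F)).mp hT]
    simp
  rw [← h4]
  simp only [T, coκ, map_sum, TensorProduct.equivFinsuppOfBasisRight_apply_tmul,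
    Finsupp.finsetSum_apply, Finsupp.mapRange_apply, e.repr_self, Finsupp.single_apply]
  refine Finset.sum_congr rfl fun j _ => ?_
  have hπ0 : ∀ (x : Ω) (hx : x ∈ R.1), x = 0 → π ⟨x, hx⟩ = 0 := fun x hx h => by
    subst h; exact map_zero π
  simp only [ite_smul, one_smul, zero_smul]
  rw [Finset.sum_ite_eq']
  split_ifs with hi
  · rfl
  · rw [hπ0 _ _ (Finsupp.notMem_support_iff.mp hi), mul_zero]

end Fermat.Agent.AbVar
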