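import Fermat.Agent.AbVar.Cube.Gauss

/-!
# Reduction of points, and evaluation of divisor equations at a local ring
-/

set_option autoImplicit false
set_option linter.style.haveILetI false
set_option linter.unusedSectionVars false

noncomputable section

open scoped TensorProduct

namespace Fermat.Agent.AbVar

universe u

/-! ## Residue fields -/

section Res

variable {k F : Type u} [Field k] [Field F] [Algebra k F]

/-- The residue field of a valuation ring. -/
def Val.Res (V : Val k F) : Type u := IsLocalRing.ResidueField V.1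

instance Val.fieldRes (V : Val k F) : Field V.Res :=
  inferInstanceAs (Field (IsLocalRing.ResidueField V.1))

/-- The constants in the valuation ring. -/
def Val.constHom (V : Val k F) : k →+* V.1 := (algebraMap k F).codRestrict V.1.toSubring V.2

instance Val.algebraRes (V : Val k F) : Algebra k V.Res :=
  ((IsLocalRing.residue V.1).comp V.constHom).toAlgebra

/-- The residue map. -/
def Val.res (V : Val k F) : V.alg →ₐ[k] V.Res where
  toFun x := IsLocalRing.residue V.1 (⟨x.1, x.2⟩ : V.1)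
  map_one' := map_one (IsLocalRing.residue V.1)
  map_mul' _ _ := map_mul (IsLocalRing.residue V.1) _ _
  map_zero' := _root_.map_zero (IsLocalRing.residue V.1)
  map_add' _ _ := map_add (IsLocalRing.residue V.1) _ _
  commutes' _ := rfl

theorem Val.res_eq_zero_iff (V : Val k F) (x : V.alg) :
    V.res x = 0 ↔ (x : F) = 0 ∨ (x : F)⁻¹ ∉ V.1 := by
  show IsLocalRing.residue V.1 (⟨x.1, x.2⟩ : V.1) = 0 ↔ _
  rw [IsLocalRing.residue_eq_zero_iff, ← ValuationSubring.coe_mem_nonunits_iff,
    ValuationSubring.mem_nonunits_iff_or]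

theorem Val.res_local (V : Val k F) (x : V.alg) (h : (x : F)⁻¹ ∉ V.1) : V.res x = 0 :=
  (V.res_eq_zero_iff x).mpr (Or.inr h)

end Res

/-! ## Reduction of points -/

namespace Model

variable {K : Type u} [Field K] (M : Model K) {k F G κ κ' : Type u} [Field k] [Algebra K k]
  [Field F] [Algebra k F] [Algebra K F] [IsScalarTower K k F]
  [Field κ] [Algebra k κ] [Algebra K κ] [IsScalarTower K k κ]

/-- A homomorphism out of a valuation ring, as a ring homomorphism. -/
def piHom (V : Val k F) (π : V.alg →ₐ[k] κ) : V.1 →+* κ :=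
  π.toRingHom.comp (V.1.toSubring.subtype.codRestrict V.alg fun x => x.2)

theorem piHom_const (V : Val k F) (π : V.alg →ₐ[k] κ) (c : K) :
    piHom V π ⟨algebraMap K F c, (V.restrict k).2 c⟩ = algebraMap K κ c := by
  rw [IsScalarTower.algebraMap_apply K k κ, ← π.commutes]
  refine congrArg π (Subtype.ext ?_)
  exact IsScalarTower.algebraMap_apply K k F c

/-- Reduction of points along a valuation ring. -/
def redK (V : Val k F) (π : V.alg →ₐ[k] κ) : M.Pt F →+ M.Pt κ :=
  M.red (V.restrict k (K := K)).1 (V.restrict k).2 (piHom V π) (piHom_const V π)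

theorem redK_pt (V : Val k F) (π : V.alg →ₐ[k] κ) (i : Fin (M.r + 1)) (φ : M.O i →ₐ[K] F)
    (ψ : M.O i →ₐ[K] κ) (hφ : ∀ a, φ a ∈ V.1) (h : ∀ a, π ⟨φ a, hφ a⟩ = ψ a) :
    M.redK V π (M.pt i φ) = M.pt i ψ :=
  M.red_pt _ _ _ _ i φ ψ hφ h

theorem chart_of_redK (V : Val k F) (π : V.alg →ₐ[k] κ)
    (hloc : ∀ r : V.alg, (r : F)⁻¹ ∉ V.1 → π r = 0) (P : M.Pt F) (i : Fin (M.r + 1))
    (ψ : M.O i →ₐ[K] κ) (h : M.redK V π P = M.pt i ψ) :
    ∃ φ : M.O i →ₐ[K] F, (∀ a, φ a ∈ V.1) ∧ M.pt i φ = P := by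
  refine M.chart_of_red _ _ _ _ ⟨fun x hx => ?_⟩ P i ψ h
  rcases eq_or_ne (x : F) 0 with h0 | h0
  · exact absurd (by rw [show x = 0 from Subtype.ext h0, _root_.map_zero]) hx.ne_zero
  · by_cases hi : (x : F)⁻¹ ∈ V.1
    · exact IsUnit.of_mul_eq_one ⟨_, hi⟩ (Subtype.ext (mul_inv_cancel₀ h0))
    · exact absurd (hloc ⟨x.1, x.2⟩ hi) hx.ne_zero

theorem exists_chartK (V : Val k F) (P : M.Pt F) :
    ∃ i, ∃ φ : M.O i →ₐ[K] F, (∀ a, φ a ∈ V.1) ∧ M.pt i φ = P :=
  M.exists_chart V.1 (V.restrict k).2 P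

theorem exists_pt (P : M.Pt F) : ∃ i, ∃ φ : M.O i →ₐ[K] F, M.pt i φ = P := by
  obtain ⟨i, φ, -, h⟩ := M.exists_chart ⊤ (fun _ => ValuationSubring.mem_top _) P
  exact ⟨i, φ, h⟩

variable [Field G] [Algebra k G] [Algebra K G] [IsScalarTower K k G] [Field κ'] [Algebra k κ']
  [Algebra K κ'] [IsScalarTower K k κ']

theorem redK_map (s : F →ₐ[K] G) (W : Val k F) (πW : W.alg →ₐ[k] κ) (V : Val k G)
    (πV : V.alg →ₐ[k] κ') (h : κ →ₐ[K] κ') (hle : ∀ x ∈ W.1, s x ∈ V.1)
    (hcomp : ∀ (x : F) (hx : x ∈ W.1), πV ⟨s x, hle x hx⟩ = h (πW ⟨x, hx⟩)) (P : M.Pt F) :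
    M.redK V πV (M.map s P) = M.map h (M.redK W πW P) := by
  obtain ⟨i, φ, hφ, rfl⟩ := M.exists_chartK W P
  let φW : M.O i →ₐ[K] κ :=
    { toFun := fun a => πW ⟨φ a, hφ a⟩
      map_one' := by rw [show (⟨φ 1, hφ 1⟩ : W.alg) = 1 from Subtype.ext (map_one φ), map_one]
      map_mul' := fun a b => by
        rw [← map_mul]; exact congrArg πW (Subtype.ext (map_mul φ a b))
      map_zero' := by
        rw [show (⟨φ 0, hφ 0⟩ : W.alg) = 0 from Subtype.ext (_root_.map_zero φ), _root_.map_zero]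
      map_add' := fun a b => by
        rw [← map_add]; exact congrArg πW (Subtype.ext (map_add φ a b))
      commutes' := fun c => by
        rw [IsScalarTower.algebraMap_apply K k κ, ← πW.commutes]
        refine congrArg πW (Subtype.ext ?_)
        exact (φ.commutes c).trans (IsScalarTower.algebraMap_apply K k F c) }
  rw [M.redK_pt W πW i φ φW hφ fun a => rfl, M.map_pt, M.map_pt,
    M.redK_pt V πV i (s.comp φ) (h.comp φW) (fun a => hle _ (hφ a))
      fun a => hcomp _ (hφ a)]

end Model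

/-! ## Charts and equations at a local ring -/

section Local

variable {K : Type u} [Field K] (M : Model K) {k : Type u} [Field k] [IsAlgClosed k] [Algebra K k]
  {Ω F κ L : Type u} [Field Ω] [Algebra k Ω] [Algebra K Ω] [IsScalarTower K k Ω] [Field F]
  [Algebra k F] [Algebra K F] [IsScalarTower K k F] [Field κ] [Algebra k κ] [Algebra K κ]
  [IsScalarTower K k κ] [Field L] [Algebra k L] [Algebra κ L] [IsScalarTower k κ L] [Algebra K L]
  [IsScalarTower K k L]
  (R : Val k Ω) (π : R.alg →ₐ[k] κ) (B : Subalgebra k F) (q : B →ₐ[k] L)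
  [IsIntegrallyClosed B] (hB : ∀ y : F, ∃ a ∈ B, ∃ b ∈ B, b ≠ 0 ∧ y = a / b)
  (hloc : ∀ r : R.alg, (r : Ω)⁻¹ ∉ R.1 → π r = 0)
  (hq : Function.Surjective (evLoc R π B q))

/-- The sum of a point of the small field and a point of the constants. -/
def Model.sumPt (P : M.Pt F) (a : M.Pt Ω) : M.Pt (Big k Ω F) :=
  M.map ((incF k Ω F).restrictScalars K) P + M.map ((incΩ k Ω F).restrictScalars K) a

/-- Its value at a point of the small ring. -/
def Model.sumVal {j : Fin (M.r + 1)} (φ : M.O j →ₐ[K] B) (a : M.Pt Ω) : M.Pt L :=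
  M.pt j ((q.restrictScalars K).comp φ) +
    M.map ((IsScalarTower.toAlgHom k κ L).restrictScalars K) (M.redK R π a)

include hB hloc hq

theorem Model.exists_chart_loc {j : Fin (M.r + 1)} (φ : M.O j →ₐ[K] B) (a : M.Pt Ω)
    {i : Fin (M.r + 1)} (ψ : M.O i →ₐ[K] L) (hψ : M.pt i ψ = M.sumVal R π B q φ a) :
    ∃ φ' : M.O i →ₐ[K] Big k Ω F,
      M.pt i φ' = M.sumPt (M.pt j ((B.val.restrictScalars K).comp φ)) a ∧
      ∃ hmem : ∀ x, φ' x ∈ locRing R π B q, ∀ x, evLoc R π B q ⟨φ' x, hmem x⟩ = ψ x := by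
  classical
  set Z := M.sumPt (k := k) (M.pt j ((B.val.restrictScalars K).comp φ)) a with hZ
  -- the reduction in a dominating valuation ring
  have key : ∀ V : Val k (Big k Ω F), Dominates R π B q V →
      ∃ φ' : M.O i →ₐ[K] Big k Ω F, (∀ x, φ' x ∈ V.1) ∧ M.pt i φ' = Z ∧
        ∀ x (hS : φ' x ∈ locRing R π B q), evLoc R π B q ⟨φ' x, hS⟩ = ψ x := by
    intro V hV
    let ρ : locRing R π B q →ₐ[k] V.Res := V.res.comp (Subalgebra.inclusion hV.1)
    have hker : ∀ s, evLoc R π B q s = 0 → ρ s = 0 := fun s hs =>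
      (V.res_eq_zero_iff _).mpr (hV.2 s hs)
    choose sec hsec using hq
    have hh : ∀ s, ρ (sec (evLoc R π B q s)) = ρ s := fun s => sub_eq_zero.mp (by
      rw [← map_sub]
      exact hker _ (by rw [map_sub, hsec, sub_self]))
    let h : L →ₐ[k] V.Res :=
      { toFun := fun l => ρ (sec l)
        map_one' := by rw [← map_one (evLoc R π B q), hh, map_one]
        map_mul' := fun x y => by
          have := hh (sec x * sec y)
          rw [map_mul, hsec, hsec, map_mul] at this
          exact this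
        map_zero' := by rw [← _root_.map_zero (evLoc R π B q), hh, _root_.map_zero]
        map_add' := fun x y => by
          have := hh (sec x + sec y)
          rw [map_add, hsec, hsec, map_add] at this
          exact this
        commutes' := fun c => by rw [← (evLoc R π B q).commutes, hh, AlgHom.commutes] }
    have hhev : ∀ s, h (evLoc R π B q s) = ρ s := hh
    letI : Algebra K V.Res := ((algebraMap k V.Res).comp (algebraMap K k)).toAlgebra
    haveI : IsScalarTower K k V.Res := IsScalarTower.of_algebraMap_eq fun _ => rfl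
    have hred : M.redK V V.res Z = M.map (h.restrictScalars K) (M.pt i ψ) := by
      rw [hψ, Model.sumVal, map_add, M.map_pt, hZ, Model.sumPt, map_add, M.map_pt]
      congr 1
      · refine M.redK_pt V V.res j _ _
          (fun x => hV.1 (incF_mem_locRing R π B q (φ x))) fun x => ?_
        show _ = h (q (φ x))
        rw [← evLoc_incF R π B q (φ x), hhev]
        rfl
      · rw [M.map_map]
        refine M.redK_map ((incΩ k Ω F).restrictScalars K) R π V V.res _
          (fun x hx => hV.1 (incΩ_mem_locRing R π B q hx)) (fun x hx => ?_) a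
        show _ = h (algebraMap κ L (π ⟨x, hx⟩))
        rw [← evLoc_incΩ R π B q ⟨x, hx⟩, hhev]
        rfl
    rw [M.map_pt] at hred
    obtain ⟨φ', hφ', hpt⟩ := M.chart_of_redK V V.res V.res_local Z i _ hred
    refine ⟨φ', hφ', hpt, fun x hS => h.injective ?_⟩
    have h2 := M.redK_pt V V.res i φ'
      ((V.res.restrictScalars K).comp (φ'.codRestrict (V.alg.restrictScalars K) hφ')) hφ'
      fun _ => rfl
    rw [hpt, hred] at h2
    show h (evLoc R π B q _) = h (ψ x)
    rw [hhev]
    exact (DFunLike.congr_fun (M.pt_injective h2) x).symm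
  obtain ⟨V₀, hV₀⟩ : ∃ V, Dominates R π B q V := by
    by_cases h : ∀ x : Big k Ω F, x ∈ locRing R π B q
    · refine ⟨⟨⊤, fun _ => ValuationSubring.mem_top _⟩, fun x _ => ValuationSubring.mem_top x,
        fun s hs => Or.inl ?_⟩
      by_contra h0
      have hmul : s * ⟨(s : Big k Ω F)⁻¹, h _⟩ = 1 := Subtype.ext (mul_inv_cancel₀ h0)
      have := congrArg (evLoc R π B q) hmul
      rw [map_mul, hs, zero_mul, map_one] at this
      exact zero_ne_one this
    · push Not at h
      obtain ⟨x, hx⟩ := h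
      obtain ⟨V, hV, -⟩ := exists_dominates_notMem R π B q hB hloc hx
      exact ⟨V, hV⟩
  obtain ⟨φ', -, hpt, hev⟩ := key V₀ hV₀
  have hmem : ∀ x, φ' x ∈ locRing R π B q := fun x => by
    by_contra hx
    obtain ⟨V, hV, hxV⟩ := exists_dominates_notMem R π B q hB hloc hx
    obtain ⟨φ'', hφ'', hpt'', -⟩ := key V hV
    rw [M.pt_injective (hpt.trans hpt''.symm)] at hxV
    exact hxV (hφ'' x)
  exact ⟨φ', hpt, hmem, fun x => hev x (hmem x)⟩

omit hq

/-- An element regular at the horizontal valuations and at the Gauss valuation, in terms of the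
charts there, is regular with respect to charts at the local ring. -/
theorem Model.mul_prod_ratio_mem {m : ℕ} (Z : Fin m → M.Pt (Big k Ω F)) (e : Fin m → ℤ)
    (i b : Fin m → Fin (M.r + 1)) (φ' : ∀ s, M.O (i s) →ₐ[K] Big k Ω F)
    (hpt : ∀ s, M.pt (i s) (φ' s) = Z s) (hmem : ∀ s x, φ' s x ∈ locRing R π B q)
    (f : Big k Ω F)
    (hf : ∀ V : Val k (Big k Ω F), (∀ c, incΩ k Ω F c ∈ V.1) ∨ V = gauss R π →
      ∀ i' : Fin m → Fin (M.r + 1),
        (∀ s, ∃ φ : M.O (i' s) →ₐ[K] Big k Ω F, (∀ x, φ x ∈ V.1) ∧ M.pt (i' s) φ = Z s) →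
        f * ∏ s, M.ratio (Z s) (i' s) (b s) ^ e s ∈ V.1) :
    f * ∏ s, M.ratio (Z s) (i s) (b s) ^ e s ∈ locRing R π B q :=
  mem_locRing_of R π B q hB hloc
    (hf _ (Or.inr rfl) i fun s => ⟨φ' s, fun x => locRing_le_gauss R π B q (hmem s x), hpt s⟩)
    fun V hle hΩ => hf V (Or.inl hΩ) i fun s => ⟨φ' s, fun x => hle (hmem s x), hpt s⟩

end Local

end Fermat.Agent.AbVar
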