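import Fermat.Agent.AbVar.Cube.Eval

/-!
# Valuation rings with prescribed reduction, composites, and descent of principal divisors
-/

set_option autoImplicit false
set_option linter.style.haveILetI false
set_option linter.unusedSectionVars false

noncomputable section

open scoped Classical

namespace Fermat.Agent.AbVar

universe u

variable {k F G : Type u} [Field k] [Field F] [Algebra k F] [Field G] [Algebra k G]

/-- A homomorphism from a subalgebra to the constants extends to a reduction. -/
theorem exists_val_of_hom (A : Subalgebra k F) (χ : A →ₐ[k] k) :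
    ∃ (V : Val k F) (hle : A ≤ V.alg),
      ∀ a : A, V.res ⟨a, hle a.2⟩ = algebraMap k V.Res (χ a) := by
  obtain ⟨W, hAW, hIW⟩ := Ideal.image_subset_nonunits_valuationSubring
    (A := A.toSubring) (RingHom.ker (χ.toRingHom : A.toSubring →+* k)) (RingHom.ker_ne_top _)
  refine ⟨⟨W, fun c => hAW (A.algebraMap_mem c)⟩, fun x hx => hAW hx, fun a => ?_⟩
  set V : Val k F := ⟨W, fun c => hAW (A.algebraMap_mem c)⟩ with hV
  rw [← sub_eq_zero, ← V.res.commutes, ← map_sub, Val.res_eq_zero_iff]
  refine (ValuationSubring.mem_nonunits_iff_or W).mp (hIW ⟨⟨(a : F) - algebraMap k F (χ a),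
    (a - algebraMap k A (χ a) : A).2⟩, ?_, rfl⟩)
  show χ (a - algebraMap k A (χ a)) = 0
  rw [map_sub, AlgHom.commutes]
  exact sub_self _

/-- The composite of a valuation ring with one of its residue field. -/
def Val.comp {K : Type u} [Field K] [Algebra K k] [Algebra K F] [IsScalarTower K k F]
    (V : Val k F) [Algebra K V.Res] [IsScalarTower K k V.Res] (W : Val K V.Res) : Val K F :=
  ⟨{ carrier := {x | ∃ h : x ∈ V.1, V.res ⟨x, h⟩ ∈ W.1}
     mul_mem' := by
      rintro x y ⟨hx, hx'⟩ ⟨hy, hy'⟩
      exact ⟨mul_mem hx hy, by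
        rw [show (⟨x * y, mul_mem hx hy⟩ : V.alg) = ⟨x, hx⟩ * ⟨y, hy⟩ from rfl, map_mul]
        exact mul_mem hx' hy'⟩
     one_mem' := ⟨one_mem _, by
      rw [show (⟨1, one_mem _⟩ : V.alg) = 1 from rfl, map_one]
      exact one_mem _⟩
     add_mem' := by
      rintro x y ⟨hx, hx'⟩ ⟨hy, hy'⟩
      exact ⟨add_mem hx hy, by
        rw [show (⟨x + y, add_mem hx hy⟩ : V.alg) = ⟨x, hx⟩ + ⟨y, hy⟩ from rfl, map_add]
        exact add_mem hx' hy'⟩
     zero_mem' := ⟨zero_mem _, by
      rw [show (⟨0, zero_mem _⟩ : V.alg) = 0 from rfl, _root_.map_zero]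
      exact zero_mem _⟩
     neg_mem' := by
      rintro x ⟨hx, hx'⟩
      exact ⟨neg_mem hx, by
        rw [show (⟨-x, neg_mem hx⟩ : V.alg) = -⟨x, hx⟩ from rfl, map_neg]
        exact neg_mem hx'⟩
     mem_or_inv_mem' := fun x => by
      rcases eq_or_ne x 0 with rfl | hx0
      · left
        exact ⟨zero_mem _, by
          rw [show (⟨0, zero_mem _⟩ : V.alg) = 0 from rfl, _root_.map_zero]
          exact zero_mem _⟩
      by_cases hx : x ∈ V.1
      · by_cases hi : x⁻¹ ∈ V.1
        · have hmul : V.res ⟨x, hx⟩ * V.res ⟨x⁻¹, hi⟩ = 1 := by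
            rw [← map_mul, ← map_one V.res]
            exact congrArg V.res (Subtype.ext (mul_inv_cancel₀ hx0))
          rcases W.1.mem_or_inv_mem (V.res ⟨x, hx⟩) with h | h
          · exact Or.inl ⟨hx, h⟩
          · exact Or.inr ⟨hi, by rwa [inv_eq_of_mul_eq_one_right hmul] at h⟩
        · left
          exact ⟨hx, by rw [V.res_local ⟨x, hx⟩ hi]; exact zero_mem _⟩
      · right
        have hi : x⁻¹ ∈ V.1 := (V.1.mem_or_inv_mem x).resolve_left hx
        exact ⟨hi, by rw [V.res_local ⟨x⁻¹, hi⟩ (by rwa [inv_inv])]; exact zero_mem _⟩ },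
    fun c => by
      have h : algebraMap K F c ∈ V.1 := by
        rw [IsScalarTower.algebraMap_apply K k F c]; exact V.2 _
      refine ⟨h, ?_⟩
      rw [show (⟨algebraMap K F c, h⟩ : V.alg) = algebraMap k V.alg (algebraMap K k c) from
        Subtype.ext (IsScalarTower.algebraMap_apply K k F c), AlgHom.commutes,
        ← IsScalarTower.algebraMap_apply]
      exact W.2 c⟩

/-- A valuation ring extends along an embedding. -/
theorem exists_extend (s : F →ₐ[k] G) (W₀ : Val k F) : ∃ W : Val k G, W.comap s = W₀ := by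
  obtain ⟨W, hAW, hIW⟩ := Ideal.image_subset_nonunits_valuationSubring
    (A := W₀.1.toSubring.map s.toRingHom)
    ((IsLocalRing.maximalIdeal W₀.1).map
      (W₀.1.toSubring.equivMapOfInjective s.toRingHom s.toRingHom.injective :
        W₀.1 →+* W₀.1.toSubring.map s.toRingHom)) (fun h => by
      have h' := congrArg (Ideal.map
        ((W₀.1.toSubring.equivMapOfInjective s.toRingHom s.toRingHom.injective).symm :
          W₀.1.toSubring.map s.toRingHom →+* W₀.1)) h
      rw [Ideal.map_map, Ideal.map_top] at h'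
      refine (IsLocalRing.maximalIdeal.isMaximal W₀.1).ne_top ?_
      rw [← h']
      exact (Ideal.map_id _).symm.trans (congrArg (Ideal.map · _)
        (RingHom.ext fun x => ((W₀.1.toSubring.equivMapOfInjective s.toRingHom
          s.toRingHom.injective).symm_apply_apply x).symm)))
  refine ⟨⟨W, fun c => hAW ⟨algebraMap k F c, W₀.2 c, s.commutes c⟩⟩,
    Subtype.ext (SetLike.ext fun x => ⟨fun hx => ?_, fun hx => hAW ⟨x, hx, rfl⟩⟩)⟩
  by_contra hx0
  have hi : x⁻¹ ∈ W₀.1 := (W₀.1.mem_or_inv_mem x).resolve_left hx0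
  have hm : (⟨x⁻¹, hi⟩ : W₀.1) ∈ IsLocalRing.maximalIdeal W₀.1 := by
    rw [← ValuationSubring.coe_mem_nonunits_iff, ValuationSubring.mem_nonunits_iff_or]
    exact Or.inr (by rwa [inv_inv])
  rcases (ValuationSubring.mem_nonunits_iff_or W).mp
    (hIW ⟨_, Ideal.mem_map_of_mem _ hm, rfl⟩) with h | h
  · exact hx0 ((inv_eq_zero.mp ((map_eq_zero_iff _ s.toRingHom.injective).mp h)) ▸ zero_mem _)
  · refine h ?_
    show (s.toRingHom x⁻¹)⁻¹ ∈ W
    rw [← map_inv₀, inv_inv]
    exact hx

/-- Vanishing of a pulled back divisor. -/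
theorem eq_of_pullCDiv_eq (s : F →ₐ[k] G) {D E : CDiv k F}
    (h : pullCDiv s D = pullCDiv s E) : D = E := by
  funext W₀
  obtain ⟨W, rfl⟩ := exists_extend s W₀
  have hinj : Function.Injective (valMap s W) := by
    rw [injective_iff_map_eq_zero]
    intro a ha
    obtain ⟨x, rfl⟩ := QuotientGroup.mk'_surjective _ a
    have h1 : valMap s W (vcls (W.comap s).1 ((Additive.toMul (Additive.ofMul x) : Fˣ) : F)) = 0 := by
      rw [vcls_units]
      exact ha
    rw [valMap_vcls s W (Units.ne_zero _), vcls_eq_zero_iff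
      ((map_ne_zero s).mpr (Units.ne_zero _)), ← map_inv₀] at h1
    have h2 : vcls (W.comap s).1 ((Additive.toMul (Additive.ofMul x) : Fˣ) : F) = 0 :=
      (vcls_eq_zero_iff (Units.ne_zero _)).mpr h1
    rw [vcls_units] at h2
    exact h2
  exact hinj (congrFun h W)

/-- Principal multiples descend along algebraic extensions. -/
theorem mem_TP_of_pullCDiv [Algebra F G] [IsScalarTower k F G] [Algebra.IsAlgebraic F G]
    [IsAlgClosed G] {D : CDiv k F}
    (h : pullCDiv (IsScalarTower.toAlgHom k F G) D ∈ TP k G) : D ∈ TP k F := by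
  classical
  set s := IsScalarTower.toAlgHom k F G with hs
  obtain ⟨d, hd, t, ht, h⟩ := h
  have hint : IsIntegral F t := (Algebra.IsAlgebraic.isAlgebraic t).isIntegral
  set p := minpoly F t with hp
  have hp0 : p.coeff 0 ≠ 0 := minpoly.coeff_zero_ne_zero hint ht
  haveI : Normal F G :=
    { toIsAlgebraic := inferInstance
      splits' := fun y => IsAlgClosed.splits _ }
  -- every conjugate of `t` has the same divisor
  have hroot : ∀ z ∈ (p.map (algebraMap F G)).roots,
      z ≠ 0 ∧ principal k z = principal k t := by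
    intro z hz
    have hz0 : z ≠ 0 := by
      rintro rfl
      rw [Polynomial.mem_roots', Polynomial.IsRoot.def, Polynomial.eval_map,
        Polynomial.eval₂_at_zero] at hz
      exact hp0 ((map_eq_zero _).mp hz.2)
    refine ⟨hz0, ?_⟩
    obtain ⟨σ, rfl⟩ := minpoly.exists_algEquiv_of_root' (K := F) (x := z) (y := t)
      (Algebra.IsAlgebraic.isAlgebraic t) (by
        rw [Polynomial.mem_roots', Polynomial.IsRoot.def, Polynomial.eval_map] at hz
        exact hz.2)
    have hσ : ∀ x, (σ.restrictScalars k).toAlgHom (s x) = s x := fun x => σ.commutes x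
    rw [← h, show principal k (σ t) =
      pullCDiv (σ.restrictScalars k).toAlgHom (principal k t) from
        (pullCDiv_principal (k := k) (σ.restrictScalars k).toAlgHom ht).symm, ← h, map_nsmul]
    congr 1
    funext V
    show valMap _ V (valMap s (V.comap (σ.restrictScalars k).toAlgHom) (D _)) = valMap s V (D _)
    have hc : (V.comap (σ.restrictScalars k).toAlgHom).comap s = V.comap s :=
      Subtype.ext (SetLike.ext fun x => by rw [Val.mem_comap, Val.mem_comap, Val.mem_comap, hσ])
    obtain ⟨a, ha⟩ := QuotientGroup.mk'_surjective _ (D ((V.comap (σ.restrictScalars k).toAlgHom).comap s))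
    have e1 : D ((V.comap (σ.restrictScalars k).toAlgHom).comap s) = vcls _ (a : F) := by
      rw [vcls_units]; exact ha.symm
    have e2 : D (V.comap s) = vcls _ (a : F) := by
      clear_value s
      revert e1
      generalize hW : (V.comap (σ.restrictScalars k).toAlgHom).comap s = W
      rw [hc] at hW
      subst hW
      exact id
    rw [e1, e2, valMap_vcls _ _ a.ne_zero, valMap_vcls _ _ ((map_ne_zero s).mpr a.ne_zero),
      valMap_vcls _ _ a.ne_zero, hσ]
  refine ⟨d * p.natDegree, Nat.mul_pos hd (minpoly.natDegree_pos hint),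
    (-1) ^ p.natDegree * p.coeff 0, mul_ne_zero (pow_ne_zero _ (neg_ne_zero.mpr one_ne_zero)) hp0,
    eq_of_pullCDiv_eq s ?_⟩
  have hprod : s ((-1) ^ p.natDegree * p.coeff 0) = (p.map (algebraMap F G)).roots.prod := by
    have h1 := (IsAlgClosed.splits (p.map (algebraMap F G))).coeff_zero_eq_prod_roots_of_monic
      ((minpoly.monic hint).map _)
    rw [Polynomial.coeff_map, Polynomial.natDegree_map] at h1
    rw [map_mul, map_pow, map_neg, map_one, show s (p.coeff 0) = algebraMap F G (p.coeff 0) from rfl,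
      h1, ← mul_assoc, ← mul_pow, neg_one_mul, neg_neg, one_pow, one_mul]
  have hcard : Multiset.card (p.map (algebraMap F G)).roots = p.natDegree := by
    rw [← Polynomial.natDegree_map (algebraMap F G) (p := p)]
    exact ((IsAlgClosed.splits _).natDegree_eq_card_roots).symm
  rw [pullCDiv_principal _ (mul_ne_zero (pow_ne_zero _ (neg_ne_zero.mpr one_ne_zero)) hp0), hprod,
    map_nsmul, mul_nsmul, h, ← hcard]
  funext V
  show Multiset.card _ • vcls V.1 t = vcls V.1 _
  generalize hm : (p.map (algebraMap F G)).roots = m at hroot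
  clear hcard hm hprod
  induction m using Multiset.induction_on with
  | empty => rw [Multiset.card_zero, zero_nsmul, Multiset.prod_zero, vcls_one]
  | cons z m ih =>
    have hne : m.prod ≠ 0 := Multiset.prod_ne_zero fun h0 =>
      (hroot 0 (Multiset.mem_cons_of_mem h0)).1 rfl
    obtain ⟨hz0, hz⟩ := hroot z (Multiset.mem_cons_self z m)
    rw [Multiset.card_cons, succ_nsmul, Multiset.prod_cons, vcls_mul V.1 hz0 hne,
      ih fun y hy => hroot y (Multiset.mem_cons_of_mem hy), add_comm,
      show vcls V.1 z = vcls V.1 t from congrFun hz V]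

/-- The residue fields of valuation rings of algebraically closed fields are algebraically
closed. -/
theorem Val.isAlgClosed_res [IsAlgClosed F] (V : Val k F) : IsAlgClosed V.Res := by
  haveI : IsAlgClosed (IsLocalRing.ResidueField V.1) := by
    refine IsAlgClosed.of_exists_root _ fun p hm hirr => ?_
    obtain ⟨q, hq, hdeg, hqm⟩ := Polynomial.lifts_and_degree_eq_and_monic
      ((Polynomial.lifts_iff_coeff_lifts p).mpr fun i => IsLocalRing.residue_surjective _) hm
    have hpos : (q.map V.1.subtype).degree ≠ 0 := by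
      rw [hqm.degree_map, hdeg]
      exact hirr.degree_pos.ne'
    obtain ⟨x, hx⟩ := IsAlgClosed.exists_root _ hpos
    have hint : IsIntegral V.1 x := ⟨q, hqm, by rw [← Polynomial.eval_map]; exact hx⟩
    obtain ⟨y, rfl⟩ := IsIntegrallyClosed.isIntegral_iff.mp hint
    refine ⟨IsLocalRing.residue _ y, ?_⟩
    have hy : q.eval y = 0 := by
      refine IsFractionRing.injective V.1 F ?_
      rw [_root_.map_zero, ← Polynomial.eval₂_hom, ← Polynomial.eval_map]
      exact hx
    rw [← hq, Polynomial.eval_map, Polynomial.eval₂_hom, hy, _root_.map_zero]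
  exact this

/-- A valuation ring below a given one, with prescribed trace on a subfield of the residues. -/
theorem exists_below {k₁ : Type u} [Field k₁] [Algebra k k₁] [Algebra k₁ F] [IsScalarTower k k₁ F]
    (R₂ : Val k₁ F) (R₁ : Val k k₁) :
    ∃ R : Val k F, R.1 ≤ R₂.1 ∧ ∀ r : k₁, r ∈ R₁.1 → algebraMap k₁ F r ∈ R.1 ∧
      (r⁻¹ ∉ R₁.1 → (algebraMap k₁ F r)⁻¹ ∉ R.1) := by
  letI : Algebra k R₂.Res := ((algebraMap k₁ R₂.Res).comp (algebraMap k k₁)).toAlgebra
  haveI : IsScalarTower k k₁ R₂.Res := IsScalarTower.of_algebraMap_eq fun _ => rfl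
  obtain ⟨W, hW⟩ := exists_extend (IsScalarTower.toAlgHom k k₁ R₂.Res) R₁
  refine ⟨R₂.comp W, fun x hx => hx.1, fun r hr => ?_⟩
  have hres : R₂.res ⟨algebraMap k₁ F r, R₂.2 r⟩ = algebraMap k₁ R₂.Res r := R₂.res.commutes r
  refine ⟨⟨R₂.2 r, ?_⟩, fun hri ⟨h, h'⟩ => hri ?_⟩
  · rw [hres]
    rw [← hW] at hr
    exact hr
  · rw [← hW, Val.mem_comap]
    show algebraMap k₁ R₂.Res r⁻¹ ∈ W.1
    rw [← R₂.res.commutes]
    convert h' using 2
    exact Subtype.ext (map_inv₀ _ _)

end Fermat.Agent.AbVar
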