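import Fermat.Agent.AbVar.Cube.Points
import Fermat.Agent.AbVar.BaseChange

/-!
# Local rings over a valuation ring in `Frac (Ω ⊗ F)`, and the Gauss valuation
-/

set_option autoImplicit false
set_option linter.style.haveILetI false

noncomputable section

open scoped TensorProduct

namespace Fermat.Agent.AbVar

universe u

section Big

variable (k : Type u) [Field k] [IsAlgClosed k] (Ω F : Type u) [Field Ω] [Algebra k Ω] [Field F]
  [Algebra k F]

instance isDomain_bigRing : IsDomain (Ω ⊗[k] F) := isDomain_tensor k F Ω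

/-- The fraction field of `Ω ⊗ F`. -/
abbrev Big : Type u := FractionRing (Ω ⊗[k] F)

/-- The map of the tensor product into its fraction field. -/
def bigMap : Ω ⊗[k] F →ₐ[k] Big k Ω F := IsScalarTower.toAlgHom k _ _

/-- The constants in the big field. -/
def incΩ : Ω →ₐ[k] Big k Ω F :=
  (bigMap k Ω F).comp Algebra.TensorProduct.includeLeft

/-- The small field in the big one. -/
def incF : F →ₐ[k] Big k Ω F :=
  (bigMap k Ω F).comp Algebra.TensorProduct.includeRight

theorem bigMap_injective : Function.Injective (bigMap k Ω F) :=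
  IsFractionRing.injective _ _

theorem bigMap_tmul (c : Ω) (x : F) :
    bigMap k Ω F (c ⊗ₜ x) = incΩ k Ω F c * incF k Ω F x := by
  rw [incΩ, incF, AlgHom.comp_apply, AlgHom.comp_apply, ← map_mul,
    Algebra.TensorProduct.includeLeft_apply, Algebra.TensorProduct.includeRight_apply,
    Algebra.TensorProduct.tmul_mul_tmul, mul_one, one_mul]

theorem exists_big_div (x : Big k Ω F) :
    ∃ a b : Ω ⊗[k] F, b ≠ 0 ∧ x = bigMap k Ω F a / bigMap k Ω F b := by
  obtain ⟨a, b, hb, rfl⟩ := IsFractionRing.div_surjective (A := Ω ⊗[k] F) x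
  exact ⟨a, b, nonZeroDivisors.ne_zero hb, rfl⟩

end Big

section Loc

variable {k : Type u} [Field k] [IsAlgClosed k] {Ω F κ L : Type u} [Field Ω] [Algebra k Ω]
  [Field F] [Algebra k F] [Field κ] [Algebra k κ] [Field L] [Algebra k L] [Algebra κ L]
  [IsScalarTower k κ L] (R : Val k Ω) (π : R.alg →ₐ[k] κ) (B : Subalgebra k F) (q : B →ₐ[k] L)

/-- The integral tensor product inside `Ω ⊗ F`. -/
def intMap : R.alg ⊗[k] B →ₐ[k] Ω ⊗[k] F := Algebra.TensorProduct.map R.alg.val B.val

/-- The reduction at a point. -/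
def redPt : R.alg ⊗[k] B →ₐ[k] L :=
  Algebra.TensorProduct.lift ((IsScalarTower.toAlgHom k κ L).comp π) q fun _ _ => Commute.all _ _

/-- The integral tensor product in the big field. -/
def intBig : R.alg ⊗[k] B →ₐ[k] Big k Ω F := (bigMap k Ω F).comp (intMap R B)

theorem intMap_injective : Function.Injective (intMap R B) := by
  have h : (intMap R B).toLinearMap =
      (B.val.toLinearMap.lTensor Ω).comp (R.alg.val.toLinearMap.rTensor B) :=
    TensorProduct.ext' fun _ _ => rfl
  show Function.Injective (intMap R B).toLinearMap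
  rw [h]
  exact (Module.Flat.lTensor_preserves_injective_linearMap B.val.toLinearMap
    Subtype.val_injective).comp
    (Module.Flat.rTensor_preserves_injective_linearMap R.alg.val.toLinearMap Subtype.val_injective)

theorem intBig_injective : Function.Injective (intBig R B) :=
  (bigMap_injective k Ω F).comp (intMap_injective R B)

theorem intBig_ne_zero {b : R.alg ⊗[k] B} (hb : redPt R π B q b ≠ 0) : intBig R B b ≠ 0 :=
  fun h => hb (by rw [(map_eq_zero_iff _ (intBig_injective R B)).mp h, _root_.map_zero])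

/-- The local ring at a point, over the valuation ring. -/
def locRing : Subalgebra k (Big k Ω F) where
  carrier := {x | ∃ a b, redPt R π B q b ≠ 0 ∧ x * intBig R B b = intBig R B a}
  mul_mem' := by
    rintro x y ⟨a, b, hb, h⟩ ⟨c, d, hd, h'⟩
    exact ⟨a * c, b * d, by rw [map_mul]; exact mul_ne_zero hb hd, by
      rw [map_mul, map_mul, ← h, ← h']; ring⟩
  add_mem' := by
    rintro x y ⟨a, b, hb, h⟩ ⟨c, d, hd, h'⟩
    exact ⟨a * d + c * b, b * d, by rw [map_mul]; exact mul_ne_zero hb hd, by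
      rw [map_mul, map_add, map_mul, map_mul, ← h, ← h']; ring⟩
  algebraMap_mem' c := ⟨algebraMap k _ c, 1, by rw [map_one]; exact one_ne_zero, by
    rw [map_one, mul_one, AlgHom.commutes]⟩

/-- The value at the point. -/
def evLocFun (x : locRing R π B q) : L :=
  redPt R π B q x.2.choose / redPt R π B q x.2.choose_spec.choose

theorem evLocFun_eq {x : Big k Ω F} {a b : R.alg ⊗[k] B} (hb : redPt R π B q b ≠ 0)
    (h : x * intBig R B b = intBig R B a) :
    evLocFun R π B q ⟨x, a, b, hb, h⟩ = redPt R π B q a / redPt R π B q b := by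
  rw [evLocFun]
  have hs : ∃ b', redPt R π B q b' ≠ 0 ∧ x * intBig R B b' =
      intBig R B (⟨x, a, b, hb, h⟩ : locRing R π B q).2.choose :=
    (⟨x, a, b, hb, h⟩ : locRing R π B q).2.choose_spec
  obtain ⟨hb', h'⟩ := hs.choose_spec
  set b' := hs.choose
  set a' := (⟨x, a, b, hb, h⟩ : locRing R π B q).2.choose
  rw [div_eq_div_iff hb' hb, ← map_mul, ← map_mul]
  congr 1
  refine intBig_injective R B ?_
  rw [map_mul, map_mul]
  linear_combination intBig R B b' * h - intBig R B b * h'

/-- The value at the point, as a homomorphism. -/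
def evLoc : locRing R π B q →ₐ[k] L where
  toFun := evLocFun R π B q
  map_one' := (evLocFun_eq R π B q (a := 1) (b := 1) (by rw [map_one]; exact one_ne_zero)
    (by rw [map_one, mul_one])).trans (by rw [map_one, div_one])
  map_mul' x y := by
    obtain ⟨x, a, b, hb, h⟩ := x
    obtain ⟨y, c, d, hd, h'⟩ := y
    rw [evLocFun_eq R π B q hb h, evLocFun_eq R π B q hd h', div_mul_div_comm, ← map_mul,
      ← map_mul]
    exact evLocFun_eq R π B q (by rw [map_mul]; exact mul_ne_zero hb hd)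
      (by
        rw [map_mul, map_mul]
        show x * y * _ = _
        linear_combination (y * intBig R B d) * h + intBig R B a * h')
  map_zero' := (evLocFun_eq R π B q (a := 0) (b := 1) (by rw [map_one]; exact one_ne_zero)
    (by rw [_root_.map_zero, zero_mul])).trans (by rw [_root_.map_zero, zero_div])
  map_add' x y := by
    obtain ⟨x, a, b, hb, h⟩ := x
    obtain ⟨y, c, d, hd, h'⟩ := y
    rw [evLocFun_eq R π B q hb h, evLocFun_eq R π B q hd h', div_add_div _ _ hb hd, ← map_mul,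
      ← map_mul, ← map_mul, ← map_add]
    refine (evLocFun_eq R π B q (a := a * d + c * b) (by rw [map_mul]; exact mul_ne_zero hb hd)
      (by
        rw [map_mul, map_add, map_mul, map_mul]
        show (x + y) * _ = _
        linear_combination intBig R B d * h + intBig R B b * h')).trans ?_
    rw [mul_comm c b]
  commutes' c := (evLocFun_eq R π B q (a := algebraMap k _ c) (b := 1)
    (by rw [map_one]; exact one_ne_zero) (by rw [map_one, mul_one, AlgHom.commutes])).trans
    (by rw [map_one, div_one, AlgHom.commutes])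

theorem evLoc_eq {x : Big k Ω F} {a b : R.alg ⊗[k] B} (hb : redPt R π B q b ≠ 0)
    (h : x * intBig R B b = intBig R B a) :
    evLoc R π B q ⟨x, a, b, hb, h⟩ = redPt R π B q a / redPt R π B q b :=
  evLocFun_eq R π B q hb h

theorem intBig_mem_locRing (a : R.alg ⊗[k] B) : intBig R B a ∈ locRing R π B q :=
  ⟨a, 1, by rw [map_one]; exact one_ne_zero, by rw [map_one, mul_one]⟩

theorem evLoc_intBig (a : R.alg ⊗[k] B) :
    evLoc R π B q ⟨_, intBig_mem_locRing R π B q a⟩ = redPt R π B q a :=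
  (evLoc_eq R π B q (x := intBig R B a) (a := a) (b := 1) (by rw [map_one]; exact one_ne_zero)
    (by rw [map_one, mul_one])).trans (by rw [map_one, div_one])

theorem inv_mem_locRing {x : locRing R π B q} (hx : evLoc R π B q x ≠ 0) :
    (x : Big k Ω F)⁻¹ ∈ locRing R π B q := by
  obtain ⟨x, a, b, hb, h⟩ := x
  rw [evLoc_eq R π B q hb h, div_ne_zero_iff] at hx
  refine ⟨b, a, hx.1, ?_⟩
  have h0 : intBig R B a ≠ 0 := intBig_ne_zero R π B q hx.1
  show x⁻¹ * _ = _
  rw [← h] at h0 ⊢
  rw [← mul_assoc, inv_mul_cancel₀ (left_ne_zero_of_mul h0), one_mul]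

theorem intBig_tmul (r : R.alg) (x : B) :
    intBig R B (r ⊗ₜ[k] x) = incΩ k Ω F (r : Ω) * incF k Ω F (x : F) :=
  bigMap_tmul k Ω F _ _

theorem incΩ_mem_locRing {r : Ω} (hr : r ∈ R.1) : incΩ k Ω F r ∈ locRing R π B q := by
  have := intBig_mem_locRing R π B q ((⟨r, hr⟩ : R.alg) ⊗ₜ[k] (1 : B))
  rwa [intBig_tmul, OneMemClass.coe_one, map_one, mul_one] at this

theorem incF_mem_locRing (x : B) : incF k Ω F (x : F) ∈ locRing R π B q := by
  have := intBig_mem_locRing R π B q ((1 : R.alg) ⊗ₜ[k] x)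
  rwa [intBig_tmul, OneMemClass.coe_one, map_one, one_mul] at this

theorem evLoc_incΩ (r : R.alg) :
    evLoc R π B q ⟨_, incΩ_mem_locRing R π B q r.2⟩ = algebraMap κ L (π r) := by
  have h := evLoc_intBig R π B q (r ⊗ₜ[k] (1 : B))
  rw [redPt, Algebra.TensorProduct.lift_tmul, map_one, mul_one] at h
  refine Eq.trans ?_ h
  exact congrArg _ (Subtype.ext (Eq.symm ((intBig_tmul R B r 1).trans
    (by rw [OneMemClass.coe_one, map_one, mul_one]))))

theorem evLoc_incF (x : B) : evLoc R π B q ⟨_, incF_mem_locRing R π B q x⟩ = q x := by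
  have h := evLoc_intBig R π B q ((1 : R.alg) ⊗ₜ[k] x)
  rw [redPt, Algebra.TensorProduct.lift_tmul, map_one, one_mul] at h
  refine Eq.trans ?_ h
  exact congrArg _ (Subtype.ext (Eq.symm ((intBig_tmul R B 1 x).trans
    (by rw [OneMemClass.coe_one, map_one, one_mul]))))

/-- Content: a nonzero element is a constant times an element with nonzero reduction. -/
theorem exists_content {y : Ω ⊗[k] B} (hy : y ≠ 0) :
    ∃ (c : Ω) (a : R.alg ⊗[k] B), c ≠ 0 ∧ Algebra.TensorProduct.map π (AlgHom.id k B) a ≠ 0 ∧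
      y = c • Algebra.TensorProduct.map R.alg.val (AlgHom.id k B) a := by
  classical
  let b := Module.Free.chooseBasis k B
  let bΩ := b.baseChange Ω
  have hne : (bΩ.repr y).support.Nonempty :=
    Finsupp.support_nonempty_iff.mpr fun h => hy (bΩ.repr.map_eq_zero_iff.mp h)
  obtain ⟨l₀, hl₀, hmax⟩ :=
    Finset.exists_max_image (bΩ.repr y).support (fun l => R.1.valuation (bΩ.repr y l)) hne
  set c := bΩ.repr y l₀ with hc
  have hc0 : c ≠ 0 := Finsupp.mem_support_iff.mp hl₀
  have hmem : ∀ l, bΩ.repr y l / c ∈ R.alg := fun l => by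
    rw [Val.mem_alg, ← R.1.valuation_le_one_iff, map_div₀]
    refine (div_le_one₀ ((Valuation.pos_iff _).mpr hc0)).mpr ?_
    by_cases hl : l ∈ (bΩ.repr y).support
    · exact hmax l hl
    · rw [Finsupp.notMem_support_iff.mp hl, _root_.map_zero]
      exact zero_le
  refine ⟨c, ∑ l ∈ (bΩ.repr y).support, (⟨_, hmem l⟩ : R.alg) ⊗ₜ[k] b l, hc0, fun h => ?_, ?_⟩
  · have h' := congrArg (fun z => (b.baseChange κ).repr z l₀) h
    simp only [map_sum, Algebra.TensorProduct.map_tmul, AlgHom.coe_id, id_eq, Finsupp.coe_finsetSum,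
      Finset.sum_apply, Module.Basis.baseChange_repr_tmul, Module.Basis.repr_self, map_zero,
      Finsupp.coe_zero, Pi.zero_apply] at h'
    rw [Finset.sum_eq_single l₀ (fun l _ hl => by simp [hl]) (fun h0 => absurd hl₀ h0)] at h'
    rw [show (⟨_, hmem l₀⟩ : R.alg) = 1 from Subtype.ext (div_self hc0), map_one] at h'
    simp at h'
  · conv_lhs => rw [← bΩ.linearCombination_repr y, Finsupp.linearCombination_apply]
    rw [map_sum, Finset.smul_sum, Finsupp.sum]
    refine Finset.sum_congr rfl fun l _ => ?_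
    rw [Algebra.TensorProduct.map_tmul, AlgHom.id_apply, Subalgebra.coe_val,
      TensorProduct.smul_tmul', Module.Basis.baseChange_apply, TensorProduct.smul_tmul',
      smul_eq_mul, smul_eq_mul, mul_one, mul_div_cancel₀ _ hc0]

/-- Extending constants in the tensor product. -/
def bigSub : Ω ⊗[k] B →ₐ[k] Big k Ω F :=
  (bigMap k Ω F).comp (Algebra.TensorProduct.map (AlgHom.id k Ω) B.val)

theorem bigSub_injective : Function.Injective (bigSub (Ω := Ω) B) :=
  (bigMap_injective k Ω F).comp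
    (Module.Flat.lTensor_preserves_injective_linearMap B.val.toLinearMap Subtype.val_injective)

theorem bigSub_map (a : R.alg ⊗[k] B) :
    bigSub B (Algebra.TensorProduct.map R.alg.val (AlgHom.id k B) a) = intBig R B a := by
  refine DFunLike.congr_fun (?_ : (bigSub B).comp
    (Algebra.TensorProduct.map R.alg.val (AlgHom.id k B)) = intBig R B) a
  rw [bigSub, AlgHom.comp_assoc, ← Algebra.TensorProduct.map_comp, AlgHom.id_comp,
    AlgHom.comp_id]
  rfl

theorem bigSub_smul (c : Ω) (y : Ω ⊗[k] B) :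
    bigSub B (c • y) = incΩ k Ω F c * bigSub B y := by
  induction y using TensorProduct.induction_on with
  | zero => rw [smul_zero, _root_.map_zero, mul_zero]
  | tmul a x =>
    rw [TensorProduct.smul_tmul', bigSub, AlgHom.comp_apply, AlgHom.comp_apply,
      Algebra.TensorProduct.map_tmul, Algebra.TensorProduct.map_tmul, bigMap_tmul, bigMap_tmul,
      ← mul_assoc, AlgHom.id_apply, AlgHom.id_apply, smul_eq_mul, map_mul]
  | add a b ha hb => rw [smul_add, map_add, map_add, ha, hb, mul_add]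

/-- An element that is not integral lies outside some valuation ring. -/
theorem exists_valuationSubring_not_mem {E : Type u} [Field E] (Sh : Subring E) {x : E}
    (hni : ¬ IsIntegral Sh x) :
    ∃ V : ValuationSubring E, (Sh : Set E) ⊆ V ∧ x ∉ V := by
  by_contra hcon
  push Not at hcon
  refine hni ?_
  have h1 : x ∈ (⨅ V : {V : ValuationSubring E // (Sh : Set E) ⊆ V.toSubring}, V.1.toSubring) := by
    simp only [Subring.mem_iInf]
    exact fun A => hcon A.1 A.2
  rw [iInf_valuationSubring_superset] at h1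
  have h3 : IsIntegral (Subring.closure (Sh : Set E)) x := h1
  rwa [Subring.closure_eq] at h3

/-- An element integral over a ring of fractions of an integrally closed ring has a denominator. -/
theorem exists_mul_mem_range_of_isIntegral {A E : Type u} [CommRing A] [IsDomain A]
    [IsIntegrallyClosed A] [Field E] (j : A →+* E) (hj : Function.Injective j)
    (hfrac : ∀ e : E, ∃ a b, e = j a / j b) (D : Submonoid A) (Sh : Subring E)
    (hSh : ∀ y ∈ Sh, ∃ d ∈ D, y * j d ∈ j.range) {x : E} (hx : IsIntegral Sh x) :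
    ∃ d ∈ D, x * j d ∈ j.range := by
  classical
  letI : Algebra A E := j.toAlgebra
  haveI : FaithfulSMul A E := (faithfulSMul_iff_algebraMap_injective A E).mpr hj
  haveI : IsFractionRing A E := IsFractionRing.of_field _ _ fun e => by
    obtain ⟨a, b, h⟩ := hfrac e
    exact ⟨a, b, h⟩
  obtain ⟨p, hp, hpx⟩ := hx
  have hcl : ∀ s : Finset Sh, ∃ d ∈ D, ∀ y ∈ s, (y : E) * j d ∈ j.range := by
    intro s
    induction s using Finset.induction_on with
    | empty => exact ⟨1, D.one_mem, fun y hy => absurd hy (Finset.notMem_empty y)⟩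
    | insert y s _ ih =>
      obtain ⟨b, hb, h⟩ := ih
      obtain ⟨d, hd, h'⟩ := hSh y y.2
      refine ⟨b * d, D.mul_mem hb hd, fun z hz => ?_⟩
      rw [map_mul]
      rcases Finset.mem_insert.mp hz with rfl | hz
      · rw [mul_comm (j b), ← mul_assoc]
        exact mul_mem h' ⟨b, rfl⟩
      · rw [← mul_assoc]
        exact mul_mem (h z hz) ⟨d, rfl⟩
  obtain ⟨d, hd, hcoef⟩ := hcl p.coeffs
  refine ⟨d, hd, ?_⟩
  set p' := p.map Sh.subtype with hp''
  have hp' : p'.Monic := hp.map _
  have hscale : (p'.scaleRoots (j d)).eval (x * j d) = 0 := by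
    rw [mul_comm x, Polynomial.scaleRoots_eval_mul, hp'', Polynomial.eval_map]
    exact mul_eq_zero_of_right _ hpx
  have hl : p'.scaleRoots (j d) ∈ Polynomial.lifts (algebraMap A E) := by
    rw [Polynomial.lifts_iff_coeff_lifts]
    intro i
    rw [Polynomial.coeff_scaleRoots]
    rcases lt_or_ge i p'.natDegree with hi | hi
    · obtain ⟨e, he⟩ : ∃ e, p'.natDegree - i = e + 1 := ⟨p'.natDegree - i - 1, by omega⟩
      rw [he, pow_succ', ← mul_assoc, hp'', Polynomial.coeff_map]
      by_cases hc : p.coeff i = 0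
      · exact ⟨0, by rw [hc, _root_.map_zero, _root_.map_zero, zero_mul, zero_mul]⟩
      · obtain ⟨a, ha⟩ := hcoef _ (Polynomial.coeff_mem_coeffs hc)
        exact ⟨a * d ^ e, by rw [map_mul, map_pow]; exact congrArg (· * j d ^ e) ha⟩
    · rcases eq_or_lt_of_le hi with hi | hi
      · exact ⟨1, by rw [map_one, ← hi, Nat.sub_self, pow_zero, mul_one, hp'.coeff_natDegree]⟩
      · exact ⟨0, by rw [_root_.map_zero, Polynomial.coeff_eq_zero_of_natDegree_lt hi, zero_mul]⟩
  obtain ⟨r, hr, -, hrm⟩ :=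
    Polynomial.lifts_and_degree_eq_and_monic hl ((Polynomial.monic_scaleRoots_iff _).mpr hp')
  have hi : IsIntegral A (x * j d) := ⟨r, hrm, by rw [← Polynomial.eval_map, hr]; exact hscale⟩
  obtain ⟨y, hy⟩ := IsIntegrallyClosed.isIntegral_iff.mp hi
  exact ⟨y, hy⟩

end Loc

/-! ## The Gauss valuation -/

section Gauss

variable {k : Type u} [Field k] [IsAlgClosed k] {Ω F κ L : Type u} [Field Ω] [Algebra k Ω]
  [Field F] [Algebra k F] [Field κ] [Algebra k κ] (R : Val k Ω) (π : R.alg →ₐ[k] κ)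

/-- The small field as a point of the residue field of the Gauss valuation. -/
def gaussPt (k κ F : Type u) [Field k] [IsAlgClosed k] [Field κ] [Algebra k κ] [Field F]
    [Algebra k F] : (⊤ : Subalgebra k F) →ₐ[k] Big k κ F :=
  (incF k κ F).comp (⊤ : Subalgebra k F).val

theorem redPt_gauss (a : R.alg ⊗[k] (⊤ : Subalgebra k F)) :
    redPt R π (⊤ : Subalgebra k F) (gaussPt k κ F) a =
      bigSub (⊤ : Subalgebra k F) (Algebra.TensorProduct.map π (AlgHom.id k (⊤ : Subalgebra k F)) a) := by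
  refine DFunLike.congr_fun (?_ : redPt R π ⊤ (gaussPt k κ F) =
    (bigSub (⊤ : Subalgebra k F)).comp (Algebra.TensorProduct.map π (AlgHom.id k (⊤ : Subalgebra k F)))) a
  refine Algebra.TensorProduct.ext' fun r x => ?_
  rw [redPt, Algebra.TensorProduct.lift_tmul, AlgHom.comp_apply, AlgHom.comp_apply,
    Algebra.TensorProduct.map_tmul, bigSub, AlgHom.comp_apply, Algebra.TensorProduct.map_tmul,
    bigMap_tmul]
  rfl

theorem exists_top_preimage (y : Ω ⊗[k] F) :
    ∃ z : Ω ⊗[k] (⊤ : Subalgebra k F), bigSub (⊤ : Subalgebra k F) z = bigMap k Ω F y := by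
  induction y using TensorProduct.induction_on with
  | zero => exact ⟨0, by rw [_root_.map_zero, _root_.map_zero]⟩
  | tmul a x => exact ⟨a ⊗ₜ[k] (⟨x, trivial⟩ : (⊤ : Subalgebra k F)), rfl⟩
  | add a b ha hb =>
    obtain ⟨z, hz⟩ := ha
    obtain ⟨w, hw⟩ := hb
    exact ⟨z + w, by rw [map_add, map_add, hz, hw]⟩

theorem exists_gauss_decomp {y : Ω ⊗[k] F} (hy : y ≠ 0) :
    ∃ (c : Ω) (a : R.alg ⊗[k] (⊤ : Subalgebra k F)), c ≠ 0 ∧ redPt R π (⊤ : Subalgebra k F) (gaussPt k κ F) a ≠ 0 ∧
      bigMap k Ω F y = incΩ k Ω F c * intBig R (⊤ : Subalgebra k F) a := by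
  obtain ⟨z, hz⟩ := exists_top_preimage y
  have hz0 : z ≠ 0 := fun h => hy (bigMap_injective k Ω F
    (by rw [← hz, h, _root_.map_zero, _root_.map_zero]))
  obtain ⟨c, a, hc, ha, hza⟩ := exists_content R π ⊤ hz0
  refine ⟨c, a, hc, ?_, by rw [← hz, hza, bigSub_smul, bigSub_map]⟩
  rw [redPt_gauss]
  exact fun h => ha ((map_eq_zero_iff _ (bigSub_injective ⊤)).mp h)

/-- The Gauss valuation ring. -/
def gauss : Val k (Big k Ω F) :=
  ⟨{ toSubring := (locRing R π ⊤ (gaussPt k κ F)).toSubring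
     mem_or_inv_mem' := fun x => by
      by_cases hx : x = 0
      · exact Or.inl (hx ▸ zero_mem (locRing R π ⊤ (gaussPt k κ F)))
      obtain ⟨a, b, hb, rfl⟩ := exists_big_div k Ω F x
      have ha : a ≠ 0 := fun h => hx (by rw [h, _root_.map_zero, zero_div])
      obtain ⟨c, a', hc, ha', hA⟩ := exists_gauss_decomp R π ha
      obtain ⟨d, b', hd, hb', hB⟩ := exists_gauss_decomp R π hb
      have hb0 := intBig_ne_zero R π ⊤ (gaussPt k κ F) hb'
      have ha0 := intBig_ne_zero R π ⊤ (gaussPt k κ F) ha'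
      have hc' : incΩ k Ω F c ≠ 0 := (map_ne_zero _).mpr hc
      have hd' : incΩ k Ω F d ≠ 0 := (map_ne_zero _).mpr hd
      rw [hA, hB]
      rcases R.1.mem_or_inv_mem (c / d) with h | h
      · left
        refine ⟨(⟨c / d, h⟩ : R.alg) ⊗ₜ[k] (1 : (⊤ : Subalgebra k F)) * a', b', hb', ?_⟩
        rw [map_mul, intBig_tmul, OneMemClass.coe_one, map_one, mul_one, map_div₀]
        field_simp
      · right
        rw [inv_div] at h ⊢
        refine ⟨(⟨d / c, h⟩ : R.alg) ⊗ₜ[k] (1 : (⊤ : Subalgebra k F)) * b', a', ha', ?_⟩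
        rw [map_mul, intBig_tmul, OneMemClass.coe_one, map_one, mul_one, map_div₀]
        field_simp },
    fun c => (locRing R π ⊤ (gaussPt k κ F)).algebraMap_mem c⟩

theorem mem_gauss {x : Big k Ω F} :
    x ∈ (gauss (F := F) R π).1 ↔ x ∈ locRing R π ⊤ (gaussPt k κ F) := Iff.rfl

theorem incΩ_mem_gauss_iff (hloc : ∀ r : R.alg, (r : Ω)⁻¹ ∉ R.1 → π r = 0) {c : Ω} :
    incΩ k Ω F c ∈ (gauss (F := F) R π).1 ↔ c ∈ R.1 := by
  refine ⟨fun h => ?_, fun h => incΩ_mem_locRing R π ⊤ (gaussPt k κ F) h⟩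
  by_contra hc
  have hc0 : c ≠ 0 := fun h0 => hc (h0 ▸ zero_mem _)
  have hi : c⁻¹ ∈ R.1 := (R.1.mem_or_inv_mem c).resolve_left hc
  have h0 : π ⟨c⁻¹, hi⟩ = 0 := hloc _ (by rwa [inv_inv])
  let e := evLoc R π ⊤ (gaussPt k κ F)
  have hmul : (⟨_, incΩ_mem_locRing R π ⊤ (gaussPt k κ F) hi⟩ :
      locRing R π ⊤ (gaussPt k κ F)) * ⟨incΩ k Ω F c, h⟩ = 1 :=
    Subtype.ext (by
      show incΩ k Ω F c⁻¹ * incΩ k Ω F c = 1
      rw [← map_mul, inv_mul_cancel₀ hc0, map_one])
  have h1 := congrArg e hmul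
  rw [map_mul, map_one, show e ⟨_, incΩ_mem_locRing R π ⊤ (gaussPt k κ F) hi⟩ = 0 from
    (evLoc_incΩ R π ⊤ (gaussPt k κ F) ⟨_, hi⟩).trans (by rw [h0, _root_.map_zero]), zero_mul] at h1
  exact zero_ne_one h1

variable [Field L] [Algebra k L] [Algebra κ L] [IsScalarTower k κ L] (B : Subalgebra k F)
  (q : B →ₐ[k] L)

/-- Change of the small ring. -/
def topIncl : R.alg ⊗[k] B →ₐ[k] R.alg ⊗[k] (⊤ : Subalgebra k F) :=
  Algebra.TensorProduct.map (AlgHom.id k R.alg) (Subalgebra.inclusion le_top)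

theorem intBig_topIncl (a : R.alg ⊗[k] B) :
    intBig R (⊤ : Subalgebra k F) (topIncl R B a) = intBig R B a := by
  refine DFunLike.congr_fun (?_ : (intBig R (⊤ : Subalgebra k F)).comp (topIncl R B) =
    intBig R B) a
  exact Algebra.TensorProduct.ext' fun _ _ => rfl

theorem redPt_topIncl_ne_zero {a : R.alg ⊗[k] B} (h : redPt R π B q a ≠ 0) :
    redPt R π (⊤ : Subalgebra k F) (gaussPt k κ F) (topIncl R B a) ≠ 0 := by
  set m : R.alg ⊗[k] B →ₐ[k] κ ⊗[k] B := Algebra.TensorProduct.map π (AlgHom.id k B)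
  have h1 : (redPt R π (⊤ : Subalgebra k F) (gaussPt k κ F)).comp (topIncl R B) =
      (bigSub B).comp m := by
    refine Algebra.TensorProduct.ext' fun r x => ?_
    simp only [m, AlgHom.comp_apply, topIncl, Algebra.TensorProduct.map_tmul, redPt,
      Algebra.TensorProduct.lift_tmul, bigSub, bigMap_tmul]
    rfl
  have h2 : redPt R π B q = (Algebra.TensorProduct.lift (IsScalarTower.toAlgHom k κ L) q
      fun _ _ => Commute.all _ _).comp m := by
    refine Algebra.TensorProduct.ext' fun r x => ?_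
    simp only [m, redPt, AlgHom.comp_apply, Algebra.TensorProduct.map_tmul,
      Algebra.TensorProduct.lift_tmul]
    rfl
  rw [← AlgHom.comp_apply, h1, AlgHom.comp_apply]
  refine fun h0 => h ?_
  rw [h2, AlgHom.comp_apply, (map_eq_zero_iff _ (bigSub_injective B)).mp h0, _root_.map_zero]

theorem locRing_le_gauss : locRing R π B q ≤ (gauss (F := F) R π).alg := by
  rintro x ⟨a, b, hb, h⟩
  exact ⟨topIncl R B a, topIncl R B b, redPt_topIncl_ne_zero R π B q hb, by
    rw [intBig_topIncl, intBig_topIncl, h]⟩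

variable [IsIntegrallyClosed B] (hB : ∀ y : F, ∃ a ∈ B, ∃ b ∈ B, b ≠ 0 ∧ y = a / b)
include hB

theorem exists_sub_div (x : Big k Ω F) :
    ∃ a b : Ω ⊗[k] B, b ≠ 0 ∧ x = bigSub B a / bigSub B b := by
  have key : ∀ y : Ω ⊗[k] F, ∃ (a : Ω ⊗[k] B) (b : B), b ≠ 0 ∧
      bigMap k Ω F y = bigSub B a / incF k Ω F (b : F) := by
    intro y
    induction y using TensorProduct.induction_on with
    | zero => exact ⟨0, 1, one_ne_zero, by rw [_root_.map_zero, _root_.map_zero, zero_div]⟩
    | tmul c x =>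
      obtain ⟨a, ha, b, hb, hb0, rfl⟩ := hB x
      refine ⟨c ⊗ₜ[k] (⟨a, ha⟩ : B), ⟨b, hb⟩, fun h => hb0 (congrArg Subtype.val h), ?_⟩
      rw [bigSub, AlgHom.comp_apply, Algebra.TensorProduct.map_tmul, bigMap_tmul, bigMap_tmul,
        map_div₀, mul_div_assoc]
      rfl
    | add y z hy hz =>
      obtain ⟨a, b, hb, h⟩ := hy
      obtain ⟨c, d, hd, h'⟩ := hz
      refine ⟨a * (1 ⊗ₜ[k] d) + c * (1 ⊗ₜ[k] b), b * d, mul_ne_zero hb hd, ?_⟩
      have e : ∀ t : B, bigSub B ((1 : Ω) ⊗ₜ[k] t) = incF k Ω F (t : F) := fun t => by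
        rw [bigSub, AlgHom.comp_apply, Algebra.TensorProduct.map_tmul, bigMap_tmul]
        simp
      rw [map_add, h, h', map_add, map_mul, map_mul, e, e,
        div_add_div _ _ ((map_ne_zero _).mpr (fun h => hb (Subtype.ext h)))
          ((map_ne_zero _).mpr (fun h => hd (Subtype.ext h))), MulMemClass.coe_mul, map_mul,
        mul_comm (incF k Ω F (b : F)) (bigSub B c)]
  obtain ⟨y, z, hz, rfl⟩ := exists_big_div k Ω F x
  obtain ⟨a, b, hb, h⟩ := key y
  obtain ⟨c, d, hd, h'⟩ := key z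
  have e : ∀ t : B, bigSub B ((1 : Ω) ⊗ₜ[k] t) = incF k Ω F (t : F) := fun t => by
    rw [bigSub, AlgHom.comp_apply, Algebra.TensorProduct.map_tmul, bigMap_tmul]
    simp
  refine ⟨a * (1 ⊗ₜ[k] d), c * (1 ⊗ₜ[k] b), ?_, ?_⟩
  · intro h0
    have := congrArg (bigSub (Ω := Ω) B) h0
    rw [map_mul, e, _root_.map_zero, mul_eq_zero, or_iff_left
      ((map_ne_zero _).mpr (fun h => hb (Subtype.ext h)))] at this
    rw [this, zero_div] at h'
    exact hz (bigMap_injective k Ω F (by rw [h', _root_.map_zero]))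
  · rw [h, h', map_mul, map_mul, e, e, div_div_div_eq, mul_comm (incF k Ω F (b : F)) (bigSub B c)]

set_option maxHeartbeats 1000000 in
/-- An element regular at the Gauss valuation and at the horizontal valuations is regular. -/
theorem mem_locRing_of (hloc : ∀ r : R.alg, (r : Ω)⁻¹ ∉ R.1 → π r = 0) {x : Big k Ω F}
    (hg : x ∈ (gauss (F := F) R π).1)
    (hV : ∀ V : Val k (Big k Ω F), locRing R π B q ≤ V.alg → (∀ c, incΩ k Ω F c ∈ V.1) →
      x ∈ V.1) : x ∈ locRing R π B q := by
  classical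
  haveI : IsDomain (Ω ⊗[k] B) := isDomain_tensor k B Ω
  haveI : IsIntegrallyClosed (Ω ⊗[k] B) := isIntegrallyClosed_tensor k B Ω
  -- the horizontal local ring
  let Sh : Subring (Big k Ω F) :=
    Subring.closure ((Set.range (bigSub (Ω := Ω) B)) ∪ (locRing R π B q : Set (Big k Ω F)))
  have hden : ∀ y ∈ Sh, ∃ b : R.alg ⊗[k] B, redPt R π B q b ≠ 0 ∧
      y * intBig R B b ∈ (bigSub (Ω := Ω) B).range := by
    intro y hy
    induction hy using Subring.closure_induction with
    | mem y hy =>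
      rcases hy with ⟨a, rfl⟩ | ⟨a, b, hb, h⟩
      · exact ⟨1, by rw [map_one]; exact one_ne_zero, a, by rw [map_one, mul_one]; rfl⟩
      · exact ⟨b, hb, _, (bigSub_map R B a).trans h.symm⟩
    | zero => exact ⟨1, by rw [map_one]; exact one_ne_zero, by rw [zero_mul]; exact zero_mem _⟩
    | one => exact ⟨1, by rw [map_one]; exact one_ne_zero, by rw [map_one, one_mul]; exact one_mem _⟩
    | add y z _ _ hy hz =>
      obtain ⟨b, hb, h⟩ := hy
      obtain ⟨d, hd, h'⟩ := hz
      refine ⟨b * d, by rw [map_mul]; exact mul_ne_zero hb hd, ?_⟩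
      rw [map_mul, show (y + z) * (intBig R B b * intBig R B d) =
        y * intBig R B b * intBig R B d + z * intBig R B d * intBig R B b by ring]
      exact add_mem (mul_mem h ⟨_, bigSub_map R B d⟩) (mul_mem h' ⟨_, bigSub_map R B b⟩)
    | neg y _ hy =>
      obtain ⟨b, hb, h⟩ := hy
      exact ⟨b, hb, by rw [neg_mul]; exact neg_mem h⟩
    | mul y z _ _ hy hz =>
      obtain ⟨b, hb, h⟩ := hy
      obtain ⟨d, hd, h'⟩ := hz
      refine ⟨b * d, by rw [map_mul]; exact mul_ne_zero hb hd, ?_⟩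
      rw [map_mul, show y * z * (intBig R B b * intBig R B d) =
        y * intBig R B b * (z * intBig R B d) by ring]
      exact mul_mem h h'
  have hint : IsIntegral Sh x := by
    by_contra hni
    obtain ⟨V, hle, hxV⟩ := exists_valuationSubring_not_mem Sh hni
    have hmem : ∀ y, y ∈ locRing R π B q → y ∈ V := fun y hy =>
      hle (Subring.subset_closure (Or.inr hy))
    refine hxV (hV ⟨V, fun c => hmem _ ((locRing R π B q).algebraMap_mem c)⟩ hmem fun c => ?_)
    refine hle (Subring.subset_closure (Or.inl ⟨c ⊗ₜ[k] (1 : B), ?_⟩))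
    rw [bigSub, AlgHom.comp_apply, Algebra.TensorProduct.map_tmul, bigMap_tmul]
    simp
  -- clearing denominators
  let D : Submonoid (R.alg ⊗[k] B) :=
    { carrier := {b | redPt R π B q b ≠ 0}
      mul_mem' := fun {a b} ha hb => by
        show redPt R π B q (a * b) ≠ 0
        rw [map_mul]
        exact mul_ne_zero ha hb
      one_mem' := by
        show redPt R π B q 1 ≠ 0
        rw [map_one]
        exact one_ne_zero }
  obtain ⟨d, ⟨b, hb, rfl⟩, hxb⟩ := exists_mul_mem_range_of_isIntegral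
    (bigSub (Ω := Ω) B).toRingHom (bigSub_injective B)
    (fun e => by
      obtain ⟨a, b, -, h⟩ := exists_sub_div B hB e
      exact ⟨a, b, h⟩)
    (D.map (Algebra.TensorProduct.map R.alg.val (AlgHom.id k B))) Sh
    (fun y hy => by
      obtain ⟨b, hb, a, ha⟩ := hden y hy
      exact ⟨_, ⟨b, hb, rfl⟩, a, ha.trans (by rw [AlgHom.toRingHom_eq_coe, RingHom.coe_coe,
        bigSub_map])⟩) hint
  rw [AlgHom.toRingHom_eq_coe, RingHom.coe_coe, bigSub_map] at hxb
  obtain ⟨y, hy⟩ := hxb
  rcases eq_or_ne y 0 with rfl | hy0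
  · exact ⟨0, b, hb, by rw [_root_.map_zero, ← hy]; exact _root_.map_zero (bigSub (Ω := Ω) B)⟩
  obtain ⟨c, a, hc, ha, rfl⟩ := exists_content R π B hy0
  change bigSub B _ = _ at hy
  rw [bigSub_smul, bigSub_map] at hy
  have hcR : c ∈ R.1 := by
    refine (incΩ_mem_gauss_iff (F := F) R π hloc).mp ?_
    have ha0 : intBig R B a ≠ 0 := fun h => ha (by
      rw [(map_eq_zero_iff _ (intBig_injective R B)).mp h, _root_.map_zero])
    have hau : (intBig R B a)⁻¹ ∈ (gauss (F := F) R π).1 := by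
      rw [← intBig_topIncl]
      refine mem_gauss R π |>.mpr (inv_mem_locRing R π ⊤ (gaussPt k κ F)
        (x := ⟨_, intBig_mem_locRing R π ⊤ (gaussPt k κ F) (topIncl R B a)⟩) ?_)
      rw [evLoc_intBig, show redPt R π (⊤ : Subalgebra k F) (gaussPt k κ F) (topIncl R B a) =
        bigSub B (Algebra.TensorProduct.map π (AlgHom.id k B) a) from
          DFunLike.congr_fun (Algebra.TensorProduct.ext' fun r x => by
            simp only [AlgHom.comp_apply, topIncl, Algebra.TensorProduct.map_tmul, redPt,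
              Algebra.TensorProduct.lift_tmul, bigSub, bigMap_tmul]
            rfl : (redPt R π (⊤ : Subalgebra k F) (gaussPt k κ F)).comp (topIncl R B) =
              (bigSub B).comp (Algebra.TensorProduct.map π (AlgHom.id k B))) a]
      exact fun h => ha ((map_eq_zero_iff _ (bigSub_injective B)).mp h)
    have hxb' : x * intBig R B b ∈ (gauss (F := F) R π).1 :=
      mul_mem hg (locRing_le_gauss R π B q (intBig_mem_locRing R π B q b))
    rw [← hy] at hxb'
    have := mul_mem hxb' hau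
    rwa [mul_assoc, mul_inv_cancel₀ ha0, mul_one] at this
  refine ⟨(⟨c, hcR⟩ : R.alg) ⊗ₜ[k] (1 : B) * a, b, hb, ?_⟩
  rw [map_mul, intBig_tmul, OneMemClass.coe_one, map_one, mul_one]
  exact hy.symm

omit [IsIntegrallyClosed B] hB in
/-- A valuation ring dominates the local ring. -/
def Dominates (V : Val k (Big k Ω F)) : Prop :=
  locRing R π B q ≤ V.alg ∧
    ∀ s : locRing R π B q, evLoc R π B q s = 0 →
      (s : Big k Ω F) = 0 ∨ (s : Big k Ω F)⁻¹ ∉ V.1

theorem isIntegrallyClosed_locRing (hloc : ∀ r : R.alg, (r : Ω)⁻¹ ∉ R.1 → π r = 0)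
    {x : Big k Ω F} (hx : IsIntegral (locRing R π B q) x) : x ∈ locRing R π B q := by
  obtain ⟨p, hp, hpx⟩ := hx
  have hV : ∀ V : ValuationSubring (Big k Ω F), (∀ y ∈ locRing R π B q, y ∈ V) → x ∈ V := by
    intro V hle
    let ι : locRing R π B q →+* V := (locRing R π B q).toSubring.subtype.codRestrict V.toSubring
      fun y => hle y y.2
    have hi : IsIntegral V x := ⟨p.map ι, hp.map _, by
      rw [Polynomial.eval₂_map]
      exact hpx⟩
    obtain ⟨y, hy⟩ := IsIntegrallyClosed.isIntegral_iff.mp hi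
    exact hy ▸ y.2
  exact mem_locRing_of R π B q hB hloc (hV _ (locRing_le_gauss R π B q))
    fun V hle _ => hV V.1 hle

/-- An element outside the local ring lies outside some dominating valuation ring. -/
theorem exists_dominates_notMem (hloc : ∀ r : R.alg, (r : Ω)⁻¹ ∉ R.1 → π r = 0)
    {x : Big k Ω F} (hx : x ∉ locRing R π B q) :
    ∃ V : Val k (Big k Ω F), Dominates R π B q V ∧ x ∉ V.1 := by
  classical
  set S := (locRing R π B q).toSubring with hS
  have hx0 : x ≠ 0 := fun h => hx (h ▸ zero_mem _)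
  let A : Subring (Big k Ω F) := Subring.closure ((S : Set (Big k Ω F)) ∪ {x⁻¹})
  have hle : ∀ y, y ∈ locRing R π B q → y ∈ A := fun y hy => Subring.subset_closure (Or.inl hy)
  have hxi : x⁻¹ ∈ A := Subring.subset_closure (Or.inr rfl)
  let I : Ideal A := Ideal.span ({⟨x⁻¹, hxi⟩} ∪
    {y | ∃ h : (y : Big k Ω F) ∈ locRing R π B q, evLoc R π B q ⟨y, h⟩ = 0})
  have hpoly : ∀ y ∈ A, ∃ p : Polynomial (locRing R π B q),
      Polynomial.eval₂ (algebraMap (locRing R π B q) (Big k Ω F)) x⁻¹ p = y := by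
    intro y hy
    induction hy using Subring.closure_induction with
    | mem y hy =>
      rcases hy with hy | hy
      · exact ⟨Polynomial.C ⟨y, hy⟩, Polynomial.eval₂_C _ _⟩
      · exact ⟨Polynomial.X, (Polynomial.eval₂_X _ _).trans (Set.mem_singleton_iff.mp hy).symm⟩
    | zero => exact ⟨0, Polynomial.eval₂_zero _ _⟩
    | one => exact ⟨1, Polynomial.eval₂_one _ _⟩
    | add a b _ _ ha hb =>
      obtain ⟨p, rfl⟩ := ha
      obtain ⟨q, rfl⟩ := hb
      exact ⟨p + q, Polynomial.eval₂_add _ _⟩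
    | neg a _ ha =>
      obtain ⟨p, rfl⟩ := ha
      exact ⟨-p, Polynomial.eval₂_neg _⟩
    | mul a b _ _ ha hb =>
      obtain ⟨p, rfl⟩ := ha
      obtain ⟨q, rfl⟩ := hb
      exact ⟨p * q, Polynomial.eval₂_mul _ _⟩
  have hI : ∀ y ∈ I, ∃ p : Polynomial (locRing R π B q), evLoc R π B q (p.coeff 0) = 0 ∧
      Polynomial.eval₂ (algebraMap (locRing R π B q) (Big k Ω F)) x⁻¹ p = (y : Big k Ω F) := by
    intro y hy
    induction hy using Submodule.span_induction with
    | mem y hy =>
      rcases hy with hy | ⟨h, h0⟩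
      · exact ⟨Polynomial.X, by rw [Polynomial.coeff_X_zero, _root_.map_zero],
          (Polynomial.eval₂_X _ _).trans (congrArg Subtype.val (Set.mem_singleton_iff.mp hy)).symm⟩
      · exact ⟨Polynomial.C ⟨y, h⟩, by rw [Polynomial.coeff_C_zero, h0], Polynomial.eval₂_C _ _⟩
    | zero => exact ⟨0, by rw [Polynomial.coeff_zero, _root_.map_zero], Polynomial.eval₂_zero _ _⟩
    | add a b _ _ ha hb =>
      obtain ⟨p, hp, hp'⟩ := ha
      obtain ⟨q', hq, hq'⟩ := hb
      exact ⟨p + q', by rw [Polynomial.coeff_add, map_add, hp, hq, add_zero],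
        by rw [Polynomial.eval₂_add, hp', hq']; rfl⟩
    | smul a b _ hb =>
      obtain ⟨p, hp, hp'⟩ := hb
      obtain ⟨q', hq'⟩ := hpoly a a.2
      exact ⟨q' * p, by rw [Polynomial.mul_coeff_zero, map_mul, hp, mul_zero],
        by rw [Polynomial.eval₂_mul, hp', hq']; rfl⟩
  have hI1 : I ≠ ⊤ := by
    intro h
    obtain ⟨p, hp0, hp⟩ := hI 1 (h ▸ Submodule.mem_top)
    refine hx (isIntegrallyClosed_locRing R π B q hB hloc ?_)
    set r := 1 - p with hr
    have hr0 : evLoc R π B q (r.coeff 0) = 1 := by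
      rw [hr, Polynomial.coeff_sub, map_sub, hp0, Polynomial.coeff_one_zero, map_one, sub_zero]
    have hrx : Polynomial.eval₂ (algebraMap (locRing R π B q) (Big k Ω F)) x⁻¹ r = 0 := by
      rw [hr, Polynomial.eval₂_sub, hp, Polynomial.eval₂_one]
      exact sub_self _
    have hr0' : IsUnit (r.coeff 0) := by
      refine IsUnit.of_mul_eq_one ⟨_, inv_mem_locRing R π B q (x := r.coeff 0)
        (by rw [hr0]; exact one_ne_zero)⟩ (Subtype.ext (mul_inv_cancel₀ fun h => ?_))
      rw [show r.coeff 0 = 0 from Subtype.ext h, _root_.map_zero] at hr0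
      exact zero_ne_one hr0
    -- the reversed polynomial
    obtain ⟨u, hu⟩ := hr0'
    let P := Polynomial.C ((u⁻¹ : (locRing R π B q)ˣ) : locRing R π B q) * r.reverse
    have hrt : r.natTrailingDegree = 0 :=
      Nat.eq_zero_of_le_zero (Polynomial.natTrailingDegree_le_of_ne_zero (hu ▸ u.ne_zero))
    refine ⟨P, ?_, ?_⟩
    · show (Polynomial.C ((u⁻¹ : (locRing R π B q)ˣ) : locRing R π B q) *
        r.reverse).leadingCoeff = 1
      rw [Polynomial.leadingCoeff_mul, Polynomial.leadingCoeff_C, Polynomial.reverse_leadingCoeff,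
        Polynomial.trailingCoeff, hrt, ← hu, Units.inv_mul]
    · show Polynomial.eval₂ _ x (Polynomial.C _ * r.reverse) = 0
      rw [Polynomial.eval₂_mul]
      refine mul_eq_zero_of_right _ ?_
      haveI : Invertible x⁻¹ := invertibleOfNonzero (inv_ne_zero hx0)
      have h2 := (Polynomial.eval₂_reverse_eq_zero_iff
        (algebraMap (locRing R π B q) (Big k Ω F)) x⁻¹ r).mpr hrx
      rwa [invOf_eq_inv, inv_inv] at h2
  obtain ⟨V, hAV, hIV⟩ := Ideal.image_subset_nonunits_valuationSubring I hI1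
  refine ⟨⟨V, fun c => hAV (hle _ ((locRing R π B q).algebraMap_mem c))⟩,
    ⟨fun y hy => hAV (hle y hy), fun s hs => ?_⟩, fun hxV => ?_⟩
  · exact (ValuationSubring.mem_nonunits_iff_or V).mp
      (hIV ⟨⟨s, hle _ s.2⟩, Ideal.subset_span (Or.inr ⟨s.2, hs⟩), rfl⟩)
  · rcases (ValuationSubring.mem_nonunits_iff_or V).mp
      (hIV ⟨⟨x⁻¹, hxi⟩, Ideal.subset_span (Or.inl rfl), rfl⟩) with h | h
    · exact hx0 (inv_eq_zero.mp h)
    · exact h (show x⁻¹⁻¹ ∈ V by rwa [inv_inv])

end Gauss

end Fermat.Agent.AbVar
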