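import Fermat.Agent.AbVar.Cube.Line.Base

/-!
# A curve joining a constant point to a generic point
-/

set_option autoImplicit false
set_option linter.style.haveILetI false
set_option linter.unusedSectionVars false

noncomputable section

namespace Fermat.Agent.AbVar

universe u

open Fermat.Agent.MCurve (IsFinOver)

open scoped Classical IntermediateField

variable {K : Type u} [Field K] [IsAlgClosed K] (M : Model K)

/-- A point where the coordinate takes a prescribed value. -/
theorem exists_ratPoint_at {k F : Type u} [Field k] [IsAlgClosed k] [Field F] [Algebra k F] {x : F}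
    (hx : IsFinOver k x) (c : k) :
    ∃ (v : RatPoint k F x), (∀ h : x ∈ v.ring, v.val ⟨x, h⟩ = c) ∧
      ∀ y : F, IsIntegral v.ring y → y ∈ v.ring := by
  have hinj : Function.Injective (Polynomial.aeval (R := k) x) :=
    transcendental_iff_injective.mp hx.transcendental
  let e : Polynomial k ≃ₐ[k] (Polynomial.aeval (R := k) x).range := AlgEquiv.ofInjective _ hinj
  obtain ⟨V, hle, hV⟩ := exists_val_of_hom (Polynomial.aeval (R := k) x).range
    ((Polynomial.aeval c).comp e.symm.toAlgHom)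
  have hxA : x ∈ (Polynomial.aeval (R := k) x).range := ⟨Polynomial.X, Polynomial.aeval_X x⟩
  have hxV : x ∈ V.alg := hle hxA
  have hresx : V.res ⟨x, hxV⟩ = algebraMap k V.Res c := by
    rw [hV ⟨x, hxA⟩]
    congr 1
    show Polynomial.aeval c (e.symm ⟨x, hxA⟩) = c
    rw [show (⟨x, hxA⟩ : (Polynomial.aeval (R := k) x).range) = e Polynomial.X from
      Subtype.ext (Polynomial.aeval_X x).symm, e.symm_apply_apply, Polynomial.aeval_X]
  have hne : V.1 ≠ ⊤ := fun h => by
    have hm : (⟨x, hxV⟩ - algebraMap k V.alg c : V.alg) ≠ 0 := fun h0 => by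
      refine hx.transcendental ?_
      rw [show x = algebraMap k F c from congrArg Subtype.val (sub_eq_zero.mp h0)]
      exact isAlgebraic_algebraMap c
    have h1 : V.res (⟨x, hxV⟩ - algebraMap k V.alg c) = 0 := by
      rw [map_sub, AlgHom.commutes, hresx, sub_self]
    rw [Val.res_eq_zero_iff] at h1
    rcases h1 with h1 | h1
    · exact hm (Subtype.ext h1)
    · exact h1 (h ▸ ValuationSubring.mem_top _)
  haveI : FiniteDimensional k⟮x⟯ F := hx.finite
  haveI : Algebra.IsAlgebraic k⟮x⟯ F := Algebra.IsAlgebraic.of_finite _ _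
  choose val hval using exists_res_eq_const x V hne
  have hi : Function.Injective (algebraMap k V.Res) := (algebraMap k V.Res).injective
  let vhom : V.alg →ₐ[k] k :=
    { toFun := val
      map_one' := hi (by rw [← hval, map_one, map_one])
      map_mul' := fun a b => hi (by rw [← hval, map_mul, map_mul, hval, hval])
      map_zero' := hi (by rw [← hval, _root_.map_zero, _root_.map_zero])
      map_add' := fun a b => hi (by rw [← hval, map_add, map_add, hval, hval])
      commutes' := fun r => hi (by rw [← hval, AlgHom.commutes]; rfl) }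
  refine ⟨⟨V.alg, V.1.mem_or_inv_mem, vhom, hxV⟩, fun h => hi ((hval _).symm.trans hresx),
    fun y hy => ?_⟩
  haveI : IsIntegrallyClosed V.1 := inferInstance
  have hy' : IsIntegral V.1 y := by
    obtain ⟨p, hp, hp0⟩ := hy
    let f : V.alg →+* V.1 :=
      { toFun := fun a => ⟨a.1, a.2⟩
        map_one' := rfl
        map_mul' := fun _ _ => rfl
        map_zero' := rfl
        map_add' := fun _ _ => rfl }
    exact ⟨p.map f, hp.map f, by rw [Polynomial.eval₂_map]; exact hp0⟩
  obtain ⟨w, hw⟩ := IsIntegrallyClosed.isIntegral_iff.mp hy'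
  exact hw ▸ w.2

theorem mem_ratPoint_of_coord {k F : Type u} [Field k] [Field F] [Algebra k F] [Algebra K k]
    [Algebra K F] [IsScalarTower K k F] {x : F} {v : RatPoint k F x}
    (hint : ∀ y : F, IsIntegral v.ring y → y ∈ v.ring) (φ : M.O 0 →ₐ[K] F)
    (hz : ∀ l, φ (M.z l) ∈ v.ring) (a : M.O 0) : φ a ∈ v.ring := by
  letI := M.algCoord
  haveI := M.isIntegral_coord
  have hcoord : ∀ r : M.coordAlg, φ (algebraMap M.coordAlg (M.O 0) r) ∈ v.ring.restrictScalars K := by
    rintro ⟨r, hr⟩
    have hle : M.coordAlg ≤ ((v.ring.restrictScalars K).comap φ).map (M.O 0).val :=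
      Algebra.adjoin_le (Set.range_subset_iff.mpr fun l => ⟨M.z l, hz l, rfl⟩)
    obtain ⟨b, hb, hbr⟩ := hle hr
    rw [show algebraMap M.coordAlg (M.O 0) ⟨r, hr⟩ = b from Subtype.ext hbr.symm]
    exact hb
  let ρ : M.coordAlg →+* v.ring :=
    ((φ : M.O 0 →+* F).comp (algebraMap M.coordAlg (M.O 0))).codRestrict v.ring.toSubring hcoord
  refine hint _ (IsIntegral.map_of_comp_eq ρ (φ : M.O 0 →+* F) ?_
    (Algebra.IsIntegral.isIntegral (R := M.coordAlg) a))
  rfl

/-- The curve and its coordinate. -/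
theorem exists_line_curve {k : Type u} [Field k] [IsAlgClosed k] [Algebra K k] (w : Fin M.g → k) :
    ∃ (F : Type u) (_ : Field F) (_ : Algebra k F) (_ : Algebra K F) (_ : IsScalarTower K k F)
      (x : F) (_ : IsFinOver k x) (φ : M.O 0 →ₐ[K] F), ∀ l, φ (M.z l) = x * algebraMap k F (w l) := by
  let L := AlgebraicClosure (RatFunc k)
  haveI : IsScalarTower K k (RatFunc k) := inferInstance
  haveI : IsScalarTower K k L :=
    IsScalarTower.of_algebraMap_eq fun c => by
      rw [IsScalarTower.algebraMap_apply K (RatFunc k) L, IsScalarTower.algebraMap_apply k (RatFunc k) L,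
        IsScalarTower.algebraMap_apply K k (RatFunc k)]
  let t : L := algebraMap (RatFunc k) L RatFunc.X
  obtain ⟨φ, hφ⟩ := M.exists_hom_coord fun l => t * algebraMap k L (w l)
  obtain ⟨S, hS⟩ := M.fg 0
  have hSmem : ∀ s ∈ S, s ∈ M.O 0 := fun s hs => hS ▸ Algebra.subset_adjoin hs
  let gens : Set L := Set.range fun s : S => φ ⟨s.1, hSmem s.1 s.2⟩
  let Fi : IntermediateField (RatFunc k) L := IntermediateField.adjoin (RatFunc k) gens
  haveI : FiniteDimensional (RatFunc k) Fi :=
    IntermediateField.finiteDimensional_adjoin fun _ _ =>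
      (Algebra.IsAlgebraic.isAlgebraic _).isIntegral
  haveI : IsScalarTower K k Fi := IsScalarTower.of_algebraMap_eq fun c =>
    Subtype.ext (IsScalarTower.algebraMap_apply K k L c)
  let x : Fi := algebraMap (RatFunc k) Fi RatFunc.X
  have hx : Transcendental k x :=
    (transcendental_algebraMap_iff (algebraMap (RatFunc k) Fi).injective).mpr RatFunc.transcendental_X
  have hfin : FiniteDimensional k⟮x⟯ Fi := by
    have hmem : ∀ r : RatFunc k, algebraMap (RatFunc k) Fi r ∈ k⟮x⟯ := fun r => by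
      obtain ⟨p, q, -, rfl⟩ := IsFractionRing.div_surjective (A := Polynomial k) r
      rw [map_div₀, IntermediateField.mem_adjoin_simple_iff]
      refine ⟨p, q, ?_⟩
      have e : ∀ p : Polynomial k,
          algebraMap (RatFunc k) Fi (algebraMap (Polynomial k) (RatFunc k) p) = Polynomial.aeval x p :=
        fun p => by
          show _ = Polynomial.aeval (algebraMap (RatFunc k) Fi RatFunc.X) p
          rw [Polynomial.aeval_algebraMap_apply, ← RatFunc.algebraMap_X,
            Polynomial.aeval_algebraMap_apply, Polynomial.aeval_X_left_apply]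
      rw [e p, e q]
    letI : Algebra (RatFunc k) k⟮x⟯ :=
      ((algebraMap (RatFunc k) Fi).codRestrict k⟮x⟯.toSubfield hmem).toAlgebra
    haveI : IsScalarTower (RatFunc k) k⟮x⟯ Fi := IsScalarTower.of_algebraMap_eq fun _ => rfl
    exact Module.Finite.of_restrictScalars_finite (RatFunc k) k⟮x⟯ Fi
  have hrange : ∀ a, φ a ∈ Fi := fun a => by
    let T : Subalgebra K L :=
      { Fi.toSubfield.toSubring with
        algebraMap_mem' := fun c => (algebraMap K Fi c).2 }
    have h1 : M.O 0 ≤ (T.comap φ).map (M.O 0).val :=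
      le_of_eq_of_le hS.symm (Algebra.adjoin_le fun s hs =>
        ⟨⟨s, hSmem s hs⟩, IntermediateField.subset_adjoin _ _ ⟨⟨s, hs⟩, rfl⟩, rfl⟩)
    obtain ⟨b, hb, hab⟩ := h1 a.2
    rw [← (Subtype.ext hab : b = a)]
    exact hb
  refine ⟨Fi, inferInstance, inferInstance, inferInstance, inferInstance, x, ⟨hx, hfin⟩,
    { toRingHom := (φ : M.O 0 →+* L).codRestrict Fi.toSubfield hrange
      commutes' := fun c => Subtype.ext (φ.commutes c) }, fun l => Subtype.ext ?_⟩
  exact hφ l

theorem Model.exists_generic_translate (w : M.Pt K) :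
    ∃ τ : M.FA →ₐ[K] M.FA, M.gen - M.map (Algebra.ofId K M.FA) w = M.map τ M.gen ∧
      Function.Surjective τ := by
  obtain ⟨i, ψ, -, hψ⟩ := M.exists_chart (⊤ : ValuationSubring M.FA)
    (fun _ => ValuationSubring.mem_top _) (M.gen - M.map (Algebra.ofId K M.FA) w)
  let E := IntermediateField.adjoin K (Set.range ψ)
  let ψE : M.O i →ₐ[K] E := ψ.codRestrict E.toSubalgebra
    fun a => IntermediateField.subset_adjoin _ _ ⟨a, rfl⟩
  have hQ : M.map E.val (M.pt i ψE + M.map (Algebra.ofId K E) w) = M.gen := by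
    rw [map_add, M.map_pt, M.map_map, show E.val.comp (Algebra.ofId K E) = Algebra.ofId K M.FA from
      Subsingleton.elim _ _, show E.val.comp ψE = ψ from AlgHom.ext fun _ => rfl, hψ, sub_add_cancel]
  obtain ⟨j, φQ, -, hφQ⟩ := M.exists_chart (⊤ : ValuationSubring E)
    (fun _ => ValuationSubring.mem_top _) (M.pt i ψE + M.map (Algebra.ofId K E) w)
  rw [← hφQ] at hQ
  have htop : E = ⊤ := M.eq_top_of_pt φQ hQ
  obtain ⟨τ, hτ⟩ := M.exists_lift ψ (M.injective_of_generates ψ htop)
  refine ⟨τ, ?_, fun y => ?_⟩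
  · rw [← hψ, ← M.pt_val i, M.map_pt]
    congr 1
    exact AlgHom.ext fun a => (hτ a).symm
  · have hy : y ∈ E := htop ▸ IntermediateField.mem_top
    have hle : E ≤ τ.fieldRange :=
      IntermediateField.adjoin_le_iff.mpr (Set.range_subset_iff.mpr fun a => ⟨a, hτ a⟩)
    exact hle hy

theorem isAlgebraic_over_coord {k : Type u} [Field k] [Algebra K k] [Algebra M.FA k]
    [IsScalarTower K M.FA k] [Algebra.IsAlgebraic M.FA k] (L : IntermediateField K k)
    (hL : ∀ l, algebraMap M.FA k (M.z l) ∈ L) (y : k) : IsAlgebraic L y := by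
  let Z := IntermediateField.adjoin K (Set.range fun l => (M.z l : M.FA))
  haveI : Algebra.IsAlgebraic Z M.FA :=
    IntermediateField.isAlgebraic_adjoin_iff_top.mpr
      (M.isTranscendenceBasis_z.isAlgebraic)
  have hZ : ∀ r : Z, algebraMap M.FA k r ∈ L := fun r => by
    have hle : Z ≤ L.comap (IsScalarTower.toAlgHom K M.FA k) :=
      IntermediateField.adjoin_le_iff.mpr (Set.range_subset_iff.mpr hL)
    exact hle r.2
  letI : Algebra Z L :=
    (((algebraMap M.FA k).comp (algebraMap Z M.FA)).codRestrict L.toSubfield hZ).toAlgebra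
  haveI : IsScalarTower Z L k := IsScalarTower.of_algebraMap_eq fun r => rfl
  haveI : Algebra.IsAlgebraic Z k := Algebra.IsAlgebraic.trans Z M.FA k
  exact (Algebra.IsAlgebraic.isAlgebraic (R := Z) y).tower_top (L := L)

/-- Two values of a point of a curve whose difference is a generic point. -/
theorem Model.exists_line :
    ∃ (k : Type u) (_ : Field k) (_ : IsAlgClosed k) (_ : Algebra K k) (F : Type u) (_ : Field F)
      (_ : Algebra k F) (_ : Algebra K F) (_ : IsScalarTower K k F) (x : F) (_ : IsFinOver k x)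
      (P : M.Pt F) (v₀ v₁ : RatPoint k F x) (P₀ P₁ : M.Pt k),
      M.HasValue v₀ P P₀ ∧ M.HasValue v₁ P P₁ ∧
        ∃ σ : M.FA →ₐ[K] k, P₁ - P₀ = M.map σ M.gen ∧ ∀ y : k, IsAlgebraic σ.fieldRange y := by
  let k := AlgebraicClosure M.FA
  let ι : M.FA →ₐ[K] k := IsScalarTower.toAlgHom K M.FA k
  obtain ⟨F, _, _, _, _, x, hx, φ, hφ⟩ := exists_line_curve M fun l => ι (M.z l)
  obtain ⟨v₀, hv₀, hint₀⟩ := exists_ratPoint_at hx (0 : k)
  obtain ⟨v₁, hv₁, hint₁⟩ := exists_ratPoint_at hx (1 : k)
  have hmem : ∀ (v : RatPoint k F x), (∀ y : F, IsIntegral v.ring y → y ∈ v.ring) →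
      ∀ a, φ a ∈ v.ring := fun v hv => mem_ratPoint_of_coord M hv φ fun l => by
    rw [hφ]; exact mul_mem v.x_mem (v.ring.algebraMap_mem _)
  let φv : ∀ v : RatPoint k F x, (∀ a, φ a ∈ v.ring) → (M.O 0 →ₐ[K] v.ring.restrictScalars K) :=
    fun v hv => φ.codRestrict (v.ring.restrictScalars K) hv
  have hval : ∀ (v : RatPoint k F x) (c : k), (∀ h : x ∈ v.ring, v.val ⟨x, h⟩ = c) →
      ∀ (hv : ∀ a, φ a ∈ v.ring) l,
        (v.val.restrictScalars K).comp (φv v hv) (M.z l) = c * ι (M.z l) := fun v c hc hv l => by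
    show v.val ⟨φ (M.z l), hv _⟩ = _
    rw [show (⟨φ (M.z l), hv (M.z l)⟩ : v.ring) =
      ⟨x, v.x_mem⟩ * algebraMap k v.ring (ι (M.z l)) from Subtype.ext (hφ l), map_mul, hc,
      AlgHom.commutes]
    rfl
  set φ₀ := (v₀.val.restrictScalars K).comp (φv v₀ (hmem v₀ hint₀)) with hφ₀
  set φ₁ := (v₁.val.restrictScalars K).comp (φv v₁ (hmem v₁ hint₁)) with hφ₁
  have h0z : ∀ l, φ₀ (M.z l) = 0 := fun l => by rw [hφ₀, hval v₀ 0 hv₀, zero_mul]
  have h1z : ∀ l, φ₁ (M.z l) = ι (M.z l) := fun l => by rw [hφ₁, hval v₁ 1 hv₁, one_mul]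
  -- the value at zero is constant
  have hconst : ∀ a, φ₀ a ∈ Set.range (algebraMap K k) := fun a => by
    letI := M.algCoord
    haveI := M.isIntegral_coord
    have hcoord : ∀ r : M.coordAlg,
        φ₀ (algebraMap M.coordAlg (M.O 0) r) ∈ (⊥ : Subalgebra K k) := by
      rintro ⟨r, hr⟩
      have hle : M.coordAlg ≤ ((⊥ : Subalgebra K k).comap φ₀).map (M.O 0).val :=
        Algebra.adjoin_le (Set.range_subset_iff.mpr fun l => ⟨M.z l, by
          show φ₀ (M.z l) ∈ (⊥ : Subalgebra K k)
          rw [h0z]; exact zero_mem _, rfl⟩)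
      obtain ⟨b, hb, hbr⟩ := hle hr
      rw [show algebraMap M.coordAlg (M.O 0) ⟨r, hr⟩ = b from Subtype.ext hbr.symm]
      exact hb
    let ρ : M.coordAlg →+* (⊥ : Subalgebra K k) :=
      ((φ₀ : M.O 0 →+* k).comp (algebraMap M.coordAlg (M.O 0))).codRestrict
        (⊥ : Subalgebra K k).toSubring hcoord
    have h1 : IsIntegral (⊥ : Subalgebra K k) (φ₀ a) :=
      IsIntegral.map_of_comp_eq ρ (φ₀ : M.O 0 →+* k) (RingHom.ext fun r => rfl)
        (Algebra.IsIntegral.isIntegral (R := M.coordAlg) a)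
    haveI : Algebra.IsIntegral K (⊥ : Subalgebra K k) := ⟨fun r => by
      obtain ⟨r, hr⟩ := r
      obtain ⟨c, rfl⟩ := Algebra.mem_bot.mp hr
      exact isIntegral_algebraMap (x := c)⟩
    have hK : IsIntegral K (φ₀ a) := isIntegral_trans _ h1
    haveI : Algebra.IsAlgebraic K (IntermediateField.adjoin K {φ₀ a}) :=
      IntermediateField.isAlgebraic_adjoin fun y hy => (Set.mem_singleton_iff.mp hy) ▸ hK
    exact IntermediateField.mem_bot.mp
      (IntermediateField.eq_bot_of_isAlgClosed_of_isAlgebraic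
        (IntermediateField.adjoin K {φ₀ a}) ▸ IntermediateField.mem_adjoin_simple_self K (φ₀ a))
  choose w0 hw0 using hconst
  have hKinj : Function.Injective (algebraMap K k) := (algebraMap K k).injective
  let w0hom : M.O 0 →ₐ[K] K :=
    { toFun := w0
      map_one' := hKinj (by rw [hw0, map_one, map_one])
      map_mul' := fun a b => hKinj (by rw [hw0, map_mul, map_mul, hw0, hw0])
      map_zero' := hKinj (by rw [hw0, _root_.map_zero, _root_.map_zero])
      map_add' := fun a b => hKinj (by rw [hw0, map_add, map_add, hw0, hw0])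
      commutes' := fun r => hKinj (by rw [hw0, AlgHom.commutes]; rfl) }
  have hP₀ : M.pt 0 φ₀ = M.map (Algebra.ofId K k) (M.pt 0 w0hom) := by
    rw [M.map_pt]
    congr 1
    exact AlgHom.ext fun a => (hw0 a).symm
  -- the value at one is generic
  obtain ⟨σ₁, hσ₁⟩ := M.exists_lift φ₁ (M.injective_of_indep φ₁ (by
    simp only [h1z]
    exact M.z_indep.map' (f := ι) (algebraMap M.FA k).injective))
  obtain ⟨τ, hτ, hsurj⟩ := M.exists_generic_translate (M.pt 0 w0hom)
  refine ⟨k, inferInstance, inferInstance, inferInstance, F, inferInstance, inferInstance,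
    inferInstance, inferInstance, x, hx, M.pt 0 φ, v₀, v₁, M.pt 0 φ₀, M.pt 0 φ₁,
    ⟨0, φv v₀ _, rfl, rfl⟩, ⟨0, φv v₁ _, rfl, rfl⟩, σ₁.comp τ, ?_, fun y => ?_⟩
  · rw [← M.map_map, ← hτ, map_sub, M.map_map, Model.gen, M.map_pt, hP₀,
      show σ₁.comp (Algebra.ofId K M.FA) = Algebra.ofId K k from Subsingleton.elim _ _]
    congr 2
    exact AlgHom.ext fun a => (hσ₁ a).symm
  · refine isAlgebraic_over_coord M (σ₁.comp τ).fieldRange (fun l => ?_) y
    obtain ⟨z, hz⟩ := hsurj (M.z l : M.FA)
    exact ⟨z, (congrArg σ₁ hz).trans ((hσ₁ (M.z l)).trans (h1z l))⟩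

end Fermat.Agent.AbVar
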