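import Fermat.Agent.AbVar.Cube.Para.Base

/-!
# The parallelogram relation

If the second difference of the divisors of `ξ + η + c`, `ξ + η`, `ξ + c`, `ξ` (with `ξ` the generic
point) is principal up to torsion over the constants, the parallelogram relation holds.
-/

set_option autoImplicit false
set_option linter.style.haveILetI false
set_option linter.unusedSectionVars false

noncomputable section

open scoped TensorProduct

namespace Fermat.Agent.AbVar

universe u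

variable {K : Type u} [Field K] [IsAlgClosed K] (M : Model K) {Ω : Type u} [Field Ω] [Algebra K Ω]

/-- The second difference at the generic point, over the constants. -/
def Model.squareDiv (η c : M.Pt Ω) : CDiv Ω (Big K Ω M.FA) :=
  resCDiv Ω (Big K Ω M.FA) K (M.ptDiv (M.sumPt (k := K) M.gen (η + c)) -
    M.ptDiv (M.sumPt (k := K) M.gen η) - M.ptDiv (M.sumPt (k := K) M.gen c) +
    M.ptDiv (M.sumPt (k := K) M.gen 0))

section Relation

variable {m : ℕ} (a : Fin m → M.Pt Ω) (ε : Fin m → ℤ) (f : Big K Ω M.FA)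

/-- The translates of the generic point. -/
abbrev Model.genSum (s : Fin m) : M.Pt (Big K Ω M.FA) := M.sumPt (k := K) M.gen (a s)

/-- The equation of a relation, in given charts. -/
def Model.relElt (i b : Fin m → Fin (M.r + 1)) : Big K Ω M.FA :=
  f * ∏ s, M.ratio (M.genSum a s) (i s) (b s) ^ ε s

/-- Charts of the translates integral at a valuation ring. -/
def Model.Charts (V : Val K (Big K Ω M.FA)) (i : Fin m → Fin (M.r + 1)) : Prop :=
  ∀ s, ∃ φ : M.O (i s) →ₐ[K] Big K Ω M.FA, (∀ x, φ x ∈ V.1) ∧ M.pt (i s) φ = M.genSum a s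

variable {M a ε f}

theorem Model.relElt_ne_zero (hf : f ≠ 0) (i b : Fin m → Fin (M.r + 1)) :
    M.relElt a ε f i b ≠ 0 :=
  mul_ne_zero hf (Finset.prod_ne_zero_iff.mpr fun _ _ => zpow_ne_zero _ (M.ratio_ne_zero _ _ _))

theorem Model.vcls_relElt (hf : f ≠ 0) (V : Val K (Big K Ω M.FA)) (i b : Fin m → Fin (M.r + 1)) :
    vcls V.1 (M.relElt a ε f i b) =
      vcls V.1 f + ∑ s, ε s • vcls V.1 (M.ratio (M.genSum a s) (i s) (b s)) := by
  rw [Model.relElt, vcls_mul V.1 hf (Finset.prod_ne_zero_iff.mpr fun s _ =>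
    zpow_ne_zero _ (M.ratio_ne_zero _ _ _)), vcls_finsetProd V.1 _ _ fun s _ =>
    zpow_ne_zero _ (M.ratio_ne_zero _ _ _)]
  exact congrArg _ (Finset.sum_congr rfl fun s _ => vcls_zpow V.1 (M.ratio_ne_zero _ _ _) _)

/-- A scalar making the equation a unit at the Gauss valuation too. -/
theorem Model.exists_relScalar (hf : f ≠ 0)
    (hhor : ∀ V : Val K (Big K Ω M.FA), (∀ x, incΩ K Ω M.FA x ∈ V.1) → ∀ i, M.Charts a V i →
      vcls V.1 (M.relElt a ε f i fun s => M.base (M.genSum a s)) = 0) (R : Val K Ω) :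
    ∃ α : Ω, α ≠ 0 ∧ ∀ V : Val K (Big K Ω M.FA),
      ((∀ x, incΩ K Ω M.FA x ∈ V.1) ∨ V = gauss R R.res) → ∀ i, M.Charts a V i →
        vcls V.1 (M.relElt a ε (f / incΩ K Ω M.FA α) i fun s => M.base (M.genSum a s)) = 0 := by
  choose iG φG hG hGpt using fun s => M.exists_chartK (gauss (F := M.FA) R R.res) (M.genSum a s)
  set b := fun s => M.base (M.genSum a s)
  obtain ⟨α, hα, hαv⟩ := exists_gauss_scalar R R.res (M.relElt_ne_zero (a := a)
    (ε := ε) hf iG b)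
  refine ⟨α, hα, fun V hV i hi => ?_⟩
  have hα' : incΩ K Ω M.FA α ≠ 0 := (map_ne_zero _).mpr hα
  have key : vcls V.1 (M.relElt a ε (f / incΩ K Ω M.FA α) i b) =
      vcls V.1 (M.relElt a ε f i b) - vcls V.1 (incΩ K Ω M.FA α) := by
    rw [Model.vcls_relElt (div_ne_zero hf hα'), Model.vcls_relElt hf, vcls_div V.1 hf hα']
    abel
  rw [key]
  rcases hV with hV | rfl
  · rw [hhor V hV i hi, zero_sub, neg_eq_zero]
    exact (vcls_eq_zero_iff hα').mpr ⟨hV α, by rw [← map_inv₀]; exact hV _⟩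
  · rw [sub_eq_zero, ← hαv, Model.vcls_relElt hf, Model.vcls_relElt hf]
    refine congrArg _ (Finset.sum_congr rfl fun s _ => congrArg _ ?_)
    obtain ⟨φ, hφ, hpt⟩ := hi s
    rw [← M.ratio_mul ⟨φ, hpt⟩ ⟨φG s, hGpt s⟩ (M.in_base _),
      vcls_mul _ (M.ratio_ne_zero _ _ _) (M.ratio_ne_zero _ _ _),
      M.vcls_ratio_eq_zero (V := gauss R R.res) (φ.codRestrict _ hφ) hpt
        ((φG s).codRestrict _ (hG s)) (hGpt s), zero_add]

/-- The evaluation at a point of the constants. -/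
abbrev Model.evPt {j : Fin (M.r + 1)} (χ : M.O j →ₐ[K] Ω) :
    locRing (Val.top K Ω) (Val.top K Ω).alg.val (M.O j) χ →ₐ[K] Ω :=
  evLoc (Val.top K Ω) (Val.top K Ω).alg.val (M.O j) χ

/-- The value at a point does not depend on its chart. -/
theorem Model.evPt_unique {Q : M.Pt Ω} {j j' : Fin (M.r + 1)} {χ : M.O j →ₐ[K] Ω}
    {χ' : M.O j' →ₐ[K] Ω} (h : M.pt j χ = Q) (h' : M.pt j' χ' = Q) {x : Big K Ω M.FA} {y y' : Ω}
    (hy : HasVal (M.evPt χ) x y) (hy' : HasVal (M.evPt χ') x y') : y = y' := by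
  obtain ⟨χ'', rfl, rfl⟩ := M.overlap χ χ' (h.trans h'.symm)
  obtain ⟨-, hx, -, rfl⟩ := hy
  obtain ⟨-, hx', -, rfl⟩ := hy'
  obtain ⟨h1, e1⟩ := locRing_mono (Val.top K Ω) (Val.top K Ω).alg.val
    (le_sup_left : M.O j ≤ M.O j ⊔ M.O j') χ'' hx
  obtain ⟨h2, e2⟩ := locRing_mono (Val.top K Ω) (Val.top K Ω).alg.val
    (le_sup_right : M.O j' ≤ M.O j ⊔ M.O j') χ'' hx'
  exact e1.symm.trans e2

/-- The chart ratios at a translate have the expected values. -/
theorem Model.evPt_ratio [IsAlgClosed Ω] {j : Fin (M.r + 1)} (χ : M.O j →ₐ[K] Ω) (s : Fin m)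
    {i : Fin (M.r + 1)} (φ : M.O i →ₐ[K] Big K Ω M.FA)
    (hφ : ∀ x, φ x ∈ locRing (Val.top K Ω) (Val.top K Ω).alg.val (M.O j) χ)
    (hpt : M.pt i φ = M.genSum a s) :
    M.In (M.pt j χ + a s) i ∧ HasVal (M.evPt χ)
      (M.ratio (M.genSum a s) (M.base (M.pt j χ + a s)) i)
      (M.ratio (M.pt j χ + a s) (M.base (M.pt j χ + a s)) i) := by
  haveI := M.normal j
  obtain ⟨ψ, hψ⟩ := M.in_base (M.pt j χ + a s)
  obtain ⟨φb, hφbpt, hmem, hev⟩ := M.exists_chart_loc (Val.top K Ω) (Val.top K Ω).alg.val (M.O j) χ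
    (M.frac j) Val.top_hloc (evLoc_surjective_of _ _ _ _ fun y => ⟨⟨y, ValuationSubring.mem_top y⟩, rfl⟩)
    (AlgHom.id K (M.O j)) (a s) ψ (by
      rw [hψ, Model.sumVal, M.map_toAlgHom_self, M.redK_top]
      rfl)
  have hgen : M.pt j (((M.O j).val.restrictScalars K).comp (AlgHom.id K (M.O j))) = M.gen :=
    (M.gen_eq j).symm
  rw [hgen] at hφbpt
  let φb' := φb.codRestrict _ hmem
  let φ' := φ.codRestrict (locRing (Val.top K Ω) (Val.top K Ω).alg.val (M.O j) χ) hφ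
  have hb' : M.pt _ ((M.evPt χ).comp φb') = M.pt j χ + a s := by
    rw [show (M.evPt χ).comp φb' = ψ from AlgHom.ext hev, hψ]
  obtain ⟨h1, hv, hi⟩ := M.hom_ratio (M.evPt χ) φb' φ' hφbpt hpt hb'
  obtain ⟨h2, -, -⟩ := M.hom_ratio (M.evPt χ) φ' φb' hpt hφbpt hi
  refine ⟨⟨_, hi⟩, M.ratio_ne_zero _ _ _, h1, ?_, hv⟩
  have hA : M.In (M.genSum a s) (M.base (M.pt j χ + a s)) := ⟨_, hφbpt⟩
  have hB : M.In (M.genSum a s) i := ⟨_, hpt⟩
  rw [inv_eq_of_mul_eq_one_right ((M.ratio_mul hA hB hA).trans (M.ratio_self hA))]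
  exact h2

/-- At each valuation ring the relation is the value at the point, up to a scalar. -/
theorem Model.exists_value [IsAlgClosed Ω] (hf : f ≠ 0) (R : Val K Ω) {α : Ω} (hα : α ≠ 0)
    (hαu : ∀ V : Val K (Big K Ω M.FA),
      ((∀ x, incΩ K Ω M.FA x ∈ V.1) ∨ V = gauss R R.res) → ∀ i, M.Charts a V i →
        vcls V.1 (M.relElt a ε (f / incΩ K Ω M.FA α) i fun s => M.base (M.genSum a s)) = 0)
    (Q : M.Pt Ω) :
    ∃ (j : Fin (M.r + 1)) (χ : M.O j →ₐ[K] Ω) (t : Ω), M.pt j χ = Q ∧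
      HasVal (M.evPt χ)
        (M.relElt a ε f (fun s => M.base (Q + a s)) fun s => M.base (M.genSum a s)) t ∧
      vcls R.1 t = vcls R.1 α - ∑ s, ε s • M.ptDiv (Q + a s) R := by
  obtain ⟨j, χR, hχ⟩ := M.exists_chartA R Q
  haveI := M.normal j
  refine ⟨j, R.alg.val.comp χR, ?_⟩
  choose i ψA hψA using fun s => M.exists_chartA R (Q + a s)
  set π := R.res
  have hsum : ∀ s, M.pt (i s) (π.comp (ψA s)) = M.sumVal R π (M.O j) (π.comp χR)
      (AlgHom.id K (M.O j)) (a s) := fun s => by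
    rw [Model.sumVal, M.map_toAlgHom_self, ← M.redK_pt R π (i s) (R.alg.val.comp (ψA s))
      (π.comp (ψA s)) (fun x => (ψA s x).2) (fun _ => rfl), hψA s, map_add, ← hχ,
      M.redK_pt R π j (R.alg.val.comp χR) (π.comp χR) (fun x => (χR x).2) fun _ => rfl]
    rfl
  choose φ' hφ'pt hφ'mem hφ'ev using fun s => M.exists_chart_loc R π (M.O j) (π.comp χR) (M.frac j)
    R.res_local (evLoc_surjective_of R π _ _ R.res_surjective) (AlgHom.id K (M.O j)) (a s)
    (π.comp (ψA s)) (hsum s)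
  have hgen : M.pt j (((M.O j).val.restrictScalars K).comp (AlgHom.id K (M.O j))) = M.gen :=
    (M.gen_eq j).symm
  simp only [hgen] at hφ'pt
  set b := fun s => M.base (M.genSum a s)
  set g := M.relElt a ε (f / incΩ K Ω M.FA α) i b with hg
  have hα' : incΩ K Ω M.FA α ≠ 0 := (map_ne_zero _).mpr hα
  have hfα : f / incΩ K Ω M.FA α ≠ 0 := div_ne_zero hf hα'
  have hg0 : g ≠ 0 := Model.relElt_ne_zero hfα i b
  have hmem : g ∈ locRing R π (M.O j) (π.comp χR) :=
    M.mul_prod_ratio_mem R π (M.O j) (π.comp χR) (M.frac j) R.res_local (M.genSum a) ε i b φ'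
      hφ'pt hφ'mem _ fun V hV i' hi' =>
        ((vcls_eq_zero_iff (Model.relElt_ne_zero hfα i' b)).mp (hαu V hV i' hi')).1
  have hmem' : g⁻¹ ∈ locRing R π (M.O j) (π.comp χR) := by
    have e : ∀ i', (M.relElt a ε (f / incΩ K Ω M.FA α) i' b)⁻¹ =
        (f / incΩ K Ω M.FA α)⁻¹ * ∏ s, M.ratio (M.genSum a s) (i' s) (b s) ^ (-ε) s := fun i' => by
      rw [Model.relElt, mul_inv, ← Finset.prod_inv_distrib]
      simp only [Pi.neg_apply, zpow_neg]
    rw [hg, e]
    refine M.mul_prod_ratio_mem R π (M.O j) (π.comp χR) (M.frac j) R.res_local (M.genSum a) (-ε) i b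
      φ' hφ'pt hφ'mem _ fun V hV i' hi' => ?_
    rw [← e]
    exact ((vcls_eq_zero_iff (Model.relElt_ne_zero hfα i' b)).mp (hαu V hV i' hi')).2
  obtain ⟨hT, hR, hπv⟩ := evLoc_top R π R.res_local (M.O j) χR hmem
  obtain ⟨hT', -, -⟩ := evLoc_top R π R.res_local (M.O j) χR hmem'
  set v := M.evPt (R.alg.val.comp χR) ⟨g, hT⟩
  have hgv : HasVal (M.evPt (R.alg.val.comp χR)) g v := ⟨hg0, hT, hT', rfl⟩
  have hv0 : v ≠ 0 := hgv.ne_zero
  have hne : π ⟨v, hR⟩ ≠ 0 := by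
    rw [hπv]
    exact HasVal.ne_zero (ev := evLoc R π (M.O j) (π.comp χR)) ⟨hg0, hmem, hmem', rfl⟩
  have hvu : vcls R.1 v = 0 := by
    refine (vcls_eq_zero_iff hv0).mpr ⟨hR, ?_⟩
    by_contra hvi
    exact hne (R.res_local ⟨v, hR⟩ hvi)
  have hratio : ∀ s, M.In (Q + a s) (i s) ∧ HasVal (M.evPt (R.alg.val.comp χR))
      (M.ratio (M.genSum a s) (M.base (Q + a s)) (i s))
      (M.ratio (Q + a s) (M.base (Q + a s)) (i s)) := fun s => by
    have h1 := M.evPt_ratio (R.alg.val.comp χR) s (φ' s)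
      (fun x => (evLoc_top R π R.res_local (M.O j) χR (hφ'mem s x)).1) (hφ'pt s)
    rwa [hχ] at h1
  have hincα : HasVal (M.evPt (R.alg.val.comp χR)) (incΩ K Ω M.FA α) α :=
    ⟨hα', incΩ_mem_locRing (Val.top K Ω) _ _ _ (ValuationSubring.mem_top α), by
      rw [← map_inv₀]; exact incΩ_mem_locRing (Val.top K Ω) _ _ _ (ValuationSubring.mem_top α⁻¹),
      evLoc_incΩ (Val.top K Ω) _ _ _ ⟨α, ValuationSubring.mem_top α⟩⟩
  refine ⟨v * α * ∏ s, M.ratio (Q + a s) (M.base (Q + a s)) (i s) ^ ε s, hχ, ?_, ?_⟩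
  · have h2 := (hgv.mul hincα).mul (HasVal.prod Finset.univ _ _ fun s _ => (hratio s).2.zpow (ε s))
    have e : g * incΩ K Ω M.FA α *
        ∏ s, M.ratio (M.genSum a s) (M.base (Q + a s)) (i s) ^ ε s =
        M.relElt a ε f (fun s => M.base (Q + a s)) b := by
      rw [hg, Model.relElt, Model.relElt, mul_right_comm (f / _), div_mul_cancel₀ _ hα', mul_assoc,
        ← Finset.prod_mul_distrib]
      refine congrArg _ (Finset.prod_congr rfl fun s _ => ?_)
      have hI : M.In (M.genSum a s) (i s) := ⟨_, hφ'pt s⟩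
      have hB : M.In (M.genSum a s) (M.base (Q + a s)) := by
        obtain ⟨ψ, hψ⟩ := M.in_base (Q + a s)
        obtain ⟨φb, hφb, -⟩ := M.exists_chart_loc (Val.top K Ω) (Val.top K Ω).alg.val (M.O j)
          (R.alg.val.comp χR) (M.frac j) Val.top_hloc
          (evLoc_surjective_of _ _ _ _ fun y => ⟨⟨y, ValuationSubring.mem_top y⟩, rfl⟩)
          (AlgHom.id K (M.O j)) (a s) ψ (by
            rw [hψ, Model.sumVal, M.map_toAlgHom_self, M.redK_top, ← hχ]
            rfl)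
        rw [hgen] at hφb
        exact ⟨_, hφb⟩
      rw [← mul_zpow, mul_comm (M.ratio _ (i s) (b s)), M.ratio_mul hB hI (M.in_base _)]
    rwa [e] at h2
  · have hr : ∀ s, M.ratio (Q + a s) (M.base (Q + a s)) (i s) ≠ 0 := fun s => M.ratio_ne_zero _ _ _
    rw [vcls_mul R.1 (mul_ne_zero hv0 hα)
      (Finset.prod_ne_zero_iff.mpr fun s _ => zpow_ne_zero _ (hr s)), vcls_mul R.1 hv0 hα, hvu,
      zero_add, vcls_finsetProd R.1 _ _ fun s _ => zpow_ne_zero _ (hr s), sub_eq_add_neg,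
      ← Finset.sum_neg_distrib]
    refine congrArg _ (Finset.sum_congr rfl fun s _ => ?_)
    rw [vcls_zpow R.1 (hr s), M.ptDiv_eq (ψA s) (hψA s) (M.in_base _),
      M.ratio_self (M.in_base _), vcls_one, sub_zero, ← inv_eq_of_mul_eq_one_right
        ((M.ratio_mul (M.in_base _) (hratio s).1 (M.in_base _)).trans (M.ratio_self (M.in_base _))),
      vcls_inv, zsmul_neg, neg_neg]

/-- A relation between the translates of the generic point holds between their specialisations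
at two points, up to torsion. -/
theorem Model.sum_ptDiv_mem [IsAlgClosed Ω] (hf : f ≠ 0)
    (hhor : ∀ V : Val K (Big K Ω M.FA), (∀ x, incΩ K Ω M.FA x ∈ V.1) → ∀ i, M.Charts a V i →
      vcls V.1 (M.relElt a ε f i fun s => M.base (M.genSum a s)) = 0) (Q₀ Q₁ : M.Pt Ω) :
    (∑ s, ε s • M.ptDiv (Q₀ + a s)) - ∑ s, ε s • M.ptDiv (Q₁ + a s) ∈ TP K Ω := by
  choose α hα hαu using Model.exists_relScalar hf hhor
  choose j χ t hpt hval hvcls using fun Q R => Model.exists_value hf R (hα R) (hαu R) Q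
  have hconst : ∀ Q R, t Q R = t Q (Val.top K Ω) := fun Q R =>
    Model.evPt_unique (hpt Q R) (hpt Q _) (hval Q R) (hval Q _)
  have ht : ∀ Q, t Q (Val.top K Ω) ≠ 0 := fun Q => (hval Q _).ne_zero
  refine ⟨1, one_pos, t Q₁ (Val.top K Ω) / t Q₀ (Val.top K Ω), div_ne_zero (ht _) (ht _),
    funext fun R => ?_⟩
  rw [one_nsmul, principal, vcls_div R.1 (ht _) (ht _), ← hconst Q₁ R, ← hconst Q₀ R, hvcls, hvcls,
    Pi.sub_apply, Finset.sum_apply, Finset.sum_apply]
  simp only [Pi.smul_apply]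
  abel

end Relation

theorem Model.parallelogram [IsAlgClosed Ω] (η c : M.Pt Ω)
    (h : M.squareDiv η c ∈ TP Ω (Big K Ω M.FA)) :
    M.ptDiv (η + c) + M.ptDiv (η - c) - 2 • M.ptDiv η - M.ptDiv c - M.ptDiv (-c) ∈ TP K Ω := by
  obtain ⟨d, hd, f, hf, hdf⟩ := h
  set a : Fin 4 → M.Pt Ω := ![η + c, η, c, 0]
  set ε : Fin 4 → ℤ := ![-(d : ℤ), d, d, -(d : ℤ)]
  have hhor : ∀ V : Val K (Big K Ω M.FA), (∀ x, incΩ K Ω M.FA x ∈ V.1) → ∀ i, M.Charts a V i →
      vcls V.1 (M.relElt a ε f i fun s => M.base (M.genSum a s)) = 0 := fun V hV i hi => by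
    have h1 := congrFun hdf (⟨V.1, hV⟩ : Val Ω (Big K Ω M.FA))
    change d • (M.ptDiv (M.genSum a 0) V - M.ptDiv (M.genSum a 1) V -
      M.ptDiv (M.genSum a 2) V + M.ptDiv (M.genSum a 3) V) = vcls V.1 f at h1
    rw [Model.vcls_relElt hf, ← h1]
    have h2 : ∀ s, vcls V.1 (M.ratio (M.genSum a s) (i s) (M.base (M.genSum a s))) =
        M.ptDiv (M.genSum a s) V := fun s => by
      obtain ⟨φ, hφ, hpt⟩ := hi s
      rw [M.ptDiv_eq (φ.codRestrict V.alg hφ) hpt (M.in_base _), M.ratio_self (M.in_base _),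
        vcls_one, sub_zero]
    simp only [h2, Fin.sum_univ_four, ε, Matrix.cons_val_zero, Matrix.cons_val_one,
      Matrix.cons_val, neg_zsmul, natCast_zsmul, nsmul_add, nsmul_sub]
    abel
  have h0 : M.ptDiv (0 : M.Pt Ω) ∈ TP K Ω := by
    have := M.resCDiv_ptDiv_mem (k := K) (F := Ω) (0 : M.Pt K)
    rwa [map_zero] at this
  obtain ⟨D, hD, t, ht, hDt⟩ := M.sum_ptDiv_mem hf hhor (-c) 0
  have hsum : (∑ s, ε s • M.ptDiv (-c + a s)) - ∑ s, ε s • M.ptDiv (0 + a s) =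
      d • (M.ptDiv (η + c) + M.ptDiv (η - c) - 2 • M.ptDiv η - M.ptDiv c - M.ptDiv (-c) +
        2 • M.ptDiv 0) := by
    simp only [Fin.sum_univ_four, a, ε, Matrix.cons_val_zero, Matrix.cons_val_one, Matrix.cons_val,
      neg_zsmul, natCast_zsmul, zero_add, neg_add_cancel, add_zero,
      show -c + (η + c) = η by abel, show -c + η = η - c by abel]
    simp only [nsmul_add, nsmul_sub, two_nsmul]
    abel
  rw [hsum, ← mul_nsmul] at hDt
  have h3 : M.ptDiv (η + c) + M.ptDiv (η - c) - 2 • M.ptDiv η - M.ptDiv c - M.ptDiv (-c) +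
      2 • M.ptDiv 0 ∈ TP K Ω := ⟨d * D, Nat.mul_pos hd hD, t, ht, hDt⟩
  simpa using sub_mem h3 (nsmul_mem h0 2)

end Fermat.Agent.AbVar
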