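import Fermat.Agent.AbVar.Divisor

/-!
# Divisors of points, and their functoriality
-/

set_option autoImplicit false
set_option linter.style.haveILetI false

noncomputable section

open scoped Classical

namespace Fermat.Agent.AbVar

universe u

/-! ## Valuation rings over a field -/

section Val

variable {k F G : Type u} [Field k] [Field F] [Algebra k F] [Field G] [Algebra k G]

/-- The valuation ring as an algebra. -/
def Val.alg (V : Val k F) : Subalgebra k F where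
  __ := V.1.toSubring
  algebraMap_mem' := V.2

theorem Val.mem_alg {V : Val k F} {x : F} : x ∈ V.alg ↔ x ∈ V.1 := Iff.rfl

/-- The inverse image of a valuation ring. -/
def Val.comap (s : F →ₐ[k] G) (V : Val k G) : Val k F :=
  ⟨V.1.comap s.toRingHom, fun c => by
    show s (algebraMap k F c) ∈ V.1
    rw [s.commutes]
    exact V.2 c⟩

theorem Val.mem_comap {s : F →ₐ[k] G} {V : Val k G} {x : F} : x ∈ (V.comap s).1 ↔ s x ∈ V.1 :=
  Iff.rfl

variable (k F) in
/-- The whole field. -/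
def Val.top : Val k F := ⟨⊤, fun _ => ValuationSubring.mem_top _⟩

theorem vcls_one (V : ValuationSubring F) : vcls V (1 : F) = 0 := by
  rw [← Units.val_one, vcls_units, ofMul_one, map_zero]

theorem vcls_inv (V : ValuationSubring F) (x : F) : vcls V x⁻¹ = -vcls V x := by
  rcases eq_or_ne x 0 with rfl | hx
  · rw [inv_zero]
    simp [vcls]
  · refine eq_neg_of_add_eq_zero_left ?_
    rw [← vcls_mul V (inv_ne_zero hx) hx, inv_mul_cancel₀ hx, vcls_one]

theorem vcls_div (V : ValuationSubring F) {x y : F} (hx : x ≠ 0) (hy : y ≠ 0) :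
    vcls V (x / y) = vcls V x - vcls V y := by
  rw [div_eq_mul_inv, vcls_mul V hx (inv_ne_zero hy), vcls_inv, sub_eq_add_neg]

theorem vcls_eq_zero_iff {V : ValuationSubring F} {x : F} (hx : x ≠ 0) :
    vcls V x = 0 ↔ x ∈ V ∧ x⁻¹ ∈ V := by
  rw [show x = ((Units.mk0 x hx : Fˣ) : F) from rfl, vcls_units, valMk_eq_zero_iff]
  constructor
  · intro h
    exact ⟨((V.unitGroupMulEquiv ⟨_, h⟩ : Vˣ) : V).2,
      ((V.unitGroupMulEquiv ⟨_, h⟩)⁻¹ : Vˣ).val.2⟩
  · rintro ⟨h1, h2⟩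
    let e : Vˣ := ⟨⟨x, h1⟩, ⟨x⁻¹, h2⟩, Subtype.ext (mul_inv_cancel₀ hx),
      Subtype.ext (inv_mul_cancel₀ hx)⟩
    have := (V.unitGroupMulEquiv.symm e).2
    convert this using 1
    exact Units.ext rfl

theorem mem_mul_of_vcls_eq {V : ValuationSubring F} {f x y : F} (hx : x ≠ 0) (hy : y ≠ 0)
    (h : vcls V x = vcls V y) (hf : f * x ∈ V) : f * y ∈ V := by
  have h1 : vcls V (y / x) = 0 := by rw [vcls_div V hy hx, h, sub_self]
  rw [show f * y = f * x * (y / x) by field_simp]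
  exact mul_mem hf ((vcls_eq_zero_iff (div_ne_zero hy hx)).mp h1).1

variable (k F) in
/-- The divisor of an element, on units. -/
def principalHom : Additive Fˣ →+ CDiv k F where
  toFun x := principal k ((Additive.toMul x : Fˣ) : F)
  map_zero' := funext fun V => vcls_one V.1
  map_add' x y := funext fun V => vcls_mul V.1 (Additive.toMul x).ne_zero (Additive.toMul y).ne_zero

theorem principal_eq {t : F} (ht : t ≠ 0) :
    principal k t = principalHom k F (Additive.ofMul (Units.mk0 t ht)) := rfl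

theorem vcls_pow (V : ValuationSubring F) {x : F} (hx : x ≠ 0) (n : ℕ) :
    vcls V (x ^ n) = n • vcls V x := by
  induction n with
  | zero => rw [pow_zero, zero_nsmul, vcls_one]
  | succ n ih => rw [pow_succ, succ_nsmul, vcls_mul V (pow_ne_zero _ hx) hx, ih]

variable (k F) in
/-- Divisors with a principal positive multiple. -/
def TP : AddSubgroup (CDiv k F) where
  carrier := {D | IsTorsionPrincipal D}
  add_mem' := by
    rintro D E ⟨d, hd, t, ht, h⟩ ⟨e, he, s, hs, h'⟩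
    refine ⟨d * e, Nat.mul_pos hd he, t ^ e * s ^ d, mul_ne_zero (pow_ne_zero _ ht)
      (pow_ne_zero _ hs), ?_⟩
    funext V
    show (d * e) • (D V + E V) = vcls V.1 (t ^ e * s ^ d)
    have hD : d • D V = vcls V.1 t := congrFun h V
    have hE : e • E V = vcls V.1 s := congrFun h' V
    rw [vcls_mul V.1 (pow_ne_zero _ ht) (pow_ne_zero _ hs), vcls_pow V.1 ht, vcls_pow V.1 hs, ← hD,
      ← hE, nsmul_add, ← mul_nsmul, ← mul_nsmul, mul_comm e d]
  zero_mem' := ⟨1, one_pos, 1, one_ne_zero, by rw [one_nsmul]; exact funext fun V => (vcls_one V.1).symm⟩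
  neg_mem' := by
    rintro D ⟨d, hd, t, ht, h⟩
    refine ⟨d, hd, t⁻¹, inv_ne_zero ht, ?_⟩
    rw [neg_nsmul, h]
    exact funext fun V => (vcls_inv V.1 t).symm

theorem principal_mem_TP {t : F} (ht : t ≠ 0) : principal k t ∈ TP k F :=
  ⟨1, one_pos, t, ht, one_nsmul _⟩

/-- The map of value groups along an embedding. -/
def valMap (s : F →ₐ[k] G) (V : Val k G) : ValGrp (V.comap s).1 →+ ValGrp V.1 :=
  MonoidHom.toAdditive
    (QuotientGroup.map (V.comap s).1.unitGroup V.1.unitGroup (Units.map (s : F →* G))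
      fun x hx => by
        have h := (vcls_eq_zero_iff x.ne_zero).mp
          (show vcls (V.comap s).1 (x : F) = 0 by rwa [vcls_units, valMk_eq_zero_iff])
        have h' : vcls V.1 (s x) = 0 := by
          refine (vcls_eq_zero_iff ((map_ne_zero s).mpr x.ne_zero)).mpr ⟨h.1, ?_⟩
          rw [← map_inv₀]
          exact h.2
        rwa [show s (x : F) = ((Units.map (s : F →* G) x : Gˣ) : G) from rfl, vcls_units,
          valMk_eq_zero_iff] at h')

theorem valMap_vcls (s : F →ₐ[k] G) (V : Val k G) {x : F} (hx : x ≠ 0) :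
    valMap s V (vcls (V.comap s).1 x) = vcls V.1 (s x) := by
  rw [show x = ((Units.mk0 x hx : Fˣ) : F) from rfl, vcls_units,
    show s ((Units.mk0 x hx : Fˣ) : F) = ((Units.map (s : F →* G) (Units.mk0 x hx) : Gˣ) : G)
      from rfl, vcls_units]
  rfl

/-- The pullback of divisors. -/
def pullCDiv (s : F →ₐ[k] G) : CDiv k F →+ CDiv k G :=
  AddMonoidHom.mk' (fun D (V : Val k G) => valMap s V (D (V.comap s)))
    fun _ _ => funext fun _ => map_add _ _ _

theorem pullCDiv_apply (s : F →ₐ[k] G) (D : CDiv k F) (V : Val k G) {x : F} (hx : x ≠ 0)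
    (h : D (V.comap s) = vcls (V.comap s).1 x) : pullCDiv s D V = vcls V.1 (s x) := by
  show valMap s V (D (V.comap s)) = _
  rw [h, valMap_vcls s V hx]

theorem pullCDiv_principal (s : F →ₐ[k] G) {t : F} (ht : t ≠ 0) :
    pullCDiv s (principal k t) = principal k (s t) :=
  funext fun V => pullCDiv_apply s _ V ht rfl

theorem pullCDiv_mem_TP (s : F →ₐ[k] G) {D : CDiv k F} (h : D ∈ TP k F) :
    pullCDiv s D ∈ TP k G := by
  obtain ⟨d, hd, t, ht, h⟩ := h
  exact ⟨d, hd, s t, (map_ne_zero s).mpr ht, by rw [← map_nsmul, h, pullCDiv_principal s ht]⟩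

variable {K : Type u} [Field K] [Algebra K k] [Algebra K F] [IsScalarTower K k F]

variable (k) in
/-- A valuation ring over a larger field of constants. -/
def Val.restrict (V : Val k F) : Val K F :=
  ⟨V.1, fun c => by rw [IsScalarTower.algebraMap_apply K k F c]; exact V.2 _⟩

variable (K k F) in
/-- Restriction to the valuation rings over a larger field of constants. -/
def resCDiv : CDiv K F →+ CDiv k F :=
  AddMonoidHom.mk' (fun D (V : Val k F) => D (V.restrict k)) fun _ _ => rfl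

theorem resCDiv_mem_TP {D : CDiv K F} (h : D ∈ TP K F) : resCDiv k F K D ∈ TP k F := by
  obtain ⟨d, hd, t, ht, h⟩ := h
  exact ⟨d, hd, t, ht, by rw [← map_nsmul, h]; rfl⟩

end Val

/-! ## Points -/

namespace Model

variable {K : Type u} [Field K] (M : Model K) {F G : Type u} [Field F] [Algebra K F] [Field G]
  [Algebra K G]

theorem comp_inclusion {S T U : Subalgebra K M.FA} (χ : U →ₐ[K] F) (h : T ≤ U) (h' : S ≤ T) :
    (χ.comp (Subalgebra.inclusion h)).comp (Subalgebra.inclusion h') =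
      χ.comp (Subalgebra.inclusion (h'.trans h)) :=
  AlgHom.ext fun _ => rfl

theorem algHom_ext_sup {i j : Fin (M.r + 1)} {χ χ' : ↥(M.O i ⊔ M.O j) →ₐ[K] F}
    (h1 : χ.comp (Subalgebra.inclusion le_sup_left) = χ'.comp (Subalgebra.inclusion le_sup_left))
    (h2 : χ.comp (Subalgebra.inclusion le_sup_right) = χ'.comp (Subalgebra.inclusion le_sup_right)) :
    χ = χ' := by
  have hle : M.O i ⊔ M.O j ≤ (AlgHom.equalizer χ χ').map (M.O i ⊔ M.O j).val :=
    sup_le (fun x hx => ⟨⟨x, Algebra.mem_sup_left hx⟩, (DFunLike.congr_fun h1 ⟨x, hx⟩ :), rfl⟩)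
      (fun x hx => ⟨⟨x, Algebra.mem_sup_right hx⟩, (DFunLike.congr_fun h2 ⟨x, hx⟩ :), rfl⟩)
  refine AlgHom.ext fun a => ?_
  obtain ⟨b, hb, hab⟩ := hle a.2
  rw [← (Subtype.ext hab : b = a)]
  exact hb

/-- The point lies in a chart. -/
def In (P : M.Pt F) (i : Fin (M.r + 1)) : Prop := ∃ φ : M.O i →ₐ[K] F, M.pt i φ = P

theorem exists_chartA (V : Val K F) (P : M.Pt F) :
    ∃ i, ∃ φ : M.O i →ₐ[K] V.alg, M.pt i (V.alg.val.comp φ) = P := by
  obtain ⟨i, φ, hφ, h⟩ := M.exists_chart V.1 V.2 P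
  exact ⟨i, φ.codRestrict V.alg hφ, h⟩

theorem pt_comp_val {V : Val K F} {i : Fin (M.r + 1)} (φ : M.O i →ₐ[K] V.alg) :
    M.In (M.pt i (V.alg.val.comp φ)) i := ⟨_, rfl⟩

/-- The ratio of two equations at a point. -/
def ratio (P : M.Pt F) (i j : Fin (M.r + 1)) : F :=
  if h : ∃ χ : ↥(M.O i ⊔ M.O j) →ₐ[K] F,
      M.pt i (χ.comp (Subalgebra.inclusion le_sup_left)) = P
    then h.choose ⟨M.h i / M.h j, M.h_unit i j⟩ else 1

theorem ratio_eq {P : M.Pt F} {i j : Fin (M.r + 1)} (χ : ↥(M.O i ⊔ M.O j) →ₐ[K] F)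
    (h : M.pt i (χ.comp (Subalgebra.inclusion le_sup_left)) = P) :
    M.ratio P i j = χ ⟨M.h i / M.h j, M.h_unit i j⟩ := by
  have he : ∃ χ : ↥(M.O i ⊔ M.O j) →ₐ[K] F,
      M.pt i (χ.comp (Subalgebra.inclusion le_sup_left)) = P := ⟨χ, h⟩
  rw [ratio, dif_pos he]
  have h1 := he.choose_spec.trans h.symm
  rw [M.algHom_ext_sup (M.pt_injective h1)
    (M.pt_injective (((M.glue he.choose).symm.trans h1).trans (M.glue χ)))]

theorem ratio_ne_zero (P : M.Pt F) (i j : Fin (M.r + 1)) : M.ratio P i j ≠ 0 := by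
  rw [ratio]
  split_ifs with h
  · refine (IsUnit.of_mul_eq_one (h.choose ⟨M.h j / M.h i, sup_comm (M.O j) (M.O i) ▸
      M.h_unit j i⟩) ?_).ne_zero
    rw [← map_mul, ← map_one h.choose]
    congr 1
    refine Subtype.ext ?_
    show M.h i / M.h j * (M.h j / M.h i) = 1
    field_simp [M.h_ne i, M.h_ne j]
  · exact one_ne_zero

theorem exists_hom_of_in {P : M.Pt F} {i j : Fin (M.r + 1)} (hi : M.In P i) (hj : M.In P j) :
    ∃ χ : ↥(M.O i ⊔ M.O j) →ₐ[K] F,
      M.pt i (χ.comp (Subalgebra.inclusion le_sup_left)) = P := by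
  obtain ⟨φ, rfl⟩ := hi
  obtain ⟨ψ, hψ⟩ := hj
  obtain ⟨χ, h1, -⟩ := M.overlap φ ψ hψ.symm
  exact ⟨χ, by rw [h1]⟩

theorem ratio_mul {P : M.Pt F} {i j l : Fin (M.r + 1)} (hi : M.In P i) (hj : M.In P j)
    (hl : M.In P l) : M.ratio P i j * M.ratio P j l = M.ratio P i l := by
  obtain ⟨φ, rfl⟩ := hi
  obtain ⟨ψ, hψ⟩ := hj
  obtain ⟨θ, hθ⟩ := hl
  obtain ⟨χ, h1, h2, h3⟩ := M.overlap3 φ ψ θ hψ.symm hθ.symm
  rw [M.ratio_eq (χ.comp (Subalgebra.inclusion
      (le_sup_left : M.O i ⊔ M.O j ≤ M.O i ⊔ M.O j ⊔ M.O l))) (by rw [M.comp_inclusion, h1]),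
    M.ratio_eq (χ.comp (Subalgebra.inclusion
      (sup_le (le_sup_of_le_left le_sup_right) le_sup_right :
        M.O j ⊔ M.O l ≤ M.O i ⊔ M.O j ⊔ M.O l))) (by rw [M.comp_inclusion, h2, hψ]),
    M.ratio_eq (χ.comp (Subalgebra.inclusion
      (sup_le (le_sup_of_le_left le_sup_left) le_sup_right :
        M.O i ⊔ M.O l ≤ M.O i ⊔ M.O j ⊔ M.O l))) (by rw [M.comp_inclusion, h1])]
  simp only [AlgHom.comp_apply, ← map_mul]
  congr 1
  refine Subtype.ext ?_
  show M.h i / M.h j * (M.h j / M.h l) = M.h i / M.h l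
  field_simp [M.h_ne j, M.h_ne l]

theorem ratio_self {P : M.Pt F} {i : Fin (M.r + 1)} (hi : M.In P i) : M.ratio P i i = 1 :=
  (mul_left_cancel₀ (M.ratio_ne_zero P i i) ((M.ratio_mul hi hi hi).trans (mul_one _).symm))

theorem In.map {P : M.Pt F} {i : Fin (M.r + 1)} (hi : M.In P i) (s : F →ₐ[K] G) :
    M.In (M.map s P) i := by
  obtain ⟨φ, rfl⟩ := hi
  exact ⟨s.comp φ, (M.map_pt s i φ).symm⟩

theorem ratio_map {P : M.Pt F} {i j : Fin (M.r + 1)} (hi : M.In P i) (hj : M.In P j)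
    (s : F →ₐ[K] G) : M.ratio (M.map s P) i j = s (M.ratio P i j) := by
  obtain ⟨χ, h⟩ := M.exists_hom_of_in hi hj
  rw [M.ratio_eq χ h, M.ratio_eq (s.comp χ) (by rw [AlgHom.comp_assoc, ← h, M.map_pt])]
  rfl

theorem vcls_ratio_eq_zero {V : Val K F} {P : M.Pt F} {i j : Fin (M.r + 1)}
    (φ : M.O i →ₐ[K] V.alg) (hφ : M.pt i (V.alg.val.comp φ) = P) (ψ : M.O j →ₐ[K] V.alg)
    (hψ : M.pt j (V.alg.val.comp ψ) = P) : vcls V.1 (M.ratio P i j) = 0 := by
  obtain ⟨χ, h1, h2⟩ := M.overlap _ _ (hφ.trans hψ.symm)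
  have hV : ∀ a, χ a ∈ V.alg := by
    have hle : M.O i ⊔ M.O j ≤ (V.alg.comap χ).map (M.O i ⊔ M.O j).val :=
      sup_le (fun x hx => ⟨⟨x, Algebra.mem_sup_left hx⟩, by
          show χ _ ∈ V.alg
          rw [show χ ⟨x, Algebra.mem_sup_left hx⟩ = V.alg.val (φ ⟨x, hx⟩) from
            DFunLike.congr_fun h1 ⟨x, hx⟩]
          exact (φ ⟨x, hx⟩).2, rfl⟩)
        (fun x hx => ⟨⟨x, Algebra.mem_sup_right hx⟩, by
          show χ _ ∈ V.alg
          rw [show χ ⟨x, Algebra.mem_sup_right hx⟩ = V.alg.val (ψ ⟨x, hx⟩) from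
            DFunLike.congr_fun h2 ⟨x, hx⟩]
          exact (ψ ⟨x, hx⟩).2, rfl⟩)
    intro a
    obtain ⟨b, hb, hab⟩ := hle a.2
    rw [← (Subtype.ext hab : b = a)]
    exact hb
  rw [vcls_eq_zero_iff (M.ratio_ne_zero P i j), M.ratio_eq χ (by rw [h1]; exact hφ)]
  refine ⟨hV _, ?_⟩
  rw [show (χ ⟨M.h i / M.h j, M.h_unit i j⟩)⁻¹ =
      χ ⟨M.h j / M.h i, sup_comm (M.O j) (M.O i) ▸ M.h_unit j i⟩ from inv_eq_of_mul_eq_one_right (by
        rw [← map_mul, ← map_one χ]
        congr 1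
        refine Subtype.ext ?_
        show M.h i / M.h j * (M.h j / M.h i) = 1
        field_simp [M.h_ne i, M.h_ne j])]
  exact hV _

/-- The chart used as the base of a point. -/
def base (P : M.Pt F) : Fin (M.r + 1) := (M.exists_chartA (Val.top K F) P).choose

theorem in_base (P : M.Pt F) : M.In P (M.base P) :=
  ⟨_, (M.exists_chartA (Val.top K F) P).choose_spec.choose_spec⟩

/-- The divisor of a point. -/
def ptDiv (P : M.Pt F) : CDiv K F :=
  fun V => vcls V.1 (M.ratio P (M.exists_chartA V P).choose (M.base P))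

theorem ptDiv_eq {V : Val K F} {P : M.Pt F} {i b : Fin (M.r + 1)} (φ : M.O i →ₐ[K] V.alg)
    (hφ : M.pt i (V.alg.val.comp φ) = P) (hb : M.In P b) :
    M.ptDiv P V = vcls V.1 (M.ratio P i b) - vcls V.1 (M.ratio P (M.base P) b) := by
  have hspec := (M.exists_chartA V P).choose_spec.choose_spec
  set i' := (M.exists_chartA V P).choose with hi'
  have hi : M.In P i := ⟨_, hφ⟩
  have hi'' : M.In P i' := ⟨_, hspec⟩
  have h0 := M.vcls_ratio_eq_zero _ hspec φ hφ
  rw [ptDiv, ← hi', ← M.ratio_mul hi'' hi (M.in_base P), ← M.ratio_mul hi (M.in_base P) hb,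
    vcls_mul _ (M.ratio_ne_zero _ _ _) (M.ratio_ne_zero _ _ _),
    vcls_mul _ (M.ratio_ne_zero _ _ _) (M.ratio_ne_zero _ _ _), h0, zero_add, add_sub_cancel_right]

theorem pullCDiv_ptDiv (s : F →ₐ[K] G) (P : M.Pt F) :
    pullCDiv s (M.ptDiv P) =
      M.ptDiv (M.map s P) + principal K (M.ratio (M.map s P) (M.base (M.map s P)) (M.base P)) := by
  funext V
  obtain ⟨i, φ, hφ⟩ := M.exists_chartA (V.comap s) P
  have hb := M.in_base P
  let φ' : M.O i →ₐ[K] V.alg := (s.comp ((V.comap s).alg.val.comp φ)).codRestrict V.alg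
    fun a => (φ a).2
  rw [Pi.add_apply, M.ptDiv_eq φ' (by
      show M.pt i (s.comp ((V.comap s).alg.val.comp φ)) = _
      rw [← M.map_pt, hφ]) (hb.map M s),
    principal, sub_add_cancel, pullCDiv_apply s _ V (M.ratio_ne_zero P i (M.base P)) (by
      rw [M.ptDiv_eq φ hφ hb, M.ratio_self hb, vcls_one, sub_zero]),
    M.ratio_map ⟨_, hφ⟩ hb]

theorem pullCDiv_ptDiv_sub_mem (s : F →ₐ[K] G) (P : M.Pt F) :
    pullCDiv s (M.ptDiv P) - M.ptDiv (M.map s P) ∈ TP K G := by
  rw [M.pullCDiv_ptDiv, add_sub_cancel_left]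
  exact principal_mem_TP (M.ratio_ne_zero _ _ _)

/-- A point defined over the constants has trivial divisor. -/
theorem resCDiv_ptDiv_mem {k : Type u} [Field k] [Algebra K k] [Algebra k F] [IsScalarTower K k F]
    (a : M.Pt k) :
    resCDiv k F K (M.ptDiv (M.map (IsScalarTower.toAlgHom K k F) a)) ∈ TP k F := by
  set s := IsScalarTower.toAlgHom K k F
  refine ⟨1, one_pos, (M.ratio (M.map s a) (M.base (M.map s a)) (M.base a))⁻¹,
    inv_ne_zero (M.ratio_ne_zero _ _ _), funext fun V => ?_⟩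
  obtain ⟨φ₀, hφ₀⟩ := M.in_base a
  let φ : M.O (M.base a) →ₐ[K] (V.restrict k).alg :=
    (s.comp φ₀).codRestrict _ fun x => V.2 (φ₀ x)
  have h := M.ptDiv_eq (V := V.restrict k) φ (by
    show M.pt _ (s.comp φ₀) = _
    rw [← M.map_pt, hφ₀]) ((M.in_base a).map M s)
  rw [M.ratio_self ((M.in_base a).map M s), vcls_one, zero_sub] at h
  rw [one_smul]
  show M.ptDiv _ (V.restrict k) = vcls V.1 _
  rw [h, vcls_inv]
  rfl

end Model

end Fermat.Agent.AbVar
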