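import Fermat.Agent.AbVar.Cube.RigidValues
import Fermat.Agent.AbVar.Cube.Echelon

/-!
# Rigidity: the second difference does not depend on the point of the curve
-/

set_option autoImplicit false
set_option linter.style.haveILetI false
set_option linter.unusedSectionVars false

noncomputable section

open scoped TensorProduct Classical

namespace Fermat.Agent.AbVar

universe u

open Fermat.Agent.MCurve (IsFinOver)

theorem RatPoint.eval_sum {k F : Type u} [Field k] [Field F] [Algebra k F] {x : F}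
    (v : RatPoint k F x) {ι : Type*} (S : Finset ι) (c : ι → k) (u : ι → F)
    (hu : ∀ l ∈ S, u l ∈ v.ring) :
    v.eval (∑ l ∈ S, c l • u l) = ∑ l ∈ S, c l * v.eval (u l) := by
  have hm : ∀ l ∈ S, c l • u l ∈ v.ring := fun l hl => Subalgebra.smul_mem _ (hu l hl) _
  rw [RatPoint.eval, dif_pos (sum_mem hm)]
  have h : (⟨∑ l ∈ S, c l • u l, sum_mem hm⟩ : v.ring) =
      ∑ l : S, c l.1 • (⟨u l.1, hu l.1 l.2⟩ : v.ring) := by
    refine Subtype.ext ?_
    rw [AddSubmonoidClass.coe_finsetSum]
    exact (Finset.sum_coe_sort S fun l => c l • u l).symm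
  rw [h, map_sum, ← Finset.sum_coe_sort S fun l => c l * v.eval (u l)]
  refine Finset.sum_congr rfl fun l _ => ?_
  rw [map_smul, smul_eq_mul, RatPoint.eval, dif_pos (hu l.1 l.2)]

namespace Model

variable {K : Type u} [Field K] (M : Model K) {k F : Type u} [Field k] [IsAlgClosed k] [Algebra K k]
  [Field F] [Algebra k F] [Algebra K F] [IsScalarTower K k F] {x : F}

/-- The value of a point of the curve's field at a rational point. -/
def HasValue (v : RatPoint k F x) (P : M.Pt F) (P' : M.Pt k) : Prop :=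
  ∃ (i : Fin (M.r + 1)) (φ : M.O i →ₐ[K] v.ring.restrictScalars K),
    M.pt i ((v.ring.restrictScalars K).val.comp φ) = P ∧
      M.pt i ((v.val.restrictScalars K).comp φ) = P'

variable {Ω₁ Ω₂ : Type u} [Field Ω₁] [Algebra k Ω₁] [Algebra K Ω₁] [IsScalarTower K k Ω₁]
  [Field Ω₂] [Algebra Ω₁ Ω₂] [Algebra k Ω₂] [IsScalarTower k Ω₁ Ω₂] [Algebra K Ω₂]
  [IsScalarTower K Ω₁ Ω₂] [IsScalarTower K k Ω₂]

/-- The second difference at a point of the constants, shifted by `ξ` and `η`. -/
def thetaDiv (η : M.Pt Ω₁) (ξ : M.Pt Ω₂) (P : M.Pt k) : CDiv Ω₁ Ω₂ :=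
  resCDiv Ω₁ Ω₂ K
    (M.ptDiv (M.map (IsScalarTower.toAlgHom K k Ω₂) P +
        (ξ + M.map (IsScalarTower.toAlgHom K Ω₁ Ω₂) η)) -
      M.ptDiv (M.map (IsScalarTower.toAlgHom K k Ω₂) P + ξ) -
      M.ptDiv (M.map (IsScalarTower.toAlgHom K k Ω₂) P + M.map (IsScalarTower.toAlgHom K Ω₁ Ω₂) η) +
      M.ptDiv (M.map (IsScalarTower.toAlgHom K k Ω₂) P))

set_option maxHeartbeats 4000000 in
theorem rigid [IsAlgClosed Ω₂] (hx : IsFinOver k x) (P : M.Pt F) (v₀ v₁ : RatPoint k F x)
    (P₀ P₁ : M.Pt k) (h₀ : M.HasValue v₀ P P₀) (h₁ : M.HasValue v₁ P P₁)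
    (R₁ : Val k Ω₁) [Algebra K R₁.Res] [IsScalarTower K k R₁.Res] (η : M.Pt Ω₁)
    (hη : M.redK R₁ R₁.res η = 0) (ξ : M.Pt Ω₂) :
    M.thetaDiv η ξ P₁ - M.thetaDiv η ξ P₀ ∈ TP Ω₁ Ω₂ := by
  classical
  have hfin := finite_poleSections hx
  -- the four points and their twisting divisor
  set η' := M.map (IsScalarTower.toAlgHom K Ω₁ Ω₂) η with hη'
  let a : Fin 4 → M.Pt Ω₂ := ![ξ + η', ξ, η', 0]
  set Z := M.fourPt (k := k) P a with hZdef
  set bb := M.fourBase (k := k) P a with hbbdef
  -- sections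
  choose φbb hφbb using fun s => M.in_base (Z s)
  choose gens hgens using fun s => M.fg (bb s)
  let G : Finset (Big k Ω₂ F) := Finset.univ.biUnion fun s => (gens s).attach.image fun z =>
    φbb s ⟨z.1, hgens s ▸ Algebra.subset_adjoin z.2⟩
  obtain ⟨N, -, ε, hε, f, hflin, hfsec⟩ := exists_independent_sections hx
    (resCDiv Ω₂ (Big k Ω₂ F) K (∑ s, sgn4 s • M.ptDiv (Z s))) G (fun V hV => by
      show (∑ s, sgn4 s • M.ptDiv (Z s)) (V.restrict Ω₂) = 0
      rw [Finset.sum_apply]
      refine Finset.sum_eq_zero fun s _ => ?_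
      have hle : M.O (bb s) ≤ ((V.restrict Ω₂ (K := K)).alg.comap (φbb s)).map (M.O (bb s)).val := by
        conv_lhs => rw [← hgens s]
        refine Algebra.adjoin_le fun z hz => ⟨⟨z, hgens s ▸ Algebra.subset_adjoin hz⟩, ?_, rfl⟩
        exact hV _ (Finset.mem_biUnion.mpr ⟨s, Finset.mem_univ s, Finset.mem_image.mpr
          ⟨⟨z, hz⟩, Finset.mem_attach _ _, rfl⟩⟩)
      have hmem : ∀ z, φbb s z ∈ (V.restrict Ω₂ (K := K)).alg := fun z => by
        obtain ⟨w, hw, hwz⟩ := hle z.2
        rw [← (Subtype.ext hwz : w = z)]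
        exact hw
      rw [Pi.smul_apply, M.ptDiv_eq ((φbb s).codRestrict _ hmem) (hφbb s) (M.in_base _),
        M.ratio_self (M.in_base _), vcls_one, sub_zero, smul_zero])
  have hfsec' : ∀ l, f l ∈ sections (M.secDiv ε x N P a) := hfsec
  let n := Module.finrank k (sections (poleDivN k x N))
  haveI := hfin N
  let u : Module.Basis (Fin n) k (sections (poleDivN k x N)) := Module.finBasis k _
  have hn1 : 1 ≤ n := by
    have h1 : (1 : F) ∈ sections (poleDivN k x N) := fun V z hz hVz => by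
      refine mem_mul_of_vcls_eq ?_ hz hVz ?_
      · unfold poleElt
        split_ifs with h
        · exact one_ne_zero
        · exact pow_ne_zero _ (inv_ne_zero fun h0 => h (h0 ▸ zero_mem _))
      · rw [one_mul, poleElt]
        split_ifs with h
        · exact one_mem _
        · exact pow_mem ((V.1.mem_or_inv_mem x).resolve_left h) N
    exact Nat.one_le_iff_ne_zero.mpr fun h0 => by
      haveI : Subsingleton (sections (poleDivN k x N)) := Module.finrank_zero_iff.mp h0
      exact one_ne_zero (congrArg Subtype.val (Subsingleton.elim (⟨1, h1⟩ : sections _) 0))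
  obtain ⟨w, hw⟩ := exists_evaluation hx N v₀ v₁
  let e : Fin n ≃ Option (Fin (n - 1)) := (Fintype.equivFinOfCardEq (by
    rw [Fintype.card_option, Fintype.card_fin]; omega)).symm
  -- the rational points
  let J := Bool ⊕ Fin (n - 1)
  let pts : J → RatPoint k F x := Sum.elim (fun b => if b then v₁ else v₀) w
  let col : Bool → Fin n → J := fun b i => (e i).elim (Sum.inl b) Sum.inr
  have hvalue : ∀ p : J, ∃ P' : M.Pt k, M.HasValue (pts p) P P' ∧
      (p = Sum.inl false → P' = P₀) ∧ (p = Sum.inl true → P' = P₁) := by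
    rintro ((_ | _) | l)
    · exact ⟨P₀, h₀, fun _ => rfl, fun h => Bool.false_ne_true (Sum.inl.inj h) |>.elim⟩
    · exact ⟨P₁, h₁, fun h => Bool.false_ne_true (Sum.inl.inj h).symm |>.elim, fun _ => rfl⟩
    · obtain ⟨j, φ, hφ⟩ := M.exists_chart_sub (w l).ring (w l).mem_or_inv P
      exact ⟨_, ⟨j, φ, hφ, rfl⟩, fun h => Sum.inr_ne_inl h |>.elim, fun h => Sum.inr_ne_inl h |>.elim⟩
  choose val hval hvalF hvalT using hvalue
  choose jp φp hφp hφp' using hval
  -- values over the trivial valuation ring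
  have htop := fun p => M.exists_topValue (pts p) (φp p) (hφp p) (hφp' p) a
  choose φb hφbpt hφbval hsecTop using htop
  set T₀ := Val.top k Ω₂ with hT₀
  let qT : ∀ p, (pts p).ring →ₐ[k] Ω₂ := fun p => (Algebra.ofId k Ω₂).comp (pts p).val
  let τ : J → Fin n → Ω₂ := fun p l =>
    evLoc T₀ T₀.alg.val (pts p).ring (qT p) ⟨_, @hsecTop p ε N (f l) (hfsec' l)⟩
  let Mτ : Bool → Matrix (Fin n) (Fin n) Ω₂ := fun b => Matrix.of fun l i => τ (col b i) l
  -- the values at a valuation ring of the constants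
  have key : ∀ R₂ : Val Ω₁ Ω₂, (∀ b, (Mτ b).det ≠ 0) ∧
      ε • (M.thetaDiv η ξ P₁ R₂ - M.thetaDiv η ξ P₀ R₂) =
        vcls R₂.1 (Mτ false).det - vcls R₂.1 (Mτ true).det := by
    intro R₂
    obtain ⟨R, hR2, hR1⟩ := exists_below R₂ R₁
    letI : Algebra K R.Res := ((algebraMap k R.Res).comp (algebraMap K k)).toAlgebra
    haveI : IsScalarTower K k R.Res := IsScalarTower.of_algebraMap_eq fun _ => rfl
    haveI := R.isAlgClosed_res
    set π := R.res with hπdef
    have hπ : Function.Surjective π := fun c => by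
      obtain ⟨r, rfl⟩ := IsLocalRing.residue_surjective (R := R.1) c
      exact ⟨⟨r.1, r.2⟩, rfl⟩
    have hloc := R.res_local
    -- `η` reduces to zero
    have hredη : M.redK R π η' = 0 := by
      obtain ⟨i₀, ψ₀, hψ₀⟩ := M.exists_pt (0 : M.Pt k)
      obtain ⟨φ₁, hφ₁, hφ₁η⟩ := M.chart_of_redK R₁ R₁.res R₁.res_local η i₀
        ((IsScalarTower.toAlgHom K k R₁.Res).comp ψ₀) (by rw [hη, ← M.map_pt, hψ₀, map_zero])
      have h1 : M.redK R₁ R₁.res η =
          M.pt i₀ ((R₁.res.restrictScalars K).comp (φ₁.codRestrict (R₁.alg.restrictScalars K) hφ₁)) := by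
        rw [← hφ₁η]
        exact M.redK_pt R₁ R₁.res i₀ φ₁ _ hφ₁ fun _ => rfl
      rw [hη, ← map_zero (M.map (IsScalarTower.toAlgHom K k R₁.Res)), ← hψ₀, M.map_pt] at h1
      have hres := fun z => DFunLike.congr_fun (M.pt_injective h1) z
      have hmemR : ∀ z, IsScalarTower.toAlgHom K Ω₁ Ω₂ (φ₁ z) ∈ R.1 := fun z =>
        (hR1 _ (hφ₁ z)).1
      rw [hη', ← hφ₁η, M.map_pt, M.redK_pt R π i₀ _ ((IsScalarTower.toAlgHom K k R.Res).comp ψ₀)
        hmemR fun z => ?_, ← M.map_pt, hψ₀, map_zero]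
      show π ⟨_, hmemR z⟩ = algebraMap k R.Res (ψ₀ z)
      rw [← π.commutes, ← sub_eq_zero, ← map_sub]
      have hd : R₁.res (⟨φ₁ z, hφ₁ z⟩ - algebraMap k R₁.alg (ψ₀ z)) = 0 := by
        rw [map_sub, sub_eq_zero, AlgHom.commutes]
        exact (hres z).symm
      refine (R.res_eq_zero_iff _).mpr ?_
      rcases (R₁.res_eq_zero_iff _).mp hd with h | h
      · left
        show algebraMap Ω₁ Ω₂ (φ₁ z) - algebraMap k Ω₂ (ψ₀ z) = 0
        rw [IsScalarTower.algebraMap_apply k Ω₁ Ω₂, ← map_sub]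
        exact (congrArg _ (show φ₁ z - algebraMap k Ω₁ (ψ₀ z) = 0 from h)).trans (_root_.map_zero _)
      · right
        show (algebraMap Ω₁ Ω₂ (φ₁ z) - algebraMap k Ω₂ (ψ₀ z))⁻¹ ∉ R.1
        rw [IsScalarTower.algebraMap_apply k Ω₁ Ω₂, ← map_sub]
        exact (hR1 _ (sub_mem (hφ₁ z) (R₁.2 _))).2 h
    have h01 : M.redK R π (a 0) = M.redK R π (a 1) := by
      show M.redK R π (ξ + η') = M.redK R π ξ
      rw [map_add, hredη, add_zero]
    have h23 : M.redK R π (a 2) = M.redK R π (a 3) := by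
      show M.redK R π η' = M.redK R π 0
      rw [hredη, map_zero]
    -- charts at the Gauss valuation
    obtain ⟨jT, φT, hφT⟩ := M.exists_chart_sub (⊤ : Subalgebra k F) (fun _ => Or.inl trivial) P
    haveI := isIntegrallyClosed_of_mem_or_inv (⊤ : Subalgebra k F) fun _ => Or.inl trivial
    have hTf := exists_div_of_mem_or_inv (⊤ : Subalgebra k F) fun _ => Or.inl trivial
    have hqT := evLoc_gauss_surjective (F := F) R π hπ
    set valG : Fin 4 → M.Pt (Big k R.Res F) := fun s =>
      M.sumVal R π (⊤ : Subalgebra k F) (gaussPt k R.Res F) φT (a s) with hvalG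
    have hG01' : valG 0 = valG 1 := by simp only [hvalG, Model.sumVal, h01]
    have hG23' : valG 2 = valG 3 := by simp only [hvalG, Model.sumVal, h23]
    obtain ⟨g₀, ψg₀, hψg₀⟩ := M.exists_pt (valG 0)
    obtain ⟨g₂, ψg₂, hψg₂⟩ := M.exists_pt (valG 2)
    let iG : Fin 4 → Fin (M.r + 1) := ![g₀, g₀, g₂, g₂]
    have hexG : ∀ s, ∃ φ' : M.O (iG s) →ₐ[K] Big k Ω₂ F, M.pt (iG s) φ' = Z s ∧
        ∃ hmem : ∀ z, φ' z ∈ locRing R π (⊤ : Subalgebra k F) (gaussPt k R.Res F),
          ∃ ψ : M.O (iG s) →ₐ[K] Big k R.Res F, M.pt (iG s) ψ = valG s ∧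
            ∀ z, evLoc R π ⊤ (gaussPt k R.Res F) ⟨φ' z, hmem z⟩ = ψ z := by
      intro s
      obtain ⟨ψ, hψ⟩ : ∃ ψ : M.O (iG s) →ₐ[K] Big k R.Res F, M.pt (iG s) ψ = valG s := by
        fin_cases s
        exacts [⟨ψg₀, hψg₀⟩, ⟨ψg₀, hψg₀.trans hG01'⟩, ⟨ψg₂, hψg₂⟩, ⟨ψg₂, hψg₂.trans hG23'⟩]
      obtain ⟨φ', h1, h2, h3⟩ := M.exists_chart_loc R π (⊤ : Subalgebra k F) (gaussPt k R.Res F)
        hTf hloc hqT φT (a s) ψ hψ
      exact ⟨φ', h1.trans (by rw [hφT]; rfl), h2, ψ, hψ, h3⟩
    choose φG hGpt hGmem hGval using hexG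
    -- echelon form
    set tG := M.twist ε Z iG bb with htG
    have hf' : LinearIndependent Ω₂ fun l => f l * tG :=
      hflin.map' (LinearMap.mulRight Ω₂ tG)
        (LinearMap.ker_eq_bot.mpr (mul_left_injective₀ (M.twist_ne_zero ε)))
    obtain ⟨C, -, hC, hind⟩ := exists_gauss_independent R π hloc _ hf'
    set g : Fin n → Big k Ω₂ F := fun j => ∑ l, C j l • f l with hgdef
    have hgsec : ∀ j, g j ∈ sections (M.secDiv ε x N P a) := fun j =>
      sum_mem fun l _ => Submodule.smul_mem _ _ (hfsec' l)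
    have hgG : ∀ j, g j * tG ∈ locRing R π (⊤ : Subalgebra k F) (gaussPt k R.Res F) := fun j => by
      convert hC j using 1
      rw [hgdef, Finset.sum_mul]
      exact Finset.sum_congr rfl fun l _ => by rw [Algebra.smul_def, mul_assoc]; rfl
    set r : Fin n → Big k R.Res F := fun j =>
      evLoc R π (⊤ : Subalgebra k F) (gaussPt k R.Res F) ⟨_, hgG j⟩ with hr
    have hrind : LinearIndependent R.Res r := by
      convert hind using 1
      funext j
      rw [hr]
      refine congrArg (evLoc R π ⊤ (gaussPt k R.Res F)) (Subtype.ext ?_)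
      show g j * tG = _
      rw [hgdef, Finset.sum_mul]
      exact Finset.sum_congr rfl fun l _ => by rw [Algebra.smul_def, mul_assoc]; rfl
    -- coordinates of the residues
    have hspan : Submodule.span R.Res (incF k R.Res F '' (sections (poleDivN k x N) : Set F)) ≤
        Submodule.span R.Res (Set.range fun l => incF k R.Res F (u l : F)) := by
      rw [Submodule.span_le]
      rintro _ ⟨z, hz, rfl⟩
      have hsum : (∑ l, ((u.repr ⟨z, hz⟩ l • u l : sections (poleDivN k x N)) : F)) = z :=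
        (AddSubmonoidClass.coe_finsetSum _ _).symm.trans (congrArg Subtype.val (u.sum_repr ⟨z, hz⟩))
      rw [← hsum, map_sum]
      refine sum_mem fun l _ => ?_
      rw [SetLike.val_smul, map_smul, ← IsScalarTower.algebraMap_smul R.Res]
      exact Submodule.smul_mem _ _ (Submodule.subset_span ⟨l, rfl⟩)
    choose A hA using fun j => (Submodule.mem_span_range_iff_exists_fun R.Res).mp
      (hspan (mem_span_of_mem_poleSections hx (M.residue_mem_poleSections R π hloc hπ hx h01 h23 φT
        hφT φG rfl rfl hGpt hGmem hGval (hgsec j) (hgG j))))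
    have hAdet : (Matrix.of A).det ≠ 0 := by
      rw [← isUnit_iff_ne_zero, ← Matrix.isUnit_iff_isUnit_det,
        ← Matrix.linearIndependent_rows_iff_isUnit]
      refine LinearIndependent.of_comp (Fintype.linearCombination R.Res
        fun l => incF k R.Res F (u l : F)) ?_
      convert hrind using 1
      funext j
      exact (Fintype.linearCombination_apply _ _ _).trans (hA j)
    -- at each point
    have hpoint : ∀ p : J, ∃ (c : Ω₂) (T : Fin n → R.alg), c ≠ 0 ∧
        vcls R₂.1 c = ε • M.thetaDiv η ξ (val p) R₂ ∧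
        (∀ j, (T j : Ω₂) = (∑ l, C j l * τ p l) * c) ∧
        ∀ j, π (T j) = ∑ l, A j l * algebraMap k R.Res ((pts p).eval (u l : F)) := by
      intro p
      set v := pts p with hv
      let χ : v.ring →ₐ[k] R.alg := (Algebra.ofId k R.alg).comp v.val
      have hqeq : R.alg.val.comp χ = qT p := AlgHom.ext fun _ => rfl
      obtain ⟨i, φi, hipt, himem, hloc'⟩ := M.exists_local R π hloc hπ h01 h23 φT hφT φG rfl rfl
        hGpt hGmem hGval v.ring v.mem_or_inv (π.comp χ) (φp p) (hφp p)
        (ε := ε) (x := x) (N := N)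
      choose hm hmR hmπ using fun s z => evLoc_top R π hloc v.ring χ (himem s z)
      rw [hqeq] at hm
      let S := (locRing T₀ T₀.alg.val v.ring (qT p)).restrictScalars K
      let ev : S →ₐ[K] Ω₂ := (evLoc T₀ T₀.alg.val v.ring (qT p)).restrictScalars K
      choose hbmem ψb hψb hψbval using hφbval p
      let cb : ∀ s, M.O (M.valBase a (val p) s) →ₐ[K] S := fun s =>
        (φb p s).codRestrict S (hbmem s)
      let ci : ∀ s, M.O (i s) →ₐ[K] S := fun s => (φi s).codRestrict S (hm s)
      have hcb : ∀ s, M.pt _ (ev.comp (cb s)) = M.fourVal a (val p) s := fun s => by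
        rw [show ev.comp (cb s) = ψb s from AlgHom.ext (hψbval s), hψb s]
      obtain ⟨hW, hWv⟩ := M.hom_twist (-ε) (Z := Z) (i := M.valBase a (val p)) (b := i) ev cb ci
        (hφbpt p) hipt hcb
      have hci : ∀ s, M.pt (i s) (ev.comp (ci s)) = M.fourVal a (val p) s := fun s =>
        (M.hom_ratio ev (cb s) (ci s) (hφbpt p s) (hipt s) (hcb s)).choose_spec.2
      set c := M.twist (-ε) (M.fourVal a (val p)) (M.valBase a (val p)) i with hc
      have hswap : ∀ {E : Type u} [Field E] [Algebra K E] {Y : Fin 4 → M.Pt E}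
          {i b : Fin 4 → Fin (M.r + 1)}, (∀ s, M.In (Y s) (i s)) → (∀ s, M.In (Y s) (b s)) →
          M.twist (-ε) Y b i = M.twist ε Y i b := by
        intro E _ _ Y i b hi hb
        refine Finset.prod_congr rfl fun s _ => ?_
        rw [neg_mul, zpow_neg, ← inv_zpow]
        congr 1
        refine inv_eq_of_mul_eq_one_right ?_
        rw [M.ratio_mul (hb s) (hi s) (hb s), M.ratio_self (hb s)]
      have hsplit : M.twist ε Z i bb =
          M.twist ε Z (M.valBase a (val p)) bb * M.twist (-ε) Z (M.valBase a (val p)) i := by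
        rw [hswap (fun s => ⟨_, hipt s⟩) (fun s => ⟨_, hφbpt p s⟩), mul_comm, M.twist_mul ε (c := bb)
          (fun s => ⟨_, hipt s⟩) (fun s => ⟨_, hφbpt p s⟩) fun s => M.in_base (Z s)]
      choose hg' hgv using fun j => hloc' (g j) (hgsec j) (hgG j)
      have hone : ∀ (E : Type u) [Field E] [Algebra k E] (i : F →ₐ[k] E),
          poleAt v.ring E i x N = 1 := fun E _ _ i => if_pos v.x_mem
      choose hgt hgR hgπ using fun j => evLoc_top R π hloc v.ring χ (hg' j)
      refine ⟨c, fun j => ⟨_, hgR j⟩, M.twist_ne_zero (-ε), ?_, fun j => ?_, fun j => ?_⟩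
      · -- the divisor
        have hRv : ∀ s z, ev (ci s z) ∈ R₂.1 := fun s z => hR2 (by
          exact hmR s z)
        rw [hc, M.vcls_twist, neg_smul, ← smul_neg]
        refine congrArg (ε • ·) ?_
        have hterm : ∀ s, M.ptDiv (M.fourVal a (val p) s) (R₂.restrict Ω₁) =
            -vcls R₂.1 (M.ratio (M.fourVal a (val p) s) (M.valBase a (val p) s) (i s)) := by
          intro s
          rw [M.ptDiv_eq (V := R₂.restrict Ω₁) ((ev.comp (ci s)).codRestrict _ (hRv s)) (hci s)
            (b := M.valBase a (val p) s) ⟨_, hψb s⟩]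
          show vcls R₂.1 _ - vcls R₂.1 (M.ratio _ (M.valBase a (val p) s) (M.valBase a (val p) s)) = _
          rw [M.ratio_self ⟨_, hψb s⟩, vcls_one, sub_zero, eq_neg_iff_add_eq_zero,
            ← vcls_mul _ (M.ratio_ne_zero _ _ _) (M.ratio_ne_zero _ _ _),
            M.ratio_mul ⟨_, hci s⟩ ⟨_, hψb s⟩ ⟨_, hci s⟩, M.ratio_self ⟨_, hci s⟩, vcls_one]
        have hth : M.thetaDiv η ξ (val p) R₂ =
            ∑ s, sgn4 s • M.ptDiv (M.fourVal a (val p) s) (R₂.restrict Ω₁) := by
          simp only [Model.thetaDiv, Fin.sum_univ_four, sgn4, Model.fourVal, a, Matrix.cons_val,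
            one_smul, neg_smul, add_zero, ← hη']
          rw [← sub_eq_add_neg, ← sub_eq_add_neg]
          rfl
        rw [hth, ← Finset.sum_neg_distrib]
        exact Finset.sum_congr rfl fun s _ => by rw [hterm s]; exact (zsmul_neg _ _).symm
      · -- the value over the trivial valuation ring
        have hgt' := hgt j
        rw [hqeq] at hgt'
        let Wel : locRing T₀ T₀.alg.val v.ring (qT p) := ⟨_, hW⟩
        let el : Fin n → locRing T₀ T₀.alg.val v.ring (qT p) := fun l =>
          ⟨incΩ k Ω₂ F (C j l), incΩ_mem_locRing T₀ T₀.alg.val v.ring (qT p)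
            (ValuationSubring.mem_top _)⟩ * ⟨_, @hsecTop p ε N (f l) (hfsec' l)⟩
        have hel : (⟨_, hgt'⟩ : locRing T₀ T₀.alg.val v.ring (qT p)) = (∑ l, el l) * Wel := by
          refine Subtype.ext ?_
          show g j * M.twist ε Z i bb * poleAt v.ring (Big k Ω₂ F) (incF k Ω₂ F) x N =
            ((∑ l, el l : locRing T₀ T₀.alg.val v.ring (qT p)) : Big k Ω₂ F) *
              M.twist (-ε) Z (M.valBase a (val p)) i
          rw [hone, mul_one, hsplit, hgdef, AddSubmonoidClass.coe_finsetSum, Finset.sum_mul,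
            Finset.sum_mul]
          refine Finset.sum_congr rfl fun l _ => ?_
          show C j l • f l * _ = incΩ k Ω₂ F (C j l) * (f l * _) * _
          rw [Algebra.smul_def, ← mul_assoc, ← mul_assoc]
          rfl
        have h1 : evLoc T₀ T₀.alg.val v.ring (qT p) ⟨_, hgt'⟩ = (∑ l, C j l * τ p l) * c := by
          rw [hel, map_mul, map_sum]
          refine congr_arg₂ (· * ·) (Finset.sum_congr rfl fun l _ => ?_) hWv
          show evLoc T₀ T₀.alg.val v.ring (qT p) (_ * _) = _
          rw [map_mul]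
          exact congrArg (· * τ p l) (evLoc_incΩ T₀ T₀.alg.val v.ring (qT p)
            ⟨C j l, ValuationSubring.mem_top _⟩)
        rw [← h1]
        rfl
      · -- the residue
        refine (hgπ j).trans ?_
        obtain ⟨ca, cb', hb, hfrac, hev⟩ := exists_reduced_fraction R π v.ring (π.comp χ) (hg' j)
        rw [hgv j, hone, mul_one] at hfrac
        change r j * _ = _ at hfrac
        rw [← (show ∑ l, A j l • incF k R.Res F (u l : F) = r j from hA j)] at hfrac
        have hu : ∀ l, (u l : F) ∈ v.ring := fun l => v.mem_ring_of_section (u l).2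
        have hca : ca = (∑ l, A j l ⊗ₜ[k] (⟨u l, hu l⟩ : v.ring)) * cb' := by
          refine bigSub_injective (Ω := R.Res) v.ring ?_
          rw [← hfrac, map_mul, map_sum]
          refine congrArg (· * _) (Finset.sum_congr rfl fun l _ => ?_)
          rw [bigSub, AlgHom.comp_apply, Algebra.TensorProduct.map_tmul, bigMap_tmul,
            Algebra.smul_def]
          rfl
        refine mul_right_cancel₀ hb (hev.trans ?_)
        rw [hca, map_mul, map_sum]
        refine congrArg (· * _) (Finset.sum_congr rfl fun l _ => ?_)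
        rw [Algebra.TensorProduct.lift_tmul, RatPoint.eval, dif_pos (hu l)]
        exact congrArg (A j l * ·) (π.commutes _)
    choose c T hc0 hcdiv hT hTπ using hpoint
    have hUdet : ∀ b, (Matrix.of fun l i =>
        algebraMap k R.Res ((pts (col b i)).eval (u l : F))).det ≠ 0 := by
      intro b
      rw [show (Matrix.of fun l i => algebraMap k R.Res ((pts (col b i)).eval (u l : F))) =
        (algebraMap k R.Res).mapMatrix (Matrix.of fun l i => (pts (col b i)).eval (u l : F)) from rfl,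
        ← RingHom.map_det, map_ne_zero_iff _ (algebraMap k R.Res).injective]
      intro hdet
      obtain ⟨d, hd, hd0⟩ := Matrix.exists_vecMul_eq_zero_iff.mpr hdet
      refine hd ?_
      have hev : ∀ i, (pts (col b i)).eval (∑ l, d l • (u l : F)) = 0 := fun i => by
        rw [RatPoint.eval_sum _ _ _ _ fun l _ => (pts (col b i)).mem_ring_of_section (u l).2]
        exact congrFun hd0 i
      have hz : (∑ l, d l • (u l : F)) ∈ sections (poleDivN k x N) :=
        sum_mem fun l _ => Submodule.smul_mem _ _ (u l).2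
      have h0 := hw (pts (Sum.inl b)) (by cases b <;> simp [pts]) _ hz (by
          have h := hev (e.symm none)
          simpa [col] using h) fun l => by
          have h := hev (e.symm (some l))
          simpa [col, pts] using h
      have h2 : ∑ l, d l • u l = 0 := Subtype.ext (by
        rw [AddSubmonoidClass.coe_finsetSum]
        exact h0)
      funext l
      have h3 := congrArg (fun z => u.repr z l) h2
      simpa [Finsupp.single_apply] using h3
    let MT : Bool → Matrix (Fin n) (Fin n) R.alg := fun b => Matrix.of fun j i => T (col b i) j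
    have hMTπ : ∀ b, π.toRingHom.mapMatrix (MT b) = Matrix.of A *
        Matrix.of fun l i => algebraMap k R.Res ((pts (col b i)).eval (u l : F)) := fun b => by
      ext j i
      simp only [RingHom.mapMatrix_apply, Matrix.map_apply, Matrix.mul_apply, Matrix.of_apply, MT]
      exact hTπ (col b i) j
    have hMTval : ∀ b, (R.alg.val : R.alg →+* Ω₂).mapMatrix (MT b) =
        C * Mτ b * Matrix.diagonal fun i => c (col b i) := fun b => by
      ext j i
      rw [Matrix.mul_diagonal, Matrix.mul_apply]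
      exact hT (col b i) j
    have hprod : ∀ b, ((MT b).det : Ω₂) = C.det * (Mτ b).det * ∏ i, c (col b i) := fun b => by
      rw [show ((MT b).det : Ω₂) = (R.alg.val : R.alg →+* Ω₂) (MT b).det from rfl, RingHom.map_det,
        hMTval b, Matrix.det_mul, Matrix.det_mul, Matrix.det_diagonal]
    have hpiNe : ∀ b, π (MT b).det ≠ 0 := fun b => by
      rw [show π (MT b).det = π.toRingHom (MT b).det from rfl, RingHom.map_det, hMTπ b,
        Matrix.det_mul]
      exact mul_ne_zero hAdet (hUdet b)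
    have hdetne : ∀ b, ((MT b).det : Ω₂) ≠ 0 := fun b h =>
      hpiNe b ((R.res_eq_zero_iff _).mpr (Or.inl h))
    have hdet2 : ∀ b, C.det * (Mτ b).det ≠ 0 ∧ (Mτ b).det ≠ 0 := fun b => by
      have h := hdetne b
      rw [hprod b] at h
      exact ⟨left_ne_zero_of_mul h, right_ne_zero_of_mul (left_ne_zero_of_mul h)⟩
    refine ⟨fun b => (hdet2 b).2, ?_⟩
    have hv0 : ∀ b, vcls R₂.1 C.det + vcls R₂.1 (Mτ b).det +
        ∑ i, ε • M.thetaDiv η ξ (val (col b i)) R₂ = 0 := fun b => by
      have h : vcls R₂.1 ((MT b).det : Ω₂) = 0 := (vcls_eq_zero_iff (hdetne b)).mpr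
        ⟨hR2 (MT b).det.2, hR2 (by_contra fun hn => hpiNe b (hloc _ hn))⟩
      rw [hprod b, vcls_mul _ (hdet2 b).1 (Finset.prod_ne_zero_iff.mpr fun i _ => hc0 _),
        vcls_mul _ (left_ne_zero_of_mul (hdet2 b).1) (hdet2 b).2,
        vcls_prod _ _ _ fun i _ => hc0 _] at h
      rwa [← Finset.sum_congr rfl fun i _ => hcdiv (col b i)]
    have hsum : ∀ b, ∑ i, ε • M.thetaDiv η ξ (val (col b i)) R₂ =
        ε • M.thetaDiv η ξ (val (Sum.inl b)) R₂ +
          ∑ l, ε • M.thetaDiv η ξ (val (Sum.inr l)) R₂ := fun b => by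
      rw [← e.symm.sum_comp, Fintype.sum_option]
      simp [col]
    have h0 := hv0 false
    have h1 := hv0 true
    rw [hsum, hvalF _ rfl] at h0
    rw [hsum, hvalT _ rfl] at h1
    rw [smul_sub]
    linear_combination (norm := abel) h1 - h0
  have hne : ∀ b, (Mτ b).det ≠ 0 := (key (Val.top Ω₁ Ω₂)).1
  refine ⟨1, one_pos, ((Mτ false).det / (Mτ true).det) ^ ε,
    zpow_ne_zero _ (div_ne_zero (hne _) (hne _)), funext fun R₂ => ?_⟩
  show (1 : ℕ) • (M.thetaDiv η ξ P₁ R₂ - M.thetaDiv η ξ P₀ R₂) = vcls R₂.1 _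
  rw [one_nsmul, vcls_zpow_twist _ (div_ne_zero (hne _) (hne _)), vcls_div _ (hne _) (hne _),
    ← (key R₂).2, smul_smul]
  rcases hε with rfl | rfl <;> simp

end Model

end Fermat.Agent.AbVar
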