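import Fermat.Agent.AbVar.Cube.Twist

/-!
# Twisted sections at the local rings of a second difference
-/

set_option autoImplicit false
set_option linter.style.haveILetI false
set_option linter.unusedSectionVars false

noncomputable section

open scoped TensorProduct Classical

namespace Fermat.Agent.AbVar

universe u

namespace Model

variable {K : Type u} [Field K] (M : Model K) {k : Type u} [Field k] [IsAlgClosed k] [Algebra K k]
  {Ω F κ : Type u} [Field Ω] [Algebra k Ω] [Algebra K Ω] [IsScalarTower K k Ω] [Field F]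
  [Algebra k F] [Algebra K F] [IsScalarTower K k F]

/-- The points of the second difference in the big field. -/
def fourPt (P : M.Pt F) (a : Fin 4 → M.Pt Ω) (s : Fin 4) : M.Pt (Big k Ω F) :=
  M.sumPt (k := k) P (a s)

/-- The bases of the four points. -/
def fourBase (P : M.Pt F) (a : Fin 4 → M.Pt Ω) (s : Fin 4) : Fin (M.r + 1) :=
  M.base (M.fourPt (k := k) P a s)

/-- The twisting divisor. -/
def secDiv (ε : ℤ) (x : F) (N : ℕ) (P : M.Pt F) (a : Fin 4 → M.Pt Ω) : CDiv Ω (Big k Ω F) :=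
  ε • resCDiv Ω (Big k Ω F) K (∑ s, sgn4 s • M.ptDiv (M.fourPt (k := k) P a s)) +
    poleDivN Ω (incF k Ω F x) N

theorem sections_regular {ε : ℤ} {x : F} {N : ℕ} {P : M.Pt F} {a : Fin 4 → M.Pt Ω}
    {g : Big k Ω F} (hg : g ∈ sections (M.secDiv ε x N P a)) (V : Val Ω (Big k Ω F))
    {i : Fin 4 → Fin (M.r + 1)}
    (hi : ∀ s, ∃ φ : M.O (i s) →ₐ[K] Big k Ω F, (∀ z, φ z ∈ V.1) ∧
      M.pt (i s) φ = M.fourPt (k := k) P a s) :
    g * (M.twist ε (M.fourPt (k := k) P a) i (M.fourBase (k := k) P a) *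
      poleElt V.1 (incF k Ω F x) N) ∈ V.1 := by
  have hp : poleElt V.1 (incF k Ω F x) N ≠ 0 := by
    unfold poleElt
    split_ifs with h
    · exact one_ne_zero
    · exact pow_ne_zero _ (inv_ne_zero fun h0 => h (h0 ▸ zero_mem _))
  refine hg V _ (mul_ne_zero (M.twist_ne_zero ε) hp) ?_
  rw [secDiv, Pi.add_apply, vcls_mul _ (M.twist_ne_zero ε) hp, M.vcls_twist]
  congr 1
  rw [Pi.smul_apply]
  refine congrArg (ε • ·) ?_
  show (∑ s, sgn4 s • M.ptDiv (M.fourPt (k := k) P a s)) (V.restrict Ω) = _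
  rw [Finset.sum_apply]
  refine Finset.sum_congr rfl fun s _ => ?_
  obtain ⟨φ, hφ, hpt⟩ := hi s
  rw [Pi.smul_apply, M.ptDiv_eq (V := V.restrict Ω) (φ.codRestrict _ hφ) hpt (M.in_base _),
    M.ratio_self (M.in_base _), vcls_one, sub_zero]
  rfl

variable [Field κ] [Algebra k κ] [Algebra K κ] [IsScalarTower K k κ] (R : Val k Ω)
  (π : R.alg →ₐ[k] κ) (hloc : ∀ r : R.alg, (r : Ω)⁻¹ ∉ R.1 → π r = 0)

/-- The pole element at a subring. -/
def poleAt (B : Subalgebra k F) (E : Type u) [Field E] [Algebra k E] (f : F →ₐ[k] E) (x : F)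
    (N : ℕ) : E := if x ∈ B then 1 else f x⁻¹ ^ N

theorem poleAt_spec (B : Subalgebra k F) (hB : ∀ y : F, y ∈ B ∨ y⁻¹ ∈ B) {L : Type u} [Field L]
    [Algebra k L] [Algebra κ L] [IsScalarTower k κ L] (q : B →ₐ[k] L) (x : F) (N : ℕ) :
    poleAt B (Big k Ω F) (incF k Ω F) x N ∈ locRing R π B q := by
  unfold poleAt
  split_ifs with h
  · exact one_mem _
  · exact pow_mem (incF_mem_locRing R π B q ⟨x⁻¹, (hB x).resolve_left h⟩) N

include hloc

set_option maxHeartbeats 800000 in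
/-- At a point, suitable charts turn twisted sections into elements of the local ring. -/
theorem exists_local (hπ : Function.Surjective π) {P : M.Pt F} {a : Fin 4 → M.Pt Ω}
    (h01 : M.redK R π (a 0) = M.redK R π (a 1)) (h23 : M.redK R π (a 2) = M.redK R π (a 3))
    {ε : ℤ} {x : F} {N : ℕ} {jT : Fin (M.r + 1)} (φT : M.O jT →ₐ[K] (⊤ : Subalgebra k F))
    (hφT : M.pt jT ((((⊤ : Subalgebra k F).val).restrictScalars K).comp φT) = P)
    {iG : Fin 4 → Fin (M.r + 1)} (φG : ∀ s, M.O (iG s) →ₐ[K] Big k Ω F)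
    (hG01 : iG 0 = iG 1) (hG23 : iG 2 = iG 3)
    (hG : ∀ s, M.pt (iG s) (φG s) = M.fourPt (k := k) P a s)
    (hGmem : ∀ s z, φG s z ∈ locRing R π (⊤ : Subalgebra k F) (gaussPt k κ F))
    (hGval : ∀ s, ∃ ψ : M.O (iG s) →ₐ[K] Big k κ F,
      M.pt (iG s) ψ = M.sumVal R π ⊤ (gaussPt k κ F) φT (a s) ∧
        ∀ z, evLoc R π ⊤ (gaussPt k κ F) ⟨φG s z, hGmem s z⟩ = ψ z)
    (B : Subalgebra k F) (hB : ∀ y : F, y ∈ B ∨ y⁻¹ ∈ B) (q : B →ₐ[k] κ) {j : Fin (M.r + 1)}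
    (φ : M.O j →ₐ[K] B) (hφ : M.pt j ((B.val.restrictScalars K).comp φ) = P) :
    ∃ (i : Fin 4 → Fin (M.r + 1)) (φ' : ∀ s, M.O (i s) →ₐ[K] Big k Ω F),
      (∀ s, M.pt (i s) (φ' s) = M.fourPt (k := k) P a s) ∧ (∀ s z, φ' s z ∈ locRing R π B q) ∧
      ∀ g ∈ sections (M.secDiv ε x N P a),
        ∀ hg : g * M.twist ε (M.fourPt (k := k) P a) iG (M.fourBase (k := k) P a) ∈
            locRing R π (⊤ : Subalgebra k F) (gaussPt k κ F),
          ∃ h : g * M.twist ε (M.fourPt (k := k) P a) i (M.fourBase (k := k) P a) *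
              poleAt B (Big k Ω F) (incF k Ω F) x N ∈ locRing R π B q,
            evLoc R π ⊤ (gaussPt k κ F) ⟨_, locRing_le_gauss R π B q h⟩ =
              evLoc R π ⊤ (gaussPt k κ F) ⟨_, hg⟩ * poleAt B (Big k κ F) (incF k κ F) x N := by
  haveI := isIntegrallyClosed_of_mem_or_inv B hB
  have hBf := exists_div_of_mem_or_inv B hB
  have hq : Function.Surjective (evLoc R π B q) := fun c => by
    obtain ⟨r, rfl⟩ := hπ c
    exact ⟨_, evLoc_incΩ R π B q r⟩
  -- charts shared in pairs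
  set val : Fin 4 → M.Pt κ := fun s => M.sumVal R π B q φ (a s) with hval
  have hv01 : val 0 = val 1 := by simp only [hval, Model.sumVal, h01]
  have hv23 : val 2 = val 3 := by simp only [hval, Model.sumVal, h23]
  obtain ⟨i₀, ψ₀, hψ₀⟩ := M.exists_pt (val 0)
  obtain ⟨i₂, ψ₂, hψ₂⟩ := M.exists_pt (val 2)
  let i : Fin 4 → Fin (M.r + 1) := ![i₀, i₀, i₂, i₂]
  have hex : ∀ s, ∃ φ' : M.O (i s) →ₐ[K] Big k Ω F, M.pt (i s) φ' = M.fourPt (k := k) P a s ∧
      ∀ z, φ' z ∈ locRing R π B q := by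
    intro s
    obtain ⟨ψ, hψ⟩ : ∃ ψ : M.O (i s) →ₐ[K] κ, M.pt (i s) ψ = val s := by
      fin_cases s
      exacts [⟨ψ₀, hψ₀⟩, ⟨ψ₀, hψ₀.trans hv01⟩, ⟨ψ₂, hψ₂⟩, ⟨ψ₂, hψ₂.trans hv23⟩]
    obtain ⟨φ', h1, h2, -⟩ := M.exists_chart_loc R π B q hBf hloc hq φ (a s) ψ hψ
    exact ⟨φ', h1.trans (by rw [hφ]; rfl), h2⟩
  choose φ' hφ'pt hφ'mem using hex
  refine ⟨i, φ', hφ'pt, hφ'mem, fun g hsec hg => ?_⟩
  -- the change of charts at the Gauss valuation
  let S := (locRing R π (⊤ : Subalgebra k F) (gaussPt k κ F)).restrictScalars K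
  let ev : S →ₐ[K] Big k κ F := (evLoc R π ⊤ (gaussPt k κ F)).restrictScalars K
  let cG : ∀ s, M.O (iG s) →ₐ[K] S := fun s => (φG s).codRestrict S (hGmem s)
  let cI : ∀ s, M.O (i s) →ₐ[K] S := fun s =>
    (φ' s).codRestrict S fun z => locRing_le_gauss R π B q (hφ'mem s z)
  set ZG : Fin 4 → M.Pt (Big k κ F) := fun s => M.sumVal R π ⊤ (gaussPt k κ F) φT (a s) with hZG
  have hcG : ∀ s, M.pt (iG s) (ev.comp (cG s)) = ZG s := fun s => by
    obtain ⟨ψ, h1, h2⟩ := hGval s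
    rw [show ev.comp (cG s) = ψ from AlgHom.ext h2, h1]
  obtain ⟨hT, hTv⟩ := M.hom_twist ε (Z := M.fourPt (k := k) P a) (Z' := ZG) (i := iG) (b := i) ev cG cI hG
    hφ'pt hcG
  replace hTv := hTv.trans (M.twist_pair ε (Z := ZG) (i := iG) (b := i)
    (by simp only [hZG, Model.sumVal, h01]) (by simp only [hZG, Model.sumVal, h23])
    hG01 hG23 rfl rfl)
  set T := M.twist ε (M.fourPt (k := k) P a) iG i with hTdef
  have hT0 : T ≠ 0 := M.twist_ne_zero ε
  have hTi : T⁻¹ ∈ locRing R π (⊤ : Subalgebra k F) (gaussPt k κ F) :=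
    inv_mem_locRing R π ⊤ (gaussPt k κ F) (x := ⟨T, hT⟩) (by
      rw [show evLoc R π ⊤ (gaussPt k κ F) ⟨T, hT⟩ = 1 from hTv]
      exact one_ne_zero)
  have hTiv : evLoc R π ⊤ (gaussPt k κ F) ⟨T⁻¹, hTi⟩ = 1 := by
    have h := congrArg (evLoc R π ⊤ (gaussPt k κ F)) (show
      (⟨T, hT⟩ : locRing R π (⊤ : Subalgebra k F) (gaussPt k κ F)) * ⟨T⁻¹, hTi⟩ = 1 from
        Subtype.ext (mul_inv_cancel₀ hT0))
    rwa [map_mul, map_one, show evLoc R π ⊤ (gaussPt k κ F) ⟨T, hT⟩ = 1 from hTv, one_mul] at h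
  have hsplit : M.twist ε (M.fourPt (k := k) P a) i (M.fourBase (k := k) P a) =
      M.twist ε (M.fourPt (k := k) P a) iG (M.fourBase (k := k) P a) * T⁻¹ := by
    rw [eq_mul_inv_iff_mul_eq₀ hT0, mul_comm, hTdef,
      M.twist_mul ε (c := M.fourBase (k := k) P a) (fun s => ⟨_, hG s⟩) (fun s => ⟨_, hφ'pt s⟩)
        fun s => M.in_base (M.fourPt (k := k) P a s)]
  -- membership at the point
  set pE := poleAt B (Big k Ω F) (incF k Ω F) x N with hpE
  have hpB := poleAt_spec (Ω := Ω) R π B hB q x N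
  have hG' : g * M.twist ε (M.fourPt (k := k) P a) i (M.fourBase (k := k) P a) * pE ∈
      locRing R π (⊤ : Subalgebra k F) (gaussPt k κ F) := by
    rw [hsplit, ← mul_assoc]
    exact mul_mem (mul_mem hg hTi) (locRing_le_gauss R π B q hpB)
  have hmem : g * M.twist ε (M.fourPt (k := k) P a) i (M.fourBase (k := k) P a) * pE ∈ locRing R π B q := by
    refine mem_locRing_of R π B q hBf hloc hG' fun V hle hΩ => ?_
    let V' : Val Ω (Big k Ω F) := ⟨V.1, hΩ⟩
    have h1 := M.sections_regular hsec V' (i := i) fun s =>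
      ⟨φ' s, fun z => hle (hφ'mem s z), hφ'pt s⟩
    by_cases hy : incF k Ω F x ∈ V.1
    · rw [poleElt, if_pos hy, mul_one] at h1
      exact mul_mem h1 (hle hpB)
    · have hx : x ∉ B := fun h => hy (hle (incF_mem_locRing R π B q ⟨x, h⟩))
      rw [poleElt, if_neg hy, ← mul_assoc] at h1
      rw [hpE, poleAt, if_neg hx, map_inv₀]
      exact h1
  refine ⟨hmem, ?_⟩
  have hpv : evLoc R π ⊤ (gaussPt k κ F) ⟨pE, locRing_le_gauss R π B q hpB⟩ =
      poleAt B (Big k κ F) (incF k κ F) x N := by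
    by_cases hx : x ∈ B
    · rw [poleAt, if_pos hx]
      refine (congrArg _ (Subtype.ext (a2 := (1 : locRing R π (⊤ : Subalgebra k F)
        (gaussPt k κ F))) ?_)).trans (map_one _)
      show pE = 1
      rw [hpE, poleAt, if_pos hx]
    · rw [poleAt, if_neg hx]
      refine (congrArg _ (Subtype.ext (a2 := (⟨_, incF_mem_locRing R π ⊤ (gaussPt k κ F)
        ⟨x⁻¹, trivial⟩⟩ : locRing R π (⊤ : Subalgebra k F) (gaussPt k κ F)) ^ N) ?_)).trans ?_
      · show pE = _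
        rw [hpE, poleAt, if_neg hx, SubmonoidClass.coe_pow]
      · rw [map_pow, evLoc_incF]
        rfl
  refine (congrArg _ (Subtype.ext (a2 := (⟨_, hg⟩ : locRing R π (⊤ : Subalgebra k F)
    (gaussPt k κ F)) * ⟨T⁻¹, hTi⟩ * ⟨pE, locRing_le_gauss R π B q hpB⟩) ?_)).trans ?_
  · show g * _ * pE = g * _ * T⁻¹ * pE
    exact (congrArg (g * · * pE) hsplit).trans (by rw [← mul_assoc])
  · rw [map_mul, map_mul, hTiv, mul_one, hpv]

end Model

end Fermat.Agent.AbVar
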