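import Fermat.Agent.AbVar.Cube.RigidLocal

/-!
# Values of twisted sections at rational points, and their regularity at the Gauss valuation
-/

set_option autoImplicit false
set_option linter.style.haveILetI false
set_option linter.unusedSectionVars false

noncomputable section

open scoped TensorProduct Classical

namespace Fermat.Agent.AbVar

universe u

open Fermat.Agent.MCurve (IsFinOver)

namespace Model

variable {K : Type u} [Field K] (M : Model K) {k : Type u} [Field k] [IsAlgClosed k] [Algebra K k]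
  {Ω F κ : Type u} [Field Ω] [Algebra k Ω] [Algebra K Ω] [IsScalarTower K k Ω] [Field F]
  [Algebra k F] [Algebra K F] [IsScalarTower K k F]

/-- The point has a chart in a subalgebra containing an element or its inverse. -/
theorem exists_chart_sub (B : Subalgebra k F) (hB : ∀ y : F, y ∈ B ∨ y⁻¹ ∈ B) (P : M.Pt F) :
    ∃ (j : Fin (M.r + 1)) (φ : M.O j →ₐ[K] B),
      M.pt j ((B.val.restrictScalars K).comp φ) = P := by
  obtain ⟨j, φ, hφ, hpt⟩ := M.exists_chart (ValuationSubring.mk B.toSubring hB)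
    (fun c => by
      show algebraMap K F c ∈ B
      rw [IsScalarTower.algebraMap_apply K k F c]
      exact B.algebraMap_mem _) P
  exact ⟨j, φ.codRestrict (B.restrictScalars K) hφ, hpt⟩

theorem redK_top_tower (a : M.Pt Ω) : M.redK (Val.top k Ω) (Val.top k Ω).alg.val a = a := by
  obtain ⟨i, φ, rfl⟩ := M.exists_pt a
  exact M.redK_pt (Val.top k Ω) (Val.top k Ω).alg.val i φ φ (fun z => ValuationSubring.mem_top _)
    fun _ => rfl

/-- The value of the four points at a rational point of the curve. -/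
def fourVal (a : Fin 4 → M.Pt Ω) (P' : M.Pt k) (s : Fin 4) : M.Pt Ω :=
  M.map (IsScalarTower.toAlgHom K k Ω) P' + a s

/-- The bases of the values. -/
def valBase (a : Fin 4 → M.Pt Ω) (P' : M.Pt k) (s : Fin 4) : Fin (M.r + 1) :=
  M.base (M.fourVal a P' s)

set_option maxHeartbeats 800000 in
/-- Twisted sections at a rational point, over the trivial valuation ring of the constants. -/
theorem exists_topValue {x : F} (v : RatPoint k F x) {P : M.Pt F} {P' : M.Pt k}
    {j : Fin (M.r + 1)} (φ : M.O j →ₐ[K] v.ring)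
    (hφ : M.pt j ((v.ring.val.restrictScalars K).comp φ) = P)
    (hφ' : M.pt j ((v.val.restrictScalars K).comp φ) = P') (a : Fin 4 → M.Pt Ω) :
    ∃ φb : ∀ s, M.O (M.valBase a P' s) →ₐ[K] Big k Ω F,
      (∀ s, M.pt (M.valBase a P' s) (φb s) = M.fourPt (k := k) P a s) ∧
      (∀ s, ∃ (hmem : ∀ z, φb s z ∈ locRing (Val.top k Ω) (Val.top k Ω).alg.val v.ring
            ((Algebra.ofId k Ω).comp v.val)) (ψ : M.O (M.valBase a P' s) →ₐ[K] Ω),
          M.pt (M.valBase a P' s) ψ = M.fourVal a P' s ∧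
            ∀ z, evLoc (Val.top k Ω) (Val.top k Ω).alg.val v.ring
              ((Algebra.ofId k Ω).comp v.val) ⟨φb s z, hmem z⟩ = ψ z) ∧
      ∀ {ε : ℤ} {N : ℕ}, ∀ g ∈ sections (M.secDiv ε x N P a),
        g * M.twist ε (M.fourPt (k := k) P a) (M.valBase a P') (M.fourBase (k := k) P a) ∈
          locRing (Val.top k Ω) (Val.top k Ω).alg.val v.ring ((Algebra.ofId k Ω).comp v.val) := by
  haveI := isIntegrallyClosed_of_mem_or_inv v.ring v.mem_or_inv
  have hBf := exists_div_of_mem_or_inv v.ring v.mem_or_inv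
  set T := Val.top k Ω
  set q := (Algebra.ofId k Ω).comp v.val
  have hloc : ∀ r : T.alg, (r : Ω)⁻¹ ∉ T.1 → T.alg.val r = 0 := fun r hr =>
    absurd (ValuationSubring.mem_top _) hr
  have hq : Function.Surjective (evLoc T T.alg.val v.ring q) := fun c =>
    ⟨_, evLoc_incΩ T T.alg.val v.ring q ⟨c, ValuationSubring.mem_top _⟩⟩
  have hval : ∀ s, M.sumVal T T.alg.val v.ring q φ (a s) = M.fourVal a P' s := fun s => by
    rw [Model.sumVal, M.redK_top_tower, Model.fourVal, ← hφ', M.map_pt]
    refine congr_arg₂ (· + ·) rfl ?_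
    exact M.map_id (a s)
  have hex : ∀ s, ∃ φb : M.O (M.valBase a P' s) →ₐ[K] Big k Ω F,
      M.pt (M.valBase a P' s) φb = M.fourPt (k := k) P a s ∧
      ∃ (hmem : ∀ z, φb z ∈ locRing T T.alg.val v.ring q)
        (ψ : M.O (M.valBase a P' s) →ₐ[K] Ω),
          M.pt (M.valBase a P' s) ψ = M.fourVal a P' s ∧
            ∀ z, evLoc T T.alg.val v.ring q ⟨φb z, hmem z⟩ = ψ z := by
    intro s
    obtain ⟨ψ, hψ⟩ := M.in_base (M.fourVal a P' s)
    obtain ⟨φb, h1, h2, h3⟩ := M.exists_chart_loc T T.alg.val v.ring q hBf hloc hq φ (a s) ψ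
      (hψ.trans (hval s).symm)
    exact ⟨φb, h1.trans (by rw [hφ]; rfl), h2, ψ, hψ, h3⟩
  choose φb hpt hrest using hex
  refine ⟨φb, hpt, hrest, fun {ε N} g hg => ?_⟩
  have key : ∀ V : Val Ω (Big k Ω F),
      (∀ s z, φb s z ∈ V.1) → incF k Ω F x ∈ V.1 →
        g * M.twist ε (M.fourPt (k := k) P a) (M.valBase a P') (M.fourBase (k := k) P a) ∈ V.1 := by
    intro V hV hy
    have h1 := M.sections_regular hg V fun s => ⟨φb s, hV s, hpt s⟩
    rwa [poleElt, if_pos hy, mul_one] at h1
  refine mem_locRing_of T T.alg.val v.ring q hBf hloc ?_ fun V hle hΩ => ?_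
  · refine key ⟨(gauss (F := F) T T.alg.val).1, fun c =>
      incΩ_mem_locRing T T.alg.val ⊤ (gaussPt k Ω F) (ValuationSubring.mem_top c)⟩
      (fun s z => ?_) ?_
    · obtain ⟨hm, -⟩ := hrest s
      exact locRing_le_gauss T T.alg.val v.ring q (hm z)
    · exact locRing_le_gauss T T.alg.val v.ring q (incF_mem_locRing T T.alg.val v.ring q ⟨x, v.x_mem⟩)
  · refine key ⟨V.1, hΩ⟩ (fun s z => ?_) (hle (incF_mem_locRing T T.alg.val v.ring q ⟨x, v.x_mem⟩))
    obtain ⟨hm, -⟩ := hrest s
    exact hle (hm z)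

variable [Field κ] [Algebra k κ] [Algebra K κ] [IsScalarTower K k κ] [IsAlgClosed κ] (R : Val k Ω)
  (π : R.alg →ₐ[k] κ) (hloc : ∀ r : R.alg, (r : Ω)⁻¹ ∉ R.1 → π r = 0)

include hloc

set_option maxHeartbeats 800000 in
/-- The residue at the Gauss valuation of a twisted section is a section over the residue field. -/
theorem residue_mem_poleSections (hπ : Function.Surjective π) {x : F} (hx : IsFinOver k x)
    {P : M.Pt F} {a : Fin 4 → M.Pt Ω}
    (h01 : M.redK R π (a 0) = M.redK R π (a 1)) (h23 : M.redK R π (a 2) = M.redK R π (a 3))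
    {ε : ℤ} {N : ℕ} {jT : Fin (M.r + 1)} (φT : M.O jT →ₐ[K] (⊤ : Subalgebra k F))
    (hφT : M.pt jT ((((⊤ : Subalgebra k F).val).restrictScalars K).comp φT) = P)
    {iG : Fin 4 → Fin (M.r + 1)} (φG : ∀ s, M.O (iG s) →ₐ[K] Big k Ω F)
    (hG01 : iG 0 = iG 1) (hG23 : iG 2 = iG 3)
    (hG : ∀ s, M.pt (iG s) (φG s) = M.fourPt (k := k) P a s)
    (hGmem : ∀ s z, φG s z ∈ locRing R π (⊤ : Subalgebra k F) (gaussPt k κ F))
    (hGval : ∀ s, ∃ ψ : M.O (iG s) →ₐ[K] Big k κ F,
      M.pt (iG s) ψ = M.sumVal R π ⊤ (gaussPt k κ F) φT (a s) ∧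
        ∀ z, evLoc R π ⊤ (gaussPt k κ F) ⟨φG s z, hGmem s z⟩ = ψ z)
    {g : Big k Ω F} (hg : g ∈ sections (M.secDiv ε x N P a))
    (hgG : g * M.twist ε (M.fourPt (k := k) P a) iG (M.fourBase (k := k) P a) ∈
      locRing R π (⊤ : Subalgebra k F) (gaussPt k κ F)) :
    evLoc R π ⊤ (gaussPt k κ F) ⟨_, hgG⟩ ∈ sections (poleDivN κ (incF k κ F x) N) := by
  intro W z hz hWz
  by_cases hW : W.1 = ⊤
  · rw [hW]; exact ValuationSubring.mem_top _
  set y := incF k κ F x
  have hy := isFinOver_incF hx κ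
  haveI := hy.finite
  haveI : Algebra.IsAlgebraic (IntermediateField.adjoin κ ({y} : Set (Big k κ F))) (Big k κ F) :=
    Algebra.IsAlgebraic.of_finite _ _
  let B : Subalgebra k F := (W.alg.restrictScalars k).comap (incF k κ F)
  have hB : ∀ t : F, t ∈ B ∨ t⁻¹ ∈ B := fun t => by
    rcases W.1.mem_or_inv_mem (incF k κ F t) with h | h
    · exact Or.inl h
    · refine Or.inr ?_
      show incF k κ F t⁻¹ ∈ W.1
      rw [map_inv₀]
      exact h
  choose qf hqf using fun t : B => exists_res_eq_const y W hW ⟨incF k κ F (t : F), t.2⟩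
  letI : Algebra k W.Res := ((algebraMap κ W.Res).comp (algebraMap k κ)).toAlgebra
  haveI : IsScalarTower k κ W.Res := IsScalarTower.of_algebraMap_eq fun _ => rfl
  have hinj := (algebraMap κ W.Res).injective
  let q : B →ₐ[k] κ :=
    { toFun := qf
      map_one' := hinj (by
        rw [← hqf, map_one, ← map_one W.res]
        exact congrArg W.res (Subtype.ext (map_one (incF k κ F))))
      map_mul' := fun s t => hinj (by
        rw [← hqf, map_mul, ← hqf, ← hqf, ← map_mul]
        exact congrArg W.res (Subtype.ext (map_mul (incF k κ F) (s : F) t)))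
      map_zero' := hinj (by
        rw [← hqf, _root_.map_zero, ← _root_.map_zero W.res]
        exact congrArg W.res (Subtype.ext (_root_.map_zero (incF k κ F))))
      map_add' := fun s t => hinj (by
        rw [← hqf, map_add, ← hqf, ← hqf, ← map_add]
        exact congrArg W.res (Subtype.ext (map_add (incF k κ F) (s : F) t)))
      commutes' := fun c => hinj (by
        rw [← hqf, ← W.res.commutes]
        refine congrArg W.res (Subtype.ext ?_)
        show incF k κ F (algebraMap k F c) = algebraMap κ (Big k κ F) (algebraMap k κ c)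
        rw [AlgHom.commutes, ← IsScalarTower.algebraMap_apply]) }
  obtain ⟨j, φ, hφ⟩ := M.exists_chart_sub B hB P
  obtain ⟨i, φ', -, -, hloc'⟩ := M.exists_local R π hloc hπ h01 h23 φT hφT φG hG01 hG23 hG hGmem hGval
    B hB q φ hφ (ε := ε) (x := x) (N := N)
  obtain ⟨hmem, hval⟩ := hloc' g hg hgG
  obtain ⟨c, b, hb, hfrac, -⟩ := exists_reduced_fraction R π B q hmem
  rw [hval] at hfrac
  -- the tensor product lands in the valuation ring
  let m : κ ⊗[k] B →ₐ[k] W.alg.restrictScalars k :=
    (bigSub B).codRestrict _ fun t => by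
      induction t using TensorProduct.induction_on with
      | zero => rw [_root_.map_zero]; exact zero_mem _
      | tmul c b =>
        rw [bigSub, AlgHom.comp_apply, Algebra.TensorProduct.map_tmul, bigMap_tmul]
        exact mul_mem (W.2 c) b.2
      | add s t hs ht => rw [map_add]; exact add_mem hs ht
  have hm : ∀ t, W.res (m t) = algebraMap κ W.Res
      (Algebra.TensorProduct.lift (IsScalarTower.toAlgHom k κ κ) q (fun _ _ => Commute.all _ _) t) :=
    fun t => DFunLike.congr_fun (Algebra.TensorProduct.ext' fun c b => by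
      show W.res (m (c ⊗ₜ[k] b)) = algebraMap κ W.Res
        (Algebra.TensorProduct.lift _ q (fun _ _ => Commute.all _ _) (c ⊗ₜ[k] b))
      rw [Algebra.TensorProduct.lift_tmul, map_mul, show algebraMap κ W.Res (q b) = W.res _ from
        (hqf b).symm, show algebraMap κ W.Res (IsScalarTower.toAlgHom k κ κ c) =
        W.res (algebraMap κ W.alg c) from (W.res.commutes c).symm, ← map_mul]
      refine congrArg W.res (Subtype.ext ?_)
      show bigSub B (c ⊗ₜ[k] b) = _
      rw [bigSub, AlgHom.comp_apply, Algebra.TensorProduct.map_tmul, bigMap_tmul]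
      rfl : (W.res.restrictScalars k).comp m =
        (IsScalarTower.toAlgHom k κ W.Res).comp
          (Algebra.TensorProduct.lift (IsScalarTower.toAlgHom k κ κ) q fun _ _ => Commute.all _ _)) t
  have hu : (bigSub B b)⁻¹ ∈ W.1 := by
    by_contra hn
    refine hb (hinj ?_)
    rw [_root_.map_zero, ← hm]
    exact W.res_local _ hn
  have hb0 : bigSub B b ≠ 0 := fun h0 => hb (hinj (by
    rw [_root_.map_zero, ← hm]
    exact (W.res_eq_zero_iff _).mpr (Or.inl h0)))
  have hr : evLoc R π ⊤ (gaussPt k κ F) ⟨_, hgG⟩ * poleAt B (Big k κ F) (incF k κ F) x N ∈ W.1 := by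
    have h2 := mul_mem (m c).2 hu
    change bigSub B c * _ ∈ W.1 at h2
    rwa [← hfrac, mul_inv_cancel_right₀ hb0] at h2
  refine mem_mul_of_vcls_eq ?_ hz hWz ?_
  · unfold poleElt
    split_ifs with h
    · exact one_ne_zero
    · exact pow_ne_zero _ (inv_ne_zero fun h0 => h (h0 ▸ zero_mem _))
  · rw [poleElt]
    by_cases h : x ∈ B
    · rw [poleAt, if_pos h] at hr
      rwa [if_pos (show y ∈ W.1 from h)]
    · rw [poleAt, if_neg h, map_inv₀] at hr
      rwa [if_neg (show y ∉ W.1 from h)]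

end Model

end Fermat.Agent.AbVar
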