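import Fermat.Agent.AbVar.Cube.Values
import Fermat.Agent.AbVar.Cube.Curve

/-!
# The product of ratios twisting the sections of a second difference
-/

set_option autoImplicit false
set_option linter.style.haveILetI false
set_option linter.unusedSectionVars false

noncomputable section

open scoped TensorProduct

namespace Fermat.Agent.AbVar

universe u

/-- The signs of a second difference. -/
def sgn4 : Fin 4 → ℤ := ![1, -1, -1, 1]

theorem vcls_prod {E : Type u} [Field E] (V : ValuationSubring E) {ι : Type*} (s : Finset ι)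
    (f : ι → E) (hf : ∀ i ∈ s, f i ≠ 0) : vcls V (∏ i ∈ s, f i) = ∑ i ∈ s, vcls V (f i) := by
  classical
  induction s using Finset.induction_on with
  | empty => rw [Finset.prod_empty, Finset.sum_empty, vcls_one]
  | insert a S ha ih =>
    rw [Finset.prod_insert ha, Finset.sum_insert ha, vcls_mul V (hf a (Finset.mem_insert_self a S))
      (Finset.prod_ne_zero_iff.mpr fun i hi => hf i (Finset.mem_insert_of_mem hi)),
      ih fun i hi => hf i (Finset.mem_insert_of_mem hi)]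

theorem vcls_zpow_twist {E : Type u} [Field E] (V : ValuationSubring E) {x : E} (hx : x ≠ 0) (n : ℤ) :
    vcls V (x ^ n) = n • vcls V x := by
  rcases n with n | n
  · rw [Int.ofNat_eq_natCast, zpow_natCast, vcls_pow V hx, natCast_zsmul]
  · rw [zpow_negSucc, vcls_inv, vcls_pow V hx, negSucc_zsmul]

/-- A subalgebra containing `y` or its inverse for all `y` is integrally closed. -/
theorem isIntegrallyClosed_of_mem_or_inv {k F : Type u} [Field k] [Field F] [Algebra k F]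
    (B : Subalgebra k F) (h : ∀ y : F, y ∈ B ∨ y⁻¹ ∈ B) : IsIntegrallyClosed B :=
  inferInstanceAs (IsIntegrallyClosed (ValuationSubring.mk B.toSubring h))

theorem exists_div_of_mem_or_inv {k F : Type u} [Field k] [Field F] [Algebra k F]
    (B : Subalgebra k F) (h : ∀ y : F, y ∈ B ∨ y⁻¹ ∈ B) (y : F) :
    ∃ a ∈ B, ∃ b ∈ B, b ≠ 0 ∧ y = a / b := by
  rcases h y with hy | hy
  · exact ⟨y, hy, 1, one_mem B, one_ne_zero, (div_one y).symm⟩
  · rcases eq_or_ne y 0 with h0 | h0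
    · exact ⟨0, zero_mem B, 1, one_mem B, one_ne_zero, by rw [h0, zero_div]⟩
    · exact ⟨1, one_mem B, y⁻¹, hy, inv_ne_zero h0, by rw [one_div, inv_inv]⟩

namespace Model

variable {K : Type u} [Field K] (M : Model K) {E L : Type u} [Field E] [Algebra K E] [Field L]
  [Algebra K L]

/-- The product of the ratios, with the signs of a second difference. -/
def twist (ε : ℤ) (Z : Fin 4 → M.Pt E) (i b : Fin 4 → Fin (M.r + 1)) : E :=
  ∏ s, M.ratio (Z s) (i s) (b s) ^ (ε * sgn4 s)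

variable (ε : ℤ) {Z : Fin 4 → M.Pt E} {i b c : Fin 4 → Fin (M.r + 1)}

theorem twist_ne_zero : M.twist ε Z i b ≠ 0 :=
  Finset.prod_ne_zero_iff.mpr fun _ _ => zpow_ne_zero _ (M.ratio_ne_zero _ _ _)

theorem twist_mul (hi : ∀ s, M.In (Z s) (i s)) (hb : ∀ s, M.In (Z s) (b s))
    (hc : ∀ s, M.In (Z s) (c s)) : M.twist ε Z i b * M.twist ε Z b c = M.twist ε Z i c := by
  rw [twist, twist, twist, ← Finset.prod_mul_distrib]
  exact Finset.prod_congr rfl fun s _ => by rw [← mul_zpow, M.ratio_mul (hi s) (hb s) (hc s)]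

theorem twist_self (hi : ∀ s, M.In (Z s) (i s)) : M.twist ε Z i i = 1 :=
  Finset.prod_eq_one fun s _ => by rw [M.ratio_self (hi s), one_zpow]

theorem twist_pair (h01 : Z 0 = Z 1) (h23 : Z 2 = Z 3) (hi01 : i 0 = i 1) (hi23 : i 2 = i 3)
    (hb01 : b 0 = b 1) (hb23 : b 2 = b 3) : M.twist ε Z i b = 1 := by
  simp only [twist, Fin.prod_univ_four, sgn4, Matrix.cons_val]
  rw [h01, h23, hi01, hi23, hb01, hb23, mul_one, mul_neg, mul_one, zpow_neg, zpow_neg,
    mul_inv_cancel₀ (zpow_ne_zero _ (M.ratio_ne_zero _ _ _)), one_mul,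
    inv_mul_cancel₀ (zpow_ne_zero _ (M.ratio_ne_zero _ _ _))]

theorem vcls_twist (V : ValuationSubring E) :
    vcls V (M.twist ε Z i b) = ε • ∑ s, sgn4 s • vcls V (M.ratio (Z s) (i s) (b s)) := by
  rw [twist, vcls_prod V _ _ fun s _ => zpow_ne_zero _ (M.ratio_ne_zero _ _ _), Finset.smul_sum]
  exact Finset.sum_congr rfl fun s _ => by
    rw [vcls_zpow_twist V (M.ratio_ne_zero _ _ _), mul_smul]

/-- The value of a twist, for charts over a subring. -/
theorem hom_twist {S : Subalgebra K E} (ev : S →ₐ[K] L) {Z' : Fin 4 → M.Pt L}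
    (φ : ∀ s, M.O (i s) →ₐ[K] S) (ψ : ∀ s, M.O (b s) →ₐ[K] S)
    (hφ : ∀ s, M.pt (i s) (S.val.comp (φ s)) = Z s)
    (hψ : ∀ s, M.pt (b s) (S.val.comp (ψ s)) = Z s)
    (hφ' : ∀ s, M.pt (i s) (ev.comp (φ s)) = Z' s) :
    ∃ h : M.twist ε Z i b ∈ S, ev ⟨_, h⟩ = M.twist ε Z' i b := by
  have key : ∀ s, ∃ U : Sˣ, ((U : S) : E) = M.ratio (Z s) (i s) (b s) ∧
      ev (U : S) = M.ratio (Z' s) (i s) (b s) := by
    intro s
    obtain ⟨h, he, hψ'⟩ := M.hom_ratio ev (φ s) (ψ s) (hφ s) (hψ s) (hφ' s)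
    obtain ⟨h', -, -⟩ := M.hom_ratio ev (ψ s) (φ s) (hψ s) (hφ s) hψ'
    have hm : M.ratio (Z s) (i s) (b s) * M.ratio (Z s) (b s) (i s) = 1 := by
      rw [M.ratio_mul ⟨_, hφ s⟩ ⟨_, hψ s⟩ ⟨_, hφ s⟩, M.ratio_self ⟨_, hφ s⟩]
    exact ⟨⟨⟨_, h⟩, ⟨_, h'⟩, Subtype.ext hm, Subtype.ext (by
      rw [mul_comm] at hm
      exact hm)⟩, rfl, he⟩
  choose U hU hUe using key
  have hpush : ∀ {A : Type u} [Field A] (f : S →* A),
      f (↑(∏ s, U s ^ (ε * sgn4 s)) : S) = ∏ s, f (U s : S) ^ (ε * sgn4 s) := by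
    intro A _ f
    show ((Units.map f (∏ s, U s ^ (ε * sgn4 s)) : Aˣ) : A) = _
    rw [map_prod, Units.coe_prod]
    exact Finset.prod_congr rfl fun s _ => by rw [map_zpow, Units.val_zpow_eq_zpow_val]; rfl
  have hval : ((↑(∏ s, U s ^ (ε * sgn4 s)) : S) : E) = M.twist ε Z i b :=
    (hpush (S.val : S →* E)).trans (Finset.prod_congr rfl fun s _ =>
      congrArg (· ^ (ε * sgn4 s)) (hU s))
  refine ⟨hval ▸ SetLike.coe_mem _, ?_⟩
  refine ((congrArg ev (Subtype.ext hval.symm)).trans (hpush (ev : S →* L))).trans ?_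
  exact Finset.prod_congr rfl fun s _ => congrArg (· ^ (ε * sgn4 s)) (hUe s)

end Model

end Fermat.Agent.AbVar
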