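import Fermat.Agent.AbVar.Cube.Extend

/-!
# Values of ratios, change of local ring, and specialisation of relations between points
-/

set_option autoImplicit false
set_option linter.style.haveILetI false
set_option linter.unusedSectionVars false

noncomputable section

open scoped TensorProduct

namespace Fermat.Agent.AbVar

universe u

/-! ## Values of ratios -/

namespace Model

variable {K : Type u} [Field K] (M : Model K) {E L : Type u} [Field E] [Algebra K E] [Field L]
  [Algebra K L]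

/-- A ratio at a point lying in two charts over a subring has the ratio at the image as value. -/
theorem hom_ratio {S : Subalgebra K E} (ev : S →ₐ[K] L) {Z : M.Pt E} {Z' : M.Pt L}
    {i j : Fin (M.r + 1)} (φ : M.O i →ₐ[K] S) (ψ : M.O j →ₐ[K] S)
    (hφ : M.pt i (S.val.comp φ) = Z) (hψ : M.pt j (S.val.comp ψ) = Z)
    (hφ' : M.pt i (ev.comp φ) = Z') :
    ∃ h : M.ratio Z i j ∈ S, ev ⟨_, h⟩ = M.ratio Z' i j ∧ M.pt j (ev.comp ψ) = Z' := by
  obtain ⟨χ, h1, h2⟩ := M.overlap _ _ (hφ.trans hψ.symm)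
  have hmem : ∀ a, χ a ∈ S := by
    have hle : M.O i ⊔ M.O j ≤ (S.comap χ).map (M.O i ⊔ M.O j).val :=
      sup_le (fun x hx => ⟨⟨x, Algebra.mem_sup_left hx⟩, by
          show χ _ ∈ S
          rw [show χ ⟨x, Algebra.mem_sup_left hx⟩ = S.val (φ ⟨x, hx⟩) from
            DFunLike.congr_fun h1 ⟨x, hx⟩]
          exact (φ ⟨x, hx⟩).2, rfl⟩)
        (fun x hx => ⟨⟨x, Algebra.mem_sup_right hx⟩, by
          show χ _ ∈ S
          rw [show χ ⟨x, Algebra.mem_sup_right hx⟩ = S.val (ψ ⟨x, hx⟩) from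
            DFunLike.congr_fun h2 ⟨x, hx⟩]
          exact (ψ ⟨x, hx⟩).2, rfl⟩)
    intro a
    obtain ⟨b, hb, hab⟩ := hle a.2
    rw [← (Subtype.ext hab : b = a)]
    exact hb
  let χ' : ↥(M.O i ⊔ M.O j) →ₐ[K] S := χ.codRestrict S hmem
  have hl : (ev.comp χ').comp (Subalgebra.inclusion le_sup_left) = ev.comp φ :=
    AlgHom.ext fun a => congrArg ev (Subtype.ext (DFunLike.congr_fun h1 a))
  have hr : (ev.comp χ').comp (Subalgebra.inclusion le_sup_right) = ev.comp ψ :=
    AlgHom.ext fun a => congrArg ev (Subtype.ext (DFunLike.congr_fun h2 a))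
  have hZ : M.ratio Z i j = χ ⟨M.h i / M.h j, M.h_unit i j⟩ := M.ratio_eq χ (by rw [h1]; exact hφ)
  refine ⟨hZ ▸ hmem _, ?_, ?_⟩
  · rw [M.ratio_eq (ev.comp χ') (by rw [hl]; exact hφ')]
    exact congrArg ev (Subtype.ext hZ)
  · rw [← hr, ← M.glue (ev.comp χ'), hl]
    exact hφ'

variable {k : Type u} [Field k] [Algebra K k] {Ω : Type u} [Field Ω] [Algebra K Ω] [Algebra k Ω]
  [IsScalarTower K k Ω]

/-- The ratio at a point with two integral charts reduces to the ratio at the reduction. -/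
theorem res_ratio {κ : Type u} [Field κ] [Algebra k κ] [Algebra K κ] [IsScalarTower K k κ]
    (V : Val k Ω) (π : V.alg →ₐ[k] κ) {Z : M.Pt Ω} {i j : Fin (M.r + 1)} (φ : M.O i →ₐ[K] Ω)
    (hφ : ∀ a, φ a ∈ V.1) (hφZ : M.pt i φ = Z) (ψ : M.O j →ₐ[K] Ω) (hψ : ∀ a, ψ a ∈ V.1)
    (hψZ : M.pt j ψ = Z) :
    ∃ h : M.ratio Z i j ∈ V.1, π ⟨_, h⟩ = M.ratio (M.redK V π Z) i j := by
  let φ' : M.O i →ₐ[K] V.alg.restrictScalars K := φ.codRestrict _ hφ
  let ev : V.alg.restrictScalars K →ₐ[K] κ := π.restrictScalars K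
  have hred : M.pt i (ev.comp φ') = M.redK V π Z :=
    hφZ ▸ (M.redK_pt V π i φ (ev.comp φ') hφ fun _ => rfl).symm
  obtain ⟨h, he, -⟩ := M.hom_ratio ev φ' (ψ.codRestrict (V.alg.restrictScalars K) hψ) hφZ hψZ hred
  exact ⟨h, he⟩

/-- Relations between divisors of points specialise along a valuation ring. -/
theorem specialise [IsAlgClosed k] (V : Val k Ω) [Algebra K V.Res] [IsScalarTower K k V.Res]
    {m : ℕ} (Z : Fin m → M.Pt Ω) (Z' : Fin m → M.Pt k) (e : Fin m → ℤ)
    (hred : ∀ s, M.redK V V.res (Z s) = M.map (IsScalarTower.toAlgHom K k V.Res) (Z' s))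
    (h : ∑ s, e s • M.ptDiv (Z s) ∈ TP K Ω) : ∑ s, e s • M.ptDiv (Z' s) ∈ TP K k := by
  classical
  obtain ⟨d, hd, t, ht, h⟩ := h
  set b' : Fin m → Fin (M.r + 1) := fun s => M.base (Z' s) with hb'
  set sk := IsScalarTower.toAlgHom K k V.Res with hsk
  set Zb : Fin m → M.Pt V.Res := fun s => M.map sk (Z' s) with hZb
  choose ψ hψ using fun s => M.in_base (Z' s)
  have hZbψ : ∀ s, M.pt (b' s) (sk.comp (ψ s)) = Zb s := fun s => by
    rw [← M.map_pt, hψ s]
  choose φ hφ hφZ using fun s =>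
    M.chart_of_redK V V.res V.res_local (Z s) (b' s) (sk.comp (ψ s)) (by rw [hred s, hZbψ s])
  set w : (Fin m → Fin (M.r + 1)) → Ω := fun c =>
    t⁻¹ * ∏ s, M.ratio (Z s) (c s) (M.base (Z s)) ^ ((d : ℤ) * e s) with hw
  have hvz : ∀ (A : ValuationSubring Ω) (x : Ω) (n : ℤ), x ≠ 0 →
      vcls A (x ^ n) = n • vcls A x := by
    intro A x n hx
    rcases n with n | n
    · rw [Int.ofNat_eq_natCast, zpow_natCast, vcls_pow A hx, natCast_zsmul]
    · rw [zpow_negSucc, vcls_inv, vcls_pow A hx, negSucc_zsmul]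
  have hvprod : ∀ (A : ValuationSubring Ω) (f : Fin m → Ω), (∀ s, f s ≠ 0) →
      vcls A (∏ s, f s) = ∑ s, vcls A (f s) := by
    intro A f hf
    induction (Finset.univ : Finset (Fin m)) using Finset.induction_on with
    | empty => rw [Finset.prod_empty, Finset.sum_empty, vcls_one]
    | insert a S ha ih =>
      rw [Finset.prod_insert ha, Finset.sum_insert ha,
        vcls_mul A (hf a) (Finset.prod_ne_zero_iff.mpr fun x _ => hf x), ih]
  have hwne : ∀ c, w c ≠ 0 := fun c => mul_ne_zero (inv_ne_zero ht)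
    (Finset.prod_ne_zero_iff.mpr fun s _ => zpow_ne_zero _ (M.ratio_ne_zero _ _ _))
  -- units at every valuation ring where the charts are integral
  have hunit : ∀ (A : Val K Ω) (c : Fin m → Fin (M.r + 1)),
      (∀ s, ∃ χ : M.O (c s) →ₐ[K] A.alg, M.pt (c s) (A.alg.val.comp χ) = Z s) →
      vcls A.1 (w c) = 0 := by
    intro A c hc
    have hval : ∀ s, M.ptDiv (Z s) A = vcls A.1 (M.ratio (Z s) (c s) (M.base (Z s))) := fun s => by
      obtain ⟨χ, hχ⟩ := hc s
      rw [M.ptDiv_eq χ hχ (M.in_base _), M.ratio_self (M.in_base _), vcls_one, sub_zero]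
    have hA : d • (∑ s, e s • M.ptDiv (Z s) A) = vcls A.1 t := by
      have h2 : d • (∑ s, e s • M.ptDiv (Z s)) A = vcls A.1 t := congrFun h A
      rwa [Finset.sum_apply] at h2
    rw [hw]
    show vcls A.1 (t⁻¹ * ∏ s, _) = 0
    rw [vcls_mul _ (inv_ne_zero ht) (Finset.prod_ne_zero_iff.mpr fun s _ =>
        zpow_ne_zero _ (M.ratio_ne_zero _ _ _)), vcls_inv,
      hvprod _ _ (fun s => zpow_ne_zero _ (M.ratio_ne_zero _ _ _)), ← hA, Finset.smul_sum]
    rw [neg_add_eq_sub, sub_eq_zero]
    refine Finset.sum_congr rfl fun s _ => ?_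
    rw [hvz _ _ _ (M.ratio_ne_zero _ _ _), hval s, ← natCast_zsmul, smul_smul]
  -- the reduction of the unit
  have huV := hunit (V.restrict k) b' fun s => ⟨(φ s).codRestrict _ (hφ s), hφZ s⟩
  obtain ⟨hu, hui⟩ := (vcls_eq_zero_iff (hwne b')).mp huV
  change w b' ∈ V.1 at hu
  change (w b')⁻¹ ∈ V.1 at hui
  set ub : V.Res := V.res ⟨_, hu⟩ with hub
  have hub0 : ub ≠ 0 := fun h0 => by
    rcases (V.res_eq_zero_iff _).mp h0 with h1 | h1
    · exact hwne b' h1
    · exact h1 hui
  have hkey : pullCDiv sk (d • ∑ s, e s • M.ptDiv (Z' s)) = principal K ub⁻¹ := by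
    funext W
    let R : Val K Ω := V.comp W
    choose c χ hχ using fun s => M.exists_chartA R (Z s)
    have hR : ∀ s a, R.alg.val (χ s a) ∈ V.1 := fun s a => (χ s a).2.1
    choose hrV hres using fun s => M.res_ratio V V.res (R.alg.val.comp (χ s)) (hR s) (hχ s)
      (φ s) (hφ s) (hφZ s)
    have hsplit : w c = w b' * ∏ s, M.ratio (Z s) (c s) (b' s) ^ ((d : ℤ) * e s) := by
      simp only [hw]
      rw [mul_assoc, ← Finset.prod_mul_distrib]
      refine congrArg (t⁻¹ * ·) (Finset.prod_congr rfl fun s _ => ?_)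
      rw [← mul_zpow, mul_comm (M.ratio (Z s) (b' s) (M.base (Z s))), M.ratio_mul ⟨_, hχ s⟩ ⟨φ s, hφZ s⟩ (M.in_base _)]
    -- reductions of the ratios
    have hin : ∀ s, ∃ χb : M.O (c s) →ₐ[K] W.alg, M.pt (c s) (W.alg.val.comp χb) = Zb s := by
      intro s
      let φV : M.O (c s) →ₐ[K] V.alg.restrictScalars K :=
        (R.alg.val.comp (χ s)).codRestrict _ (hR s)
      refine ⟨((V.res.restrictScalars K).comp φV).codRestrict W.alg fun a => (χ s a).2.2, ?_⟩
      show M.pt (c s) ((V.res.restrictScalars K).comp φV) = Zb s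
      rw [← M.redK_pt V V.res (c s) (R.alg.val.comp (χ s)) _ (hR s) fun a => rfl, hχ s, hred s]
    have hres' : ∀ s, V.res ⟨_, hrV s⟩ = M.ratio (Zb s) (c s) (b' s) := fun s => by
      rw [hres s, hred s]
    have hne' : ∀ s, M.ratio (Z s) (c s) (b' s) ≠ 0 := fun s => M.ratio_ne_zero _ _ _
    have hprodV : ∀ n : Fin m → ℤ, ∃ h : (∏ s, M.ratio (Z s) (c s) (b' s) ^ n s) ∈ V.1,
        V.res ⟨_, h⟩ = ∏ s, M.ratio (Zb s) (c s) (b' s) ^ n s := by
      intro n
      have hpow : ∀ s, ∃ h : M.ratio (Z s) (c s) (b' s) ^ n s ∈ V.1,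
          V.res ⟨_, h⟩ = M.ratio (Zb s) (c s) (b' s) ^ n s := by
        intro s
        have hi : (M.ratio (Z s) (c s) (b' s))⁻¹ ∈ V.1 := by
          by_contra hn
          exact M.ratio_ne_zero (Zb s) (c s) (b' s) ((hres' s).symm.trans (V.res_local _ hn))
        let U : V.algˣ := ⟨⟨_, hrV s⟩, ⟨_, hi⟩, Subtype.ext (mul_inv_cancel₀ (hne' s)),
          Subtype.ext (inv_mul_cancel₀ (hne' s))⟩
        have hU : (((U ^ n s : V.algˣ) : V.alg) : Ω) = M.ratio (Z s) (c s) (b' s) ^ n s := by
          have h := congrArg Units.val (map_zpow (Units.map (V.alg.val : V.alg →* Ω)) U (n s))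
          rw [Units.val_zpow_eq_zpow_val] at h
          exact h
        refine ⟨hU ▸ ((U ^ n s : V.algˣ) : V.alg).2, ?_⟩
        have h := congrArg Units.val (map_zpow (Units.map (V.res : V.alg →* V.Res)) U (n s))
        rw [Units.val_zpow_eq_zpow_val] at h
        rw [← hres' s]
        refine Eq.trans ?_ h
        exact congrArg V.res (Subtype.ext hU.symm)
      choose hm hmres using hpow
      refine ⟨prod_mem fun s _ => hm s, ?_⟩
      simp only [← hmres, ← map_prod]
      exact congrArg V.res (Subtype.ext (by simp))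
    obtain ⟨hP, hPres⟩ := hprodV fun s => (d : ℤ) * e s
    have h1 := (vcls_eq_zero_iff (hwne c)).mp (hunit R c fun s => ⟨χ s, hχ s⟩)
    obtain ⟨⟨hc1, hc1'⟩, hc2, hc2'⟩ := h1
    have hcres : V.res ⟨w c, hc1⟩ = ub * ∏ s, M.ratio (Zb s) (c s) (b' s) ^ ((d : ℤ) * e s) := by
      rw [hub, ← hPres, ← map_mul]
      exact congrArg V.res (Subtype.ext hsplit)
    have hne : ∏ s, M.ratio (Zb s) (c s) (b' s) ^ ((d : ℤ) * e s) ≠ 0 :=
      Finset.prod_ne_zero_iff.mpr fun s _ => zpow_ne_zero _ (M.ratio_ne_zero _ _ _)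
    have hinv : V.res ⟨(w c)⁻¹, hc2⟩ =
        (ub * ∏ s, M.ratio (Zb s) (c s) (b' s) ^ ((d : ℤ) * e s))⁻¹ := by
      refine eq_inv_of_mul_eq_one_left ?_
      rw [← hcres, ← map_mul, ← map_one V.res]
      exact congrArg V.res (Subtype.ext (inv_mul_cancel₀ (hwne c)))
    have h0 : vcls W.1 (ub * ∏ s, M.ratio (Zb s) (c s) (b' s) ^ ((d : ℤ) * e s)) = 0 :=
      (vcls_eq_zero_iff (mul_ne_zero hub0 hne)).mpr ⟨hcres ▸ hc1', hinv ▸ hc2'⟩
    rw [vcls_mul _ hub0 hne] at h0
    have hsum : ∀ s, pullCDiv sk (M.ptDiv (Z' s)) W =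
        vcls W.1 (M.ratio (Zb s) (c s) (b' s)) := fun s => by
      obtain ⟨χb, hχb⟩ := hin s
      rw [M.pullCDiv_ptDiv, Pi.add_apply, M.ptDiv_eq χb hχb ((M.in_base _).map M sk), principal,
        sub_add_cancel]
    have hlhs : pullCDiv sk (d • ∑ s, e s • M.ptDiv (Z' s)) W =
        ∑ s, ((d : ℤ) * e s) • vcls W.1 (M.ratio (Zb s) (c s) (b' s)) := by
      rw [map_nsmul, map_sum, Pi.smul_apply, Finset.sum_apply, Finset.smul_sum]
      refine Finset.sum_congr rfl fun s _ => ?_
      rw [map_zsmul, Pi.smul_apply, hsum s, ← natCast_zsmul, smul_smul]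
    rw [hlhs, principal, vcls_inv, eq_neg_iff_add_eq_zero, ← h0, add_comm]
    congr 1
    induction (Finset.univ : Finset (Fin m)) using Finset.induction_on with
    | empty => rw [Finset.prod_empty, Finset.sum_empty, vcls_one]
    | insert a S ha ih =>
      rw [Finset.prod_insert ha, Finset.sum_insert ha,
        vcls_mul W.1 (zpow_ne_zero _ (M.ratio_ne_zero _ _ _))
          (Finset.prod_ne_zero_iff.mpr fun x _ => zpow_ne_zero _ (M.ratio_ne_zero _ _ _)), ← ih]
      congr 1
      rcases hn : (d : ℤ) * e a with k₀ | k₀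
      · rw [Int.ofNat_eq_natCast, zpow_natCast, vcls_pow _ (M.ratio_ne_zero _ _ _), natCast_zsmul]
      · rw [zpow_negSucc, vcls_inv, vcls_pow _ (M.ratio_ne_zero _ _ _), negSucc_zsmul]
  -- the unit is a constant
  have hint : ∀ W : Val k V.Res, ub ∈ W.1 := by
    intro W
    have h1 := congrFun hkey (W.restrict k)
    obtain ⟨x, hx⟩ : ∃ x : k, ((W.restrict k (K := K)).comap sk).1 = ⊤ := ⟨0, SetLike.ext fun x =>
      iff_of_true (W.2 x) trivial⟩
    have hzero : pullCDiv sk (d • ∑ s, e s • M.ptDiv (Z' s)) (W.restrict k) = 0 := by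
      show valMap sk _ _ = 0
      refine (congrArg _ ?_).trans (map_zero (valMap sk (W.restrict k)))
      obtain ⟨a, ha⟩ := QuotientGroup.mk'_surjective _
        ((d • ∑ s, e s • M.ptDiv (Z' s)) ((W.restrict k (K := K)).comap sk))
      have h2 : vcls ((W.restrict k (K := K)).comap sk).1 (a : k) = 0 :=
        (vcls_eq_zero_iff a.ne_zero).mpr
          ⟨by rw [hx]; exact ValuationSubring.mem_top _, by rw [hx]; exact ValuationSubring.mem_top _⟩
      rw [vcls_units] at h2
      exact ha.symm.trans h2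
    rw [hzero, principal, vcls_inv, zero_eq_neg, vcls_eq_zero_iff hub0] at h1
    exact h1.1
  obtain ⟨u₀, hu₀⟩ : ∃ u₀ : k, algebraMap k V.Res u₀ = ub := by
    haveI : FiniteDimensional k (IntermediateField.adjoin k ({ub} : Set V.Res)) := by
      refine IntermediateField.adjoin.finiteDimensional ?_
      by_contra hni
      obtain ⟨A, hA, hAu⟩ := exists_valuationSubring_not_mem (algebraMap k V.Res).range
        (x := ub) fun hi => hni (by
          obtain ⟨p, hp, hpu⟩ := hi
          have hl : p.map (algebraMap k V.Res).range.subtype ∈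
              Polynomial.lifts (algebraMap k V.Res) :=
            (Polynomial.lifts_iff_coeff_lifts _).mpr fun i => by
              rw [Polynomial.coeff_map]; exact (p.coeff i).2
          obtain ⟨q, hq, -, hqm⟩ := Polynomial.lifts_and_natDegree_eq_and_monic hl (hp.map _)
          refine ⟨q, hqm, ?_⟩
          rw [Polynomial.eval₂_eq_eval_map, hq, Polynomial.eval_map]
          exact hpu)
      exact hAu (hint ⟨A, fun c => hA ⟨c, rfl⟩⟩)
    obtain ⟨u₀, hu₀⟩ := (IsAlgClosed.algebraMap_bijective_of_isIntegral (k := k)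
      (K := IntermediateField.adjoin k ({ub} : Set V.Res))).surjective
      ⟨ub, IntermediateField.mem_adjoin_simple_self k ub⟩
    exact ⟨u₀, congrArg Subtype.val hu₀⟩
  have hu0 : u₀ ≠ 0 := fun h0 => hub0 (by rw [← hu₀, h0, _root_.map_zero])
  refine ⟨d, hd, u₀⁻¹, inv_ne_zero hu0, eq_of_pullCDiv_eq sk ?_⟩
  rw [hkey, pullCDiv_principal sk (inv_ne_zero hu0), map_inv₀, ← hu₀]
  rfl

end Model

/-! ## Change of local ring -/

section Change

variable {k : Type u} [Field k] [IsAlgClosed k] {Ω F κ : Type u} [Field Ω] [Algebra k Ω] [Field F]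
  [Algebra k F] [Field κ] [Algebra k κ] (R : Val k Ω) (π : R.alg →ₐ[k] κ)
  (hloc : ∀ r : R.alg, (r : Ω)⁻¹ ∉ R.1 → π r = 0)

/-- Every element is a constant times a unit of the Gauss valuation. -/
theorem exists_gauss_scalar {x : Big k Ω F} (hx : x ≠ 0) :
    ∃ α : Ω, α ≠ 0 ∧ vcls (gauss R π).1 x = vcls (gauss R π).1 (incΩ k Ω F α) := by
  obtain ⟨a, b, hb, rfl⟩ := exists_big_div k Ω F x
  have ha : a ≠ 0 := fun h => hx (by rw [h, _root_.map_zero, zero_div])
  obtain ⟨c, a', hc, ha', hA⟩ := exists_gauss_decomp R π ha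
  obtain ⟨d, b', hd, hb', hB⟩ := exists_gauss_decomp R π hb
  have ha0 := intBig_ne_zero R π ⊤ (gaussPt k κ F) ha'
  have hb0 := intBig_ne_zero R π ⊤ (gaussPt k κ F) hb'
  have hunit : ∀ z : R.alg ⊗[k] (⊤ : Subalgebra k F),
      redPt R π (⊤ : Subalgebra k F) (gaussPt k κ F) z ≠ 0 →
        vcls (gauss R π).1 (intBig R (⊤ : Subalgebra k F) z) = 0 := fun z hz =>
    (vcls_eq_zero_iff (intBig_ne_zero R π ⊤ (gaussPt k κ F) hz)).mpr
      ⟨intBig_mem_locRing R π ⊤ (gaussPt k κ F) z,
        inv_mem_locRing R π ⊤ (gaussPt k κ F) (x := ⟨_, intBig_mem_locRing R π ⊤ (gaussPt k κ F) z⟩)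
          (by rw [evLoc_intBig]; exact hz)⟩
  refine ⟨c / d, div_ne_zero hc hd, ?_⟩
  rw [hA, hB, vcls_div _ (mul_ne_zero ((map_ne_zero _).mpr hc) ha0)
    (mul_ne_zero ((map_ne_zero _).mpr hd) hb0), vcls_mul _ ((map_ne_zero _).mpr hc) ha0,
    vcls_mul _ ((map_ne_zero _).mpr hd) hb0, hunit a' ha', hunit b' hb', add_zero, add_zero,
    map_div₀, vcls_div _ ((map_ne_zero _).mpr hc) ((map_ne_zero _).mpr hd)]

theorem evLoc_gauss_surjective (hπ : Function.Surjective π) :
    Function.Surjective (evLoc R π (⊤ : Subalgebra k F) (gaussPt k κ F)) := by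
  intro y
  obtain ⟨a, b, hb, rfl⟩ := exists_big_div k κ F y
  obtain ⟨a', ha'⟩ := exists_top_preimage (Ω := κ) a
  obtain ⟨b', hb'⟩ := exists_top_preimage (Ω := κ) b
  have hm : Function.Surjective
      (Algebra.TensorProduct.map π (AlgHom.id k (⊤ : Subalgebra k F))) :=
    TensorProduct.map_surjective (g := π.toLinearMap)
      (g' := (AlgHom.id k (⊤ : Subalgebra k F)).toLinearMap) hπ Function.surjective_id
  obtain ⟨A, rfl⟩ := hm a'
  obtain ⟨B, rfl⟩ := hm b'
  have hA : redPt R π (⊤ : Subalgebra k F) (gaussPt k κ F) A = bigMap k κ F a :=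
    (redPt_gauss R π A).trans ha'
  have hB : redPt R π (⊤ : Subalgebra k F) (gaussPt k κ F) B = bigMap k κ F b :=
    (redPt_gauss R π B).trans hb'
  have hB0 : redPt R π (⊤ : Subalgebra k F) (gaussPt k κ F) B ≠ 0 := by
    rw [hB]
    exact fun h => hb ((map_eq_zero_iff _ (bigMap_injective k κ F)).mp h)
  have hne := intBig_ne_zero R π ⊤ (gaussPt k κ F) hB0
  refine ⟨⟨intBig R (⊤ : Subalgebra k F) A / intBig R (⊤ : Subalgebra k F) B, A, B, hB0,
    div_mul_cancel₀ _ hne⟩, ?_⟩
  rw [evLoc_eq R π ⊤ (gaussPt k κ F) hB0 (div_mul_cancel₀ _ hne), hA, hB]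

/-- The value at the Gauss valuation and at a point, of an element of the local ring. -/
theorem exists_reduced_fraction {L : Type u} [Field L] [Algebra k L] [Algebra κ L]
    [IsScalarTower k κ L] (B : Subalgebra k F) (q : B →ₐ[k] L) {x : Big k Ω F}
    (hx : x ∈ locRing R π B q) :
    ∃ a b : κ ⊗[k] B,
      Algebra.TensorProduct.lift (IsScalarTower.toAlgHom k κ L) q (fun _ _ => Commute.all _ _) b ≠ 0 ∧
      evLoc R π (⊤ : Subalgebra k F) (gaussPt k κ F) ⟨x, locRing_le_gauss R π B q hx⟩ * bigSub B b =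
        bigSub B a ∧
      evLoc R π B q ⟨x, hx⟩ *
          Algebra.TensorProduct.lift (IsScalarTower.toAlgHom k κ L) q (fun _ _ => Commute.all _ _) b =
        Algebra.TensorProduct.lift (IsScalarTower.toAlgHom k κ L) q (fun _ _ => Commute.all _ _) a := by
  obtain ⟨a, b, hb, h⟩ := hx
  set m : R.alg ⊗[k] B →ₐ[k] κ ⊗[k] B := Algebra.TensorProduct.map π (AlgHom.id k B) with hm
  have h1 : ∀ z, redPt R π (⊤ : Subalgebra k F) (gaussPt k κ F) (topIncl R B z) =
      bigSub B (m z) := fun z =>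
    DFunLike.congr_fun (Algebra.TensorProduct.ext' fun r x => by
      simp only [m, AlgHom.comp_apply, topIncl, Algebra.TensorProduct.map_tmul, redPt,
        Algebra.TensorProduct.lift_tmul, bigSub, bigMap_tmul]
      rfl : (redPt R π (⊤ : Subalgebra k F) (gaussPt k κ F)).comp (topIncl R B) =
        (bigSub B).comp m) z
  have h2 : ∀ z, redPt R π B q z = Algebra.TensorProduct.lift (IsScalarTower.toAlgHom k κ L) q
      (fun _ _ => Commute.all _ _) (m z) := fun z =>
    DFunLike.congr_fun (Algebra.TensorProduct.ext' fun r x => by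
      simp only [m, redPt, AlgHom.comp_apply, Algebra.TensorProduct.map_tmul,
        Algebra.TensorProduct.lift_tmul]
      rfl : redPt R π B q = (Algebra.TensorProduct.lift (IsScalarTower.toAlgHom k κ L) q
        fun _ _ => Commute.all _ _).comp m) z
  refine ⟨m a, m b, by rw [← h2]; exact hb, ?_, ?_⟩
  · have hb' := redPt_topIncl_ne_zero R π B q hb
    rw [evLoc_eq R π ⊤ (gaussPt k κ F) hb' (a := topIncl R B a)
      (by rw [intBig_topIncl, intBig_topIncl, h]), ← h1, ← h1, div_mul_cancel₀ _ hb']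
  · rw [evLoc_eq R π B q hb h, ← h2, ← h2, div_mul_cancel₀ _ hb]

include hloc

/-- Passing from a valuation ring of the constants to the trivial one. -/
theorem evLoc_top (B : Subalgebra k F) (χ : B →ₐ[k] R.alg) {x : Big k Ω F}
    (hx : x ∈ locRing R π B (π.comp χ)) :
    ∃ (h : x ∈ locRing (Val.top k Ω) (Val.top k Ω).alg.val B (R.alg.val.comp χ))
      (hR : evLoc (Val.top k Ω) (Val.top k Ω).alg.val B (R.alg.val.comp χ) ⟨x, h⟩ ∈ R.1),
      π ⟨_, hR⟩ = evLoc R π B (π.comp χ) ⟨x, hx⟩ := by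
  obtain ⟨a, b, hb, h⟩ := hx
  let ι : R.alg ⊗[k] B →ₐ[k] (Val.top k Ω).alg ⊗[k] B :=
    Algebra.TensorProduct.map (R.alg.val.codRestrict (Val.top k Ω).alg fun _ =>
      ValuationSubring.mem_top _) (AlgHom.id k B)
  have hι : ∀ z, intBig (Val.top k Ω) B (ι z) = intBig R B z := fun z =>
    DFunLike.congr_fun (Algebra.TensorProduct.ext' fun r x => rfl :
      (intBig (Val.top k Ω) B).comp ι = intBig R B) z
  let e : R.alg ⊗[k] B →ₐ[k] R.alg :=
    Algebra.TensorProduct.lift (AlgHom.id k R.alg) χ fun _ _ => Commute.all _ _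
  have he : ∀ z, redPt (Val.top k Ω) (Val.top k Ω).alg.val B (R.alg.val.comp χ) (ι z) = (e z : Ω) :=
    fun z => DFunLike.congr_fun (Algebra.TensorProduct.ext' fun r x => by
      simp only [ι, e, redPt, AlgHom.comp_apply, Algebra.TensorProduct.map_tmul,
        Algebra.TensorProduct.lift_tmul, map_mul]
      rfl : (redPt (Val.top k Ω) (Val.top k Ω).alg.val B (R.alg.val.comp χ)).comp ι =
        R.alg.val.comp e) z
  have hπe : ∀ z, redPt R π B (π.comp χ) z = π (e z) := fun z =>
    DFunLike.congr_fun (Algebra.TensorProduct.ext' fun r x => by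
      simp only [e, redPt, AlgHom.comp_apply, Algebra.TensorProduct.lift_tmul, map_mul]
      rfl : redPt R π B (π.comp χ) = π.comp e) z
  have hb0 : π (e b) ≠ 0 := hπe b ▸ hb
  have hbi : (e b : Ω)⁻¹ ∈ R.1 := by_contra fun hn => hb0 (hloc _ hn)
  have heb : (e b : Ω) ≠ 0 := fun h0 => hb0 (by
    rw [show e b = 0 from Subtype.ext h0, _root_.map_zero])
  have hbt : redPt (Val.top k Ω) (Val.top k Ω).alg.val B (R.alg.val.comp χ) (ι b) ≠ 0 := by
    rw [he]; exact heb
  have h' : x * intBig (Val.top k Ω) B (ι b) = intBig (Val.top k Ω) B (ι a) := by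
    rw [hι, hι, h]
  have hv := evLoc_eq (Val.top k Ω) (Val.top k Ω).alg.val B (R.alg.val.comp χ) hbt h'
  replace hv := hv.trans ((congr_arg₂ (· / ·) (he a) (he b)).trans (div_eq_mul_inv _ _))
  have hR := mul_mem (e a).2 hbi
  refine ⟨⟨ι a, ι b, hbt, h'⟩, hv ▸ hR, ?_⟩
  rw [evLoc_eq R π B (π.comp χ) hb h, hπe, hπe, eq_div_iff hb0, ← map_mul]
  refine congrArg π (Subtype.ext ?_)
  refine ((congrArg (· * (e b : Ω)) hv).trans ?_)
  show (e a : Ω) * (e b : Ω)⁻¹ * (e b : Ω) = (e a : Ω)
  rw [mul_assoc, inv_mul_cancel₀ heb, mul_one]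

omit hloc in
/-- Enlarging the small ring. -/
theorem locRing_mono {L : Type u} [Field L] [Algebra k L] [Algebra κ L] [IsScalarTower k κ L]
    {B B' : Subalgebra k F} (hle : B ≤ B') (q' : B' →ₐ[k] L) {x : Big k Ω F}
    (hx : x ∈ locRing R π B (q'.comp (Subalgebra.inclusion hle))) :
    ∃ h : x ∈ locRing R π B' q',
      evLoc R π B' q' ⟨x, h⟩ = evLoc R π B (q'.comp (Subalgebra.inclusion hle)) ⟨x, hx⟩ := by
  obtain ⟨a, b, hb, h⟩ := hx
  let ι : R.alg ⊗[k] B →ₐ[k] R.alg ⊗[k] B' :=
    Algebra.TensorProduct.map (AlgHom.id k R.alg) (Subalgebra.inclusion hle)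
  have hι : ∀ z, intBig R B' (ι z) = intBig R B z := fun z =>
    DFunLike.congr_fun (Algebra.TensorProduct.ext' fun r x => rfl :
      (intBig R B').comp ι = intBig R B) z
  have he : ∀ z, redPt R π B' q' (ι z) = redPt R π B (q'.comp (Subalgebra.inclusion hle)) z :=
    fun z => DFunLike.congr_fun (Algebra.TensorProduct.ext' fun r x => by
      simp only [ι, redPt, AlgHom.comp_apply, Algebra.TensorProduct.map_tmul,
        Algebra.TensorProduct.lift_tmul]
      rfl : (redPt R π B' q').comp ι = redPt R π B (q'.comp (Subalgebra.inclusion hle))) z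
  have hb' : redPt R π B' q' (ι b) ≠ 0 := by rw [he]; exact hb
  have h' : x * intBig R B' (ι b) = intBig R B' (ι a) := by rw [hι, hι, h]
  exact ⟨⟨ι a, ι b, hb', h'⟩, by
    rw [evLoc_eq R π B' q' hb' h', evLoc_eq R π B _ hb h, he, he]⟩

end Change

/-- At a nontrivial valuation ring of a function field of one variable the residues are
constants. -/
theorem exists_res_eq_const {κ E : Type u} [Field κ] [IsAlgClosed κ] [Field E] [Algebra κ E]
    (y : E) [Algebra.IsAlgebraic (IntermediateField.adjoin κ ({y} : Set E)) E] (W : Val κ E)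
    (hW : W.1 ≠ ⊤) (z : W.alg) : ∃ c : κ, W.res z = algebraMap κ W.Res c := by
  classical
  have hinj : Function.Injective (algebraMap κ W.Res) := (algebraMap κ W.Res).injective
  -- algebraic residues are constants
  have hconst : ∀ r : W.Res, IsIntegral κ r → ∃ c : κ, r = algebraMap κ W.Res c := by
    intro r hr
    haveI : FiniteDimensional κ (IntermediateField.adjoin κ ({r} : Set W.Res)) :=
      IntermediateField.adjoin.finiteDimensional hr
    obtain ⟨c, hc⟩ := (IsAlgClosed.algebraMap_bijective_of_isIntegral (k := κ)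
      (K := IntermediateField.adjoin κ ({r} : Set W.Res))).surjective
      ⟨r, IntermediateField.mem_adjoin_simple_self κ r⟩
    exact ⟨c, (congrArg Subtype.val hc).symm⟩
  -- a generator with constant residue
  obtain ⟨t, ht, ht0⟩ : ∃ t : W.alg,
      IntermediateField.adjoin κ ({(t : E)} : Set E) = IntermediateField.adjoin κ ({y} : Set E) ∧
        ∃ c : κ, W.res t = algebraMap κ W.Res c := by
    by_cases hy : y ∈ W.1
    · refine ⟨⟨y, hy⟩, rfl, hconst _ (by_contra fun htr => hW ?_)⟩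
      have hunit : ∀ p : Polynomial κ, p ≠ 0 → (Polynomial.aeval y p)⁻¹ ∈ W.1 := fun p hp => by
        by_contra hn
        have h0 : W.res (Polynomial.aeval (⟨y, hy⟩ : W.alg) p) = 0 :=
          W.res_local _ (by rwa [← Subalgebra.coe_val, ← Polynomial.aeval_algHom_apply])
        rw [← Polynomial.aeval_algHom_apply] at h0
        exact htr (IsAlgebraic.isIntegral ⟨p, hp, h0⟩)
      have hsub : ∀ a : IntermediateField.adjoin κ ({y} : Set E), (a : E) ∈ W.1 := by
        rintro ⟨a, ha⟩
        obtain ⟨p, q, rfl⟩ := (IntermediateField.mem_adjoin_simple_iff _ _).mp ha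
        show Polynomial.aeval y p / Polynomial.aeval y q ∈ W.1
        rcases eq_or_ne q 0 with rfl | hq
        · rw [_root_.map_zero, div_zero]; exact zero_mem _
        · rw [div_eq_mul_inv]
          refine mul_mem ?_ (hunit q hq)
          rw [show Polynomial.aeval y p = W.alg.val (Polynomial.aeval (⟨y, hy⟩ : W.alg) p) from
            Polynomial.aeval_algHom_apply W.alg.val (⟨y, hy⟩ : W.alg) p]
          exact SetLike.coe_mem _
      refine SetLike.ext fun e => iff_of_true ?_ trivial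
      letI : Algebra (IntermediateField.adjoin κ ({y} : Set E)) W.1 :=
        ((algebraMap (IntermediateField.adjoin κ ({y} : Set E)) E).codRestrict W.1.toSubring
          hsub).toAlgebra
      haveI : IsScalarTower (IntermediateField.adjoin κ ({y} : Set E)) W.1 E :=
        IsScalarTower.of_algebraMap_eq fun _ => rfl
      have hi : IsIntegral W.1 e :=
        ((Algebra.IsAlgebraic.isAlgebraic (R := IntermediateField.adjoin κ ({y} : Set E)) e)
          |>.isIntegral).tower_top
      obtain ⟨w, hw⟩ := IsIntegrallyClosed.isIntegral_iff.mp hi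
      exact hw ▸ w.2
    · refine ⟨⟨y⁻¹, (W.1.mem_or_inv_mem y).resolve_left hy⟩, le_antisymm
        (IntermediateField.adjoin_simple_le_iff.mpr
          (inv_mem (IntermediateField.mem_adjoin_simple_self κ y)))
        (IntermediateField.adjoin_simple_le_iff.mpr ?_),
        0, by rw [W.res_local _ (by rwa [inv_inv]), _root_.map_zero]⟩
      simpa using inv_mem (IntermediateField.mem_adjoin_simple_self κ y⁻¹)
  obtain ⟨c₀, hc₀⟩ := ht0
  -- residues on the simple subfield
  have hfac : ∀ p : Polynomial κ, p ≠ 0 → ∃ (n : ℕ) (u : W.alg) (d : κ), d ≠ 0 ∧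
      W.res u = algebraMap κ W.Res d ∧
      Polynomial.aeval (t : E) p = ((t : E) - algebraMap κ E c₀) ^ n * (u : E) := by
    intro p hp
    obtain ⟨p₁, hp₁, hnd⟩ := Polynomial.exists_eq_pow_rootMultiplicity_mul_and_not_dvd p hp c₀
    rw [Polynomial.dvd_iff_isRoot, Polynomial.IsRoot] at hnd
    refine ⟨p.rootMultiplicity c₀, Polynomial.aeval t p₁, p₁.eval c₀, hnd, ?_, ?_⟩
    · rw [← Polynomial.aeval_algHom_apply, hc₀, Polynomial.aeval_algebraMap_apply,
        Polynomial.coe_aeval_eq_eval]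
    · conv_lhs => rw [hp₁]
      rw [map_mul, map_pow, map_sub, Polynomial.aeval_X, Polynomial.aeval_C,
        ]
      exact congrArg (_ * ·) (Polynomial.aeval_algHom_apply W.alg.val t p₁)
  have hsimple : ∀ a : W.alg, (a : E) ∈ IntermediateField.adjoin κ ({y} : Set E) →
      ∃ c : κ, W.res a = algebraMap κ W.Res c := by
    intro a ha
    rw [← ht, IntermediateField.mem_adjoin_simple_iff] at ha
    obtain ⟨p, q, hpq⟩ := ha
    rcases eq_or_ne (a : E) 0 with h0 | h0
    · exact ⟨0, by rw [show a = 0 from Subtype.ext h0, _root_.map_zero, _root_.map_zero]⟩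
    have hp : p ≠ 0 := fun h => h0 (by rw [hpq, h, _root_.map_zero, zero_div])
    have hq : q ≠ 0 := fun h => h0 (by rw [hpq, h, _root_.map_zero, div_zero])
    obtain ⟨n, u, d, hd, hu, hpu⟩ := hfac p hp
    obtain ⟨m, v, e, he, hv, hqv⟩ := hfac q hq
    have hu0 : W.res u ≠ 0 := by rw [hu]; exact (map_ne_zero _).mpr hd
    have hv0 : W.res v ≠ 0 := by rw [hv]; exact (map_ne_zero _).mpr he
    set s : W.alg := t - algebraMap κ W.alg c₀ with hs
    have hs0 : W.res s = 0 := by rw [hs, map_sub, AlgHom.commutes, hc₀, sub_self]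
    have hseq : (s : E) = (t : E) - algebraMap κ E c₀ := rfl
    rw [hpq] at h0
    rw [← hseq] at hpu hqv
    have hmul : (a : E) * ((s : E) ^ m * (v : E)) = (s : E) ^ n * (u : E) := by
      rw [hpq, hpu, hqv]
      refine div_mul_cancel₀ _ ?_
      intro h
      exact h0 (by rw [hqv, h, div_zero])
    have hv' : (v : E) ≠ 0 := fun h => hv0 (by
      rw [show v = 0 from Subtype.ext h, _root_.map_zero])
    rcases le_or_gt m n with hmn | hmn
    · obtain ⟨j, rfl⟩ := Nat.exists_eq_add_of_le hmn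
      rcases eq_or_ne (s : E) 0 with hs' | hs'
      · rcases Nat.eq_zero_or_pos m with rfl | hm
        · rw [pow_zero, one_mul, zero_add] at hmul
          have h := congrArg W.res (show a * v = s ^ j * u from Subtype.ext hmul)
          rw [map_mul, map_mul, map_pow, hs0, hu, hv] at h
          refine ⟨0 ^ j * d / e, ?_⟩
          rw [map_div₀, map_mul, map_pow, _root_.map_zero, eq_div_iff ((map_ne_zero _).mpr he), h]
        · exact absurd (by rw [hqv, hs', zero_pow hm.ne', zero_mul, div_zero]) h0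
      · have hmul' : (a : E) * (v : E) = (s : E) ^ j * (u : E) := by
          refine mul_left_cancel₀ (pow_ne_zero m hs') ?_
          linear_combination hmul
        have h := congrArg W.res (show a * v = s ^ j * u from Subtype.ext hmul')
        rw [map_mul, map_mul, map_pow, hs0, hu, hv] at h
        refine ⟨0 ^ j * d / e, ?_⟩
        rw [map_div₀, map_mul, map_pow, _root_.map_zero, eq_div_iff ((map_ne_zero _).mpr he), h]
    · obtain ⟨j, rfl⟩ := Nat.exists_eq_add_of_lt hmn
      rcases eq_or_ne (s : E) 0 with hs' | hs'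
      · exact absurd (by rw [hqv, hs', zero_pow (Nat.succ_ne_zero _), zero_mul, div_zero]) h0
      · have hmul' : (a : E) * (s : E) ^ (j + 1) * (v : E) = (u : E) := by
          refine mul_left_cancel₀ (pow_ne_zero n hs') ?_
          linear_combination hmul
        have h := congrArg W.res (show a * s ^ (j + 1) * v = u from Subtype.ext hmul')
        rw [map_mul, map_mul, map_pow, hs0, zero_pow (Nat.succ_ne_zero j), mul_zero, zero_mul] at h
        exact absurd h.symm hu0
  -- reduce an algebraic equation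
  rcases eq_or_ne (W.res z) 0 with h0 | h0
  · exact ⟨0, by rw [h0, _root_.map_zero]⟩
  refine hconst _ (IsAlgebraic.isIntegral ?_)
  obtain ⟨p, hp0, hp⟩ := Algebra.IsAlgebraic.isAlgebraic
    (R := IntermediateField.adjoin κ ({y} : Set E)) (z : E)
  obtain ⟨i₀, hi₀, hmax⟩ := Finset.exists_max_image p.support
    (fun i => W.1.valuation ((p.coeff i : IntermediateField.adjoin κ ({y} : Set E)) : E))
    (Polynomial.support_nonempty.mpr hp0)
  set a₀ : E := ((p.coeff i₀ : IntermediateField.adjoin κ ({y} : Set E)) : E) with ha₀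
  have ha0 : a₀ ≠ 0 := fun h => Polynomial.mem_support_iff.mp hi₀ (Subtype.ext h)
  have hcoef : ∀ i, ((p.coeff i : IntermediateField.adjoin κ ({y} : Set E)) : E) / a₀ ∈ W.alg :=
    fun i => by
      rw [Val.mem_alg, ← W.1.valuation_le_one_iff, map_div₀]
      refine (div_le_one₀ ((Valuation.pos_iff _).mpr ha0)).mpr ?_
      by_cases hi : i ∈ p.support
      · exact hmax i hi
      · rw [Polynomial.notMem_support_iff.mp hi, ZeroMemClass.coe_zero, _root_.map_zero]
        exact zero_le
  choose c hc using fun i => hsimple ⟨_, hcoef i⟩ (div_mem (SetLike.coe_mem _) (SetLike.coe_mem _))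
  refine ⟨∑ i ∈ p.support, Polynomial.monomial i (c i), fun h => ?_, ?_⟩
  · have h1 := congrArg (Polynomial.coeff · i₀) h
    simp only [Polynomial.finsetSum_coeff, Polynomial.coeff_monomial, Finset.sum_ite_eq', hi₀,
      if_true, Polynomial.coeff_zero] at h1
    have h2 := hc i₀
    rw [show (⟨_, hcoef i₀⟩ : W.alg) = 1 from Subtype.ext (div_self ha0), map_one, h1,
      _root_.map_zero] at h2
    exact one_ne_zero h2
  · rw [map_sum]
    simp only [Polynomial.aeval_monomial, ← hc, ← map_pow, ← map_mul, ← map_sum]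
    rw [← _root_.map_zero W.res]
    refine congrArg W.res (Subtype.ext ?_)
    rw [Polynomial.aeval_eq_sum_range, ← Finset.sum_subset Polynomial.supp_subset_range_natDegree_succ
      (fun i _ hi => by rw [Polynomial.notMem_support_iff.mp hi, zero_smul])] at hp
    push_cast
    simp only [div_mul_eq_mul_div, ← Finset.sum_div]
    rw [div_eq_zero_iff]
    exact Or.inl hp

end Fermat.Agent.AbVar
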